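import Mathlib

/-!
# Euler products over the ideals of a Dedekind domain
-/

set_option linter.all false

namespace Fermat.Agent.ExtVan

open scoped Topology
open Finset Filter IsDedekindDomain

variable {R : Type*} [CommRing R] [IsDedekindDomain R]

/-- ideals supported on a finite set of primes -/
def suppIn (S : Finset (HeightOneSpectrum R)) : Set (Ideal R) :=
  {I | I ≠ 0 ∧ ∀ v : HeightOneSpectrum R, v.asIdeal ∣ I → v ∈ S}

lemma suppIn_empty : suppIn (∅ : Finset (HeightOneSpectrum R)) = {1} := by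
  ext I
  constructor
  · rintro ⟨h0, h⟩
    rw [Set.mem_singleton_iff]
    by_contra h1
    have h2 : I ≠ ⊤ := fun h ↦ h1 (by rw [h, Ideal.one_eq_top])
    obtain ⟨M, hM, hIM⟩ := Ideal.exists_le_maximal I h2
    have hM0 : M ≠ ⊥ := by
      rintro rfl
      exact h0 (le_bot_iff.mp hIM)
    have := h ⟨M, hM.isPrime, hM0⟩ (Ideal.dvd_iff_le.mpr hIM)
    simp at this
  · intro h
    rw [Set.mem_singleton_iff] at h
    subst h
    refine ⟨one_ne_zero, fun v hv ↦ ?_⟩
    exact absurd (isUnit_of_dvd_one hv) v.prime.not_unit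

open scoped Classical in
lemma mul_mem_suppIn {S : Finset (HeightOneSpectrum R)} {v : HeightOneSpectrum R} (n : ℕ)
    {J : Ideal R} (hJ : J ∈ suppIn S) : v.asIdeal ^ n * J ∈ suppIn (insert v S) := by
  refine ⟨mul_ne_zero (pow_ne_zero _ v.ne_bot) hJ.1, fun w hw ↦ ?_⟩
  rcases (w.prime.dvd_or_dvd hw) with h | h
  · have h1 := w.prime.dvd_of_dvd_pow h
    have h2 : w = v := by
      apply HeightOneSpectrum.ext
      have h3 := Ideal.dvd_iff_le.mp h1
      exact (v.isMaximal.eq_of_le w.isPrime.ne_top h3).symm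
    rw [h2]; exact mem_insert_self _ _
  · exact mem_insert_of_mem (hJ.2 w h)

open scoped Classical in
/-- decomposition map -/
def decMap (S : Finset (HeightOneSpectrum R)) (v : HeightOneSpectrum R) (p : ℕ × suppIn S) :
    suppIn (insert v S) :=
  ⟨v.asIdeal ^ p.1 * p.2.1, mul_mem_suppIn p.1 p.2.2⟩

open scoped Classical in
lemma decMap_bijective (S : Finset (HeightOneSpectrum R)) (v : HeightOneSpectrum R) (hv : v ∉ S) :
    Function.Bijective (decMap S v) := by
  have hnd : ∀ J : suppIn S, ¬ v.asIdeal ∣ J.1 := fun J h ↦ hv (J.2.2 v h)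
  constructor
  · rintro ⟨n, J⟩ ⟨m, J'⟩ h
    have h1 : v.asIdeal ^ n * J.1 = v.asIdeal ^ m * J'.1 := congrArg Subtype.val h
    have hnm : n = m := by
      rcases lt_trichotomy n m with h2 | h2 | h2
      · exfalso
        obtain ⟨k, rfl⟩ := Nat.exists_eq_add_of_lt h2
        rw [add_assoc, pow_add, mul_assoc] at h1
        have h3 := mul_left_cancel₀ (pow_ne_zero n v.ne_bot) h1
        apply hnd J
        rw [h3, pow_succ', mul_assoc]
        exact dvd_mul_right _ _
      · exact h2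
      · exfalso
        obtain ⟨k, rfl⟩ := Nat.exists_eq_add_of_lt h2
        rw [add_assoc, pow_add, mul_assoc] at h1
        have h3 := mul_left_cancel₀ (pow_ne_zero m v.ne_bot) h1
        apply hnd J'
        rw [← h3, pow_succ', mul_assoc]
        exact dvd_mul_right _ _
    subst hnm
    have h3 := mul_left_cancel₀ (pow_ne_zero n v.ne_bot) h1
    have h4 : J = J' := Subtype.ext h3
    rw [h4]
  · rintro ⟨I, hI0, hI⟩
    have hfin : FiniteMultiplicity v.asIdeal I :=
      FiniteMultiplicity.of_not_isUnit v.prime.not_unit hI0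
    obtain ⟨J, hJ, hJ'⟩ := hfin.exists_eq_pow_mul_and_not_dvd
    have hJS : J ∈ suppIn S := by
      refine ⟨fun h ↦ ?_, fun w hw ↦ ?_⟩
      · rw [h, mul_zero] at hJ; exact hI0 hJ
      · have h1 : w ∈ insert v S := hI w (by rw [hJ]; exact dvd_mul_of_dvd_right hw _)
        rcases mem_insert.mp h1 with h2 | h2
        · subst h2; exact absurd hw hJ'
        · exact h2
    exact ⟨(multiplicity v.asIdeal I, ⟨J, hJS⟩), Subtype.ext hJ.symm⟩

variable {f : Ideal R →*₀ ℂ} (hf : Summable fun I ↦ ‖f I‖)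

include hf in
lemma norm_f_lt_one (v : HeightOneSpectrum R) : ‖f v.asIdeal‖ < 1 := by
  have hinj : Function.Injective fun n : ℕ ↦ v.asIdeal ^ n := by
    intro n m h
    exact pow_injective_of_not_isUnit v.prime.not_unit v.ne_bot h
  have h1 : Summable fun n : ℕ ↦ ‖f (v.asIdeal ^ n)‖ := hf.comp_injective hinj
  have h2 : Summable fun n : ℕ ↦ ‖f v.asIdeal‖ ^ n := by
    refine h1.congr fun n ↦ ?_
    rw [map_pow, norm_pow]
  rw [summable_geometric_iff_norm_lt_one] at h2
  simpa using h2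

include hf in
lemma suppIn_hasSum (S : Finset (HeightOneSpectrum R)) :
    HasSum (fun I : suppIn S ↦ f I) (∏ v ∈ S, (1 - f v.asIdeal)⁻¹) := by
  classical
  induction S using Finset.induction_on with
  | empty =>
    rw [prod_empty]
    have h1 : HasSum (fun I : ({1} : Set (Ideal R)) ↦ f I) 1 := by
      have := hasSum_fintype (fun I : ({1} : Set (Ideal R)) ↦ f I)
      have h0 : ∑ I : ({1} : Set (Ideal R)), f I = 1 := by
        rw [Fintype.sum_unique]
        exact map_one f
      rwa [h0] at this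
    have h2 : suppIn (∅ : Finset (HeightOneSpectrum R)) = {1} := suppIn_empty
    rw [h2]
    exact h1
  | insert v S hv ih =>
    rw [prod_insert hv, ← (Equiv.ofBijective _ (decMap_bijective S v hv)).hasSum_iff]
    have h1 : HasSum (fun n : ℕ ↦ f v.asIdeal ^ n) (1 - f v.asIdeal)⁻¹ :=
      hasSum_geometric_of_norm_lt_one (norm_f_lt_one hf v)
    have h2 : Summable fun p : ℕ × suppIn S ↦ f v.asIdeal ^ p.1 * f p.2.1 := by
      refine summable_mul_of_summable_norm (f := fun n : ℕ ↦ f v.asIdeal ^ n)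
        (g := fun J : suppIn S ↦ f J.1) ?_ ?_
      · have : Summable fun n : ℕ ↦ ‖f v.asIdeal‖ ^ n :=
          summable_geometric_of_lt_one (norm_nonneg _) (norm_f_lt_one hf v)
        refine this.congr fun n ↦ ?_
        rw [norm_pow]
      · exact hf.comp_injective (i := fun J : suppIn S ↦ J.1) Subtype.val_injective
    have h3 := h1.mul ih h2
    have h4 : ((fun I : suppIn (insert v S) ↦ f I) ∘
        (Equiv.ofBijective _ (decMap_bijective S v hv))) =
        fun p : ℕ × suppIn S ↦ f v.asIdeal ^ p.1 * f p.2.1 := by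
      funext p
      simp only [Function.comp_apply, Equiv.ofBijective_apply, decMap, map_mul, map_pow]
    rw [h4]
    exact h3

include hf in
/-- **Euler product over ideals.** -/
theorem euler_hasProd :
    HasProd (fun v : HeightOneSpectrum R ↦ (1 - f v.asIdeal)⁻¹) (∑' I, f I) := by
  classical
  rw [HasProd, SummationFilter.unconditional_filter, Metric.tendsto_atTop]
  intro ε hε
  have hf' : Summable f := hf.of_norm
  -- choose a finite set of ideals
  have hlim := tendsto_tsum_compl_atTop_zero (fun I : Ideal R ↦ ‖f I‖)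
  obtain ⟨T, hT⟩ := (hlim.eventually (gt_mem_nhds hε)).exists
  -- prime divisors of the ideals in T
  have hfin : ∀ I : Ideal R, I ≠ 0 → {v : HeightOneSpectrum R | v.asIdeal ∣ I}.Finite := by
    intro I hI
    exact Ideal.finite_factors hI
  let S₀ : Finset (HeightOneSpectrum R) := T.biUnion fun I ↦
    if h : I ≠ 0 then (hfin I h).toFinset else ∅
  have hS₀ : ∀ I ∈ T, I ≠ 0 → ∀ v : HeightOneSpectrum R, v.asIdeal ∣ I → v ∈ S₀ := by
    intro I hI hI0 v hv
    refine mem_biUnion.mpr ⟨I, hI, ?_⟩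
    rw [dif_pos hI0]
    exact (hfin I hI0).mem_toFinset.mpr hv
  refine ⟨S₀, fun S hS ↦ ?_⟩
  have h1 : ∑' I : suppIn S, f I = ∏ v ∈ S, (1 - f v.asIdeal)⁻¹ := (suppIn_hasSum hf S).tsum_eq
  rw [← h1, dist_eq_norm, norm_sub_rev]
  have h2 : ∑' I, f I - ∑' I : suppIn S, f I = ∑' I : ((suppIn S)ᶜ : Set (Ideal R)), f I := by
    have h3 := hf'.tsum_subtype_add_tsum_subtype_compl (suppIn S)
    rw [← h3]; ring
  rw [h2]
  have hc : Summable fun I : ((suppIn S)ᶜ : Set (Ideal R)) ↦ ‖f I‖ :=
    hf.comp_injective (i := fun I : ((suppIn S)ᶜ : Set (Ideal R)) ↦ (I : Ideal R))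
      Subtype.val_injective
  refine (norm_tsum_le_tsum_norm hc).trans_lt (lt_of_le_of_lt ?_ hT)
  have e1 : ∑' I : ((suppIn S)ᶜ : Set (Ideal R)), ‖f I‖ =
      ∑' I : Ideal R, ((suppIn S)ᶜ : Set (Ideal R)).indicator (fun I ↦ ‖f I‖) I :=
    tsum_subtype ((suppIn S)ᶜ : Set (Ideal R)) (fun I ↦ ‖f I‖)
  have e2 : ∑' I : {I // I ∉ T}, ‖f I.1‖ =
      ∑' I : Ideal R, ({I | I ∉ T} : Set (Ideal R)).indicator (fun I ↦ ‖f I‖) I :=
    tsum_subtype ({I | I ∉ T} : Set (Ideal R)) (fun I ↦ ‖f I‖)
  rw [e1, e2]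
  refine (hf.indicator _).tsum_le_tsum (fun I ↦ ?_) (hf.indicator _)
  by_cases hI : I ∈ ((suppIn S)ᶜ : Set (Ideal R))
  · rw [Set.indicator_of_mem hI]
    by_cases hI0 : I = 0
    · rw [hI0, map_zero, norm_zero]
      exact Set.indicator_nonneg (fun _ _ ↦ norm_nonneg _) _
    · have hIT : I ∈ ({I | I ∉ T} : Set (Ideal R)) := by
        intro hIT
        exact hI ⟨hI0, fun v hv ↦ hS (hS₀ I hIT hI0 v hv)⟩
      rw [Set.indicator_of_mem hIT]
  · rw [Set.indicator_of_notMem hI]
    exact Set.indicator_nonneg (fun _ _ ↦ norm_nonneg _) _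

end Fermat.Agent.ExtVan
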