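import Mathlib

/-!
# Tent functions and a partition of unity on `ℝ^n / ℤ^n`
-/

namespace Fermat.Agent.ExtVan

open Finset

/-- The tent function. -/
noncomputable def tent (t : ℝ) : ℝ := max 0 (1 - |t|)

lemma tent_nonneg (t : ℝ) : 0 ≤ tent t := le_max_left _ _

lemma tent_le_one (t : ℝ) : tent t ≤ 1 := by
  unfold tent
  exact max_le zero_le_one (by linarith [abs_nonneg t])

lemma abs_lt_one_of_tent_ne_zero {t : ℝ} (h : tent t ≠ 0) : |t| < 1 := by
  by_contra hc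
  push Not at hc
  apply h
  unfold tent
  exact max_eq_left (by linarith)

lemma tent_lip (a b : ℝ) : |tent a - tent b| ≤ |a - b| := by
  unfold tent
  rw [max_comm 0 (1 - |a|), max_comm 0 (1 - |b|)]
  refine (abs_max_sub_max_le_abs (1 - |a|) (1 - |b|) 0).trans ?_
  have : (1 - |a|) - (1 - |b|) = |b| - |a| := by ring
  rw [this, abs_sub_comm a b]
  exact abs_abs_sub_abs_le b a

lemma tent_hasSum (t : ℝ) : ∃ s : Finset ℤ, (∀ n ∉ s, tent (t + n) = 0) ∧
    ∑ n ∈ s, tent (t + n) = 1 := by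
  refine ⟨{-⌊t⌋, -⌊t⌋ - 1}, ?_, ?_⟩
  · intro n hn
    simp only [mem_insert, mem_singleton, not_or] at hn
    obtain ⟨h1, h2⟩ := hn
    have hf0 := Int.floor_le t
    have hf1 := Int.lt_floor_add_one t
    unfold tent
    refine max_eq_left ?_
    rcases lt_or_gt_of_ne h1 with h | h
    · have h3 : n < -⌊t⌋ - 1 := by omega
      have h4 : n ≤ -⌊t⌋ - 2 := by omega
      have h5 : (n : ℝ) ≤ -⌊t⌋ - 2 := by exact_mod_cast h4
      have : t + n < 0 := by linarith
      rw [abs_of_neg this]; linarith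
    · have h4 : -⌊t⌋ + 1 ≤ n := by omega
      have h5 : -(⌊t⌋ : ℝ) + 1 ≤ n := by exact_mod_cast h4
      have : 0 ≤ t + n := by linarith
      rw [abs_of_nonneg this]; linarith
  · rw [sum_pair (by omega)]
    have hf0 := Int.floor_le t
    have hf1 := Int.lt_floor_add_one t
    unfold tent
    push_cast
    rw [abs_of_nonneg (by linarith : (0:ℝ) ≤ t + -(⌊t⌋ : ℝ)),
      abs_of_nonpos (by linarith : t + (-(⌊t⌋ : ℝ) - 1) ≤ 0),
      max_eq_right (by linarith), max_eq_right (by linarith)]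
    ring

lemma prod_tent_hasSum {ι : Type*} [Fintype ι] [DecidableEq ι] (c : ι → ℝ) :
    HasSum (fun n : ι → ℤ ↦ ∏ i, tent (c i + n i)) 1 := by
  choose s hs0 hs1 using fun i ↦ tent_hasSum (c i)
  have h1 : ∑ n ∈ Fintype.piFinset s, ∏ i, tent (c i + n i) = 1 := by
    rw [← Finset.prod_univ_sum s (fun i (n : ℤ) ↦ tent (c i + n))]
    exact Finset.prod_eq_one fun i _ ↦ hs1 i
  rw [← h1]
  refine hasSum_sum_of_ne_finset_zero fun n hn ↦ ?_
  rw [Fintype.mem_piFinset] at hn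
  push Not at hn
  obtain ⟨i, hi⟩ := hn
  exact Finset.prod_eq_zero (Finset.mem_univ i) (hs0 i _ hi)

lemma abs_prod_sub_prod_le {ι : Type*} (s : Finset ι) (a b : ι → ℝ)
    (ha0 : ∀ i, 0 ≤ a i) (ha1 : ∀ i, a i ≤ 1) (hb0 : ∀ i, 0 ≤ b i) (hb1 : ∀ i, b i ≤ 1) :
    |∏ i ∈ s, a i - ∏ i ∈ s, b i| ≤ ∑ i ∈ s, |a i - b i| := by
  classical
  induction s using Finset.induction_on with
  | empty => simp
  | insert i s hi ih =>
    rw [prod_insert hi, prod_insert hi, sum_insert hi]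
    have hA0 : 0 ≤ ∏ i ∈ s, a i := prod_nonneg fun i _ ↦ ha0 i
    have hA1 : ∏ i ∈ s, a i ≤ 1 := prod_le_one (fun i _ ↦ ha0 i) fun i _ ↦ ha1 i
    have : a i * ∏ i ∈ s, a i - b i * ∏ i ∈ s, b i =
      (a i - b i) * ∏ i ∈ s, a i + b i * (∏ i ∈ s, a i - ∏ i ∈ s, b i) := by ring
    rw [this]
    refine (abs_add_le _ _).trans ?_
    rw [abs_mul, abs_mul, abs_of_nonneg hA0, abs_of_nonneg (hb0 i)]
    refine add_le_add ?_ ?_
    · exact mul_le_of_le_one_right (abs_nonneg _) hA1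
    · exact (mul_le_of_le_one_left (abs_nonneg _) (hb1 i)).trans ih

end Fermat.Agent.ExtVan
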