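import Mathlib
import Fermat.Agent.ExtVan.Tent

/-!
# A homogeneous Lipschitz weight function adapted to the units of a number field
-/

namespace Fermat.Agent.ExtVan

open Finset NumberField NumberField.Units NumberField.Units.dirichletUnitTheorem
  NumberField.InfinitePlace Module

variable (K : Type*) [Field K] [NumberField K]

/-- projection to the log space -/
noncomputable def lproj : (InfinitePlace K → ℝ) →ₗ[ℝ] logSpace K where
  toFun z := fun w ↦ (mult w.1 : ℝ) * (z w.1 - (∑ v, (mult v : ℝ) * z v) / finrank ℚ K)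
  map_add' x y := by
    ext w
    simp only [Pi.add_apply, mul_add, sum_add_distrib, add_div]
    ring
  map_smul' c x := by
    ext w
    simp only [Pi.smul_apply, smul_eq_mul, RingHom.id_apply]
    have : ∑ v, (mult v : ℝ) * (c * x v) = c * ∑ v, (mult v : ℝ) * x v := by
      rw [mul_sum]; exact sum_congr rfl fun v _ ↦ by ring
    rw [this]; ring

variable {K}

lemma lproj_apply (z : InfinitePlace K → ℝ) (w : {w : InfinitePlace K // w ≠ w₀}) :
    lproj K z w = (mult w.1 : ℝ) * (z w.1 - (∑ v, (mult v : ℝ) * z v) / finrank ℚ K) := rfl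

variable (K)

open scoped Classical in
/-- The real basis of the log space coming from the unit lattice. -/
noncomputable def logBasis : Basis (Fin (rank K)) ℝ (logSpace K) :=
  (basisUnitLattice K).ofZLatticeBasis ℝ (unitLattice K)

/-- coordinates -/
noncomputable def lcoord : (InfinitePlace K → ℝ) →ₗ[ℝ] (Fin (rank K) → ℝ) :=
  (logBasis K).equivFun.toLinearMap ∘ₗ lproj K

/-- The weight in logarithmic coordinates. -/
noncomputable def logWeight (z : InfinitePlace K → ℝ) : ℝ := ∏ i, tent (lcoord K z i)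

variable {K}

lemma logWeight_nonneg (z : InfinitePlace K → ℝ) : 0 ≤ logWeight K z :=
  prod_nonneg fun _ _ ↦ tent_nonneg _

lemma logWeight_le_one (z : InfinitePlace K → ℝ) : logWeight K z ≤ 1 :=
  prod_le_one (fun _ _ ↦ tent_nonneg _) fun _ _ ↦ tent_le_one _

variable (K)

open scoped Classical in
lemma exists_lcoord_lip : ∃ C : ℝ, 0 ≤ C ∧ ∀ z z' : InfinitePlace K → ℝ, ∀ i,
    |lcoord K z i - lcoord K z' i| ≤ C * ‖z - z'‖ := by
  let f := (lcoord K).toContinuousLinearMap
  refine ⟨‖f‖, norm_nonneg _, fun z z' i ↦ ?_⟩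
  have h1 : lcoord K z i - lcoord K z' i = f (z - z') i := by
    simp [f, map_sub]
  rw [h1, ← Real.norm_eq_abs]
  exact (norm_le_pi_norm (f (z - z')) i).trans (f.le_opNorm _)

lemma exists_logWeight_lip : ∃ C : ℝ, 0 ≤ C ∧ ∀ z z' : InfinitePlace K → ℝ,
    |logWeight K z - logWeight K z'| ≤ C * ‖z - z'‖ := by
  obtain ⟨C, hC0, hC⟩ := exists_lcoord_lip K
  refine ⟨rank K * C, by positivity, fun z z' ↦ ?_⟩
  refine (abs_prod_sub_prod_le _ _ _ (fun _ ↦ tent_nonneg _) (fun _ ↦ tent_le_one _)
    (fun _ ↦ tent_nonneg _) (fun _ ↦ tent_le_one _)).trans ?_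
  calc ∑ i, |tent (lcoord K z i) - tent (lcoord K z' i)|
      ≤ ∑ i : Fin (rank K), C * ‖z - z'‖ :=
        sum_le_sum fun i _ ↦ (tent_lip _ _).trans (hC z z' i)
    _ = rank K * C * ‖z - z'‖ := by simp [mul_assoc]

lemma sum_mult_eq_finrank : ∑ v : InfinitePlace K, (mult v : ℝ) = finrank ℚ K := by
  have := NumberField.InfinitePlace.sum_mult_eq (K := K)
  exact_mod_cast this

/-- If the weight does not vanish, then all the coordinates are comparable. -/
lemma exists_logWeight_supp : ∃ C : ℝ, 0 ≤ C ∧ ∀ z : InfinitePlace K → ℝ,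
    logWeight K z ≠ 0 → ∀ w v, |z w - z v| ≤ C := by
  classical
  let g := (logBasis K).equivFun.symm.toLinearMap.toContinuousLinearMap
  set n : ℝ := (Fintype.card (InfinitePlace K) : ℝ) with hn
  have hn1 : 1 ≤ n := by
    have : 0 < Fintype.card (InfinitePlace K) := Fintype.card_pos
    rw [hn]; exact_mod_cast this
  refine ⟨2 * (n * ‖g‖), by positivity, fun z hz ↦ ?_⟩
  have hc : ‖lcoord K z‖ ≤ 1 := by
    rw [pi_norm_le_iff_of_nonneg zero_le_one]
    intro i
    rw [Real.norm_eq_abs]
    refine (abs_lt_one_of_tent_ne_zero fun h0 ↦ hz ?_).le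
    exact prod_eq_zero (mem_univ i) h0
  have hl : ‖lproj K z‖ ≤ ‖g‖ := by
    have : lproj K z = g (lcoord K z) := by
      simp [g, lcoord]
    rw [this]
    exact (g.le_opNorm _).trans (mul_le_of_le_one_right (norm_nonneg _) hc)
  set a : ℝ := (∑ v, (mult v : ℝ) * z v) / finrank ℚ K with ha
  have hd : (finrank ℚ K : ℝ) ≠ 0 := Nat.cast_ne_zero.mpr finrank_pos.ne'
  have hw1 : ∀ w : InfinitePlace K, w ≠ w₀ → (mult w : ℝ) * |z w - a| ≤ ‖g‖ := by
    intro w hw
    have h1 := (norm_le_pi_norm (lproj K z) ⟨w, hw⟩).trans hl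
    rw [lproj_apply, Real.norm_eq_abs, abs_mul, abs_of_nonneg (Nat.cast_nonneg _)] at h1
    exact h1
  have hsum0 : ∑ w : InfinitePlace K, (mult w : ℝ) * (z w - a) = 0 := by
    simp_rw [mul_sub]
    rw [sum_sub_distrib, ← sum_mul, sum_mult_eq_finrank, ha, mul_div_cancel₀ _ hd, sub_self]
  have hw : ∀ w : InfinitePlace K, |z w - a| ≤ n * ‖g‖ := by
    intro w
    have hm : (1 : ℝ) ≤ mult w := by exact_mod_cast (Nat.one_le_iff_ne_zero.mpr mult_ne_zero)
    by_cases hw0 : w = w₀
    · subst hw0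
      have h2 : (mult (w₀ : InfinitePlace K) : ℝ) * (z w₀ - a) =
          - ∑ w ∈ univ.erase (w₀ : InfinitePlace K), (mult w : ℝ) * (z w - a) := by
        rw [← add_sum_erase univ _ (mem_univ (w₀ : InfinitePlace K))] at hsum0
        linarith
      have h3 : (mult (w₀ : InfinitePlace K) : ℝ) * |z w₀ - a| ≤ n * ‖g‖ := by
        rw [← abs_of_nonneg (Nat.cast_nonneg (mult (w₀ : InfinitePlace K)) : (0:ℝ) ≤ _),
          ← abs_mul, h2, abs_neg]
        refine (abs_sum_le_sum_abs _ _).trans ?_
        calc ∑ w ∈ univ.erase (w₀ : InfinitePlace K), |(mult w : ℝ) * (z w - a)|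
            ≤ ∑ w ∈ univ.erase (w₀ : InfinitePlace K), ‖g‖ := by
              refine sum_le_sum fun w hw ↦ ?_
              rw [abs_mul, abs_of_nonneg (Nat.cast_nonneg (mult w) : (0:ℝ) ≤ _)]
              exact hw1 w (ne_of_mem_erase hw)
          _ ≤ n * ‖g‖ := by
              rw [sum_const, nsmul_eq_mul]
              refine mul_le_mul_of_nonneg_right ?_ (norm_nonneg _)
              rw [hn]
              exact_mod_cast card_le_univ _
      refine le_trans ?_ h3
      exact le_mul_of_one_le_left (abs_nonneg _) hm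
    · have h1 := hw1 w hw0
      have h2 : |z w - a| ≤ ‖g‖ := le_trans (le_mul_of_one_le_left (abs_nonneg _) hm) h1
      exact h2.trans (le_mul_of_one_le_left (norm_nonneg _) hn1)
  intro w v
  have h1 := hw w
  have h2 := hw v
  have : z w - z v = (z w - a) - (z v - a) := by ring
  rw [this]
  refine (abs_sub _ _).trans ?_
  linarith

end Fermat.Agent.ExtVan
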