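import Mathlib
import Fermat.Agent.ExtVan.Weight

/-!
# Lipschitz estimates for the weighted norm function
-/

namespace Fermat.Agent.ExtVan

open Finset NumberField NumberField.Units NumberField.Units.dirichletUnitTheorem
  NumberField.InfinitePlace Module

variable {K : Type*} [Field K] [NumberField K]

/-- The log norm form. -/
noncomputable def nlog (z : InfinitePlace K → ℝ) : ℝ := ∑ w, (mult w : ℝ) * z w

/-- The weighted function `W(z) N(z)^{-s}` in logarithmic coordinates. -/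
noncomputable def Fw (s : ℝ) (z : InfinitePlace K → ℝ) : ℝ :=
  logWeight K z * Real.exp (-(s * nlog z))

lemma Fw_nonneg (s : ℝ) (z : InfinitePlace K → ℝ) : 0 ≤ Fw s z :=
  mul_nonneg (logWeight_nonneg z) (Real.exp_pos _).le

/-- vector of logs -/
noncomputable def vlog (y : InfinitePlace K → ℝ) : InfinitePlace K → ℝ := fun w ↦ Real.log (y w)

lemma nlog_sub_le {z z' : InfinitePlace K → ℝ} {e : ℝ} (h : ∀ w, |z w - z' w| ≤ e) :
    |nlog z - nlog z'| ≤ finrank ℚ K * e := by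
  unfold nlog
  rw [← sum_sub_distrib]
  refine (abs_sum_le_sum_abs _ _).trans ?_
  calc ∑ w, |(mult w : ℝ) * z w - (mult w : ℝ) * z' w|
      ≤ ∑ w : InfinitePlace K, (mult w : ℝ) * e := by
        refine sum_le_sum fun w _ ↦ ?_
        rw [← mul_sub, abs_mul, abs_of_nonneg (Nat.cast_nonneg _)]
        exact mul_le_mul_of_nonneg_left (h w) (Nat.cast_nonneg _)
    _ = finrank ℚ K * e := by rw [← sum_mul, sum_mult_eq_finrank]

lemma nlog_ge {z : InfinitePlace K → ℝ} {a : ℝ} (h : ∀ w, a ≤ z w) :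
    finrank ℚ K * a ≤ nlog z := by
  unfold nlog
  rw [← sum_mult_eq_finrank, sum_mul]
  exact sum_le_sum fun w _ ↦ mul_le_mul_of_nonneg_left (h w) (Nat.cast_nonneg _)

lemma norm_eq_of_pos (y : InfinitePlace K → ℝ) (hy : ∀ w, 0 < y w) :
    ∃ w, ‖y‖ = y w := by
  obtain ⟨w, hw⟩ := Finite.exists_max y
  refine ⟨w, le_antisymm ?_ ?_⟩
  · rw [pi_norm_le_iff_of_nonneg (hy w).le]
    intro v
    rw [Real.norm_eq_abs, abs_of_pos (hy v)]
    exact hw v
  · have := norm_le_pi_norm y w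
    rwa [Real.norm_eq_abs, abs_of_pos (hy w)] at this

lemma abs_log_sub_log_le {a b R : ℝ} (ha : 0 < a) (h : |b - a| ≤ R) (hR : R ≤ a / 2) :
    |Real.log b - Real.log a| ≤ 2 * R / a := by
  have hR0 : 0 ≤ R := (abs_nonneg _).trans h
  rw [abs_le] at h
  have hb : a / 2 ≤ b := by linarith
  have hb0 : 0 < b := by linarith
  rw [abs_le]
  constructor
  · -- log a - log b ≤ (a - b)/b ≤ R/(a/2)
    have h1 : Real.log (a / b) ≤ a / b - 1 := Real.log_le_sub_one_of_pos (by positivity)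
    rw [Real.log_div ha.ne' hb0.ne'] at h1
    have h2 : a / b - 1 ≤ 2 * R / a := by
      rw [div_sub_one hb0.ne', div_le_div_iff₀ hb0 ha]
      nlinarith
    linarith
  · have h1 : Real.log (b / a) ≤ b / a - 1 := Real.log_le_sub_one_of_pos (by positivity)
    rw [Real.log_div hb0.ne' ha.ne'] at h1
    have h2 : b / a - 1 ≤ 2 * R / a := by
      rw [div_sub_one ha.ne', div_le_div_iff₀ ha ha]
      nlinarith
    linarith

variable (K)

/-- Upper bound on the support. -/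
lemma exists_exp_nlog_bound : ∃ C : ℝ, 0 ≤ C ∧ ∀ s : ℝ, 1 ≤ s → s ≤ 2 →
    ∀ y : InfinitePlace K → ℝ, (∀ w, 0 < y w) → logWeight K (vlog y) ≠ 0 →
    Real.exp (-(s * nlog (vlog y))) ≤ C * ‖y‖ ^ (-(s * finrank ℚ K)) := by
  obtain ⟨C₂, hC₂, hsupp⟩ := exists_logWeight_supp K
  refine ⟨Real.exp (2 * (finrank ℚ K * C₂)), (Real.exp_pos _).le, fun s hs1 hs2 y hy hW ↦ ?_⟩
  obtain ⟨w, hw⟩ := norm_eq_of_pos y hy
  have hy0 : 0 < ‖y‖ := hw ▸ hy w
  have h1 : ∀ v, Real.log ‖y‖ - C₂ ≤ vlog y v := by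
    intro v
    have := hsupp _ hW w v
    rw [abs_le] at this
    have h3 : vlog y w = Real.log ‖y‖ := by rw [hw]; rfl
    linarith
  have h2 := nlog_ge h1
  rw [Real.rpow_def_of_pos hy0, ← Real.exp_add, Real.exp_le_exp]
  have hd : (0:ℝ) ≤ finrank ℚ K := Nat.cast_nonneg _
  have h3 : s * (finrank ℚ K * (Real.log ‖y‖ - C₂)) ≤ s * nlog (vlog y) :=
    mul_le_mul_of_nonneg_left h2 (by linarith)
  have h4 : s * (finrank ℚ K * C₂) ≤ 2 * (finrank ℚ K * C₂) :=
    mul_le_mul_of_nonneg_right hs2 (by positivity)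
  nlinarith

lemma exists_Fw_bound : ∃ C : ℝ, 0 ≤ C ∧ ∀ s : ℝ, 1 ≤ s → s ≤ 2 →
    ∀ y : InfinitePlace K → ℝ, (∀ w, 0 < y w) →
    Fw s (vlog y) ≤ C * ‖y‖ ^ (-(s * finrank ℚ K)) := by
  obtain ⟨C, hC, h⟩ := exists_exp_nlog_bound K
  refine ⟨C, hC, fun s hs1 hs2 y hy ↦ ?_⟩
  by_cases hW : logWeight K (vlog y) = 0
  · rw [Fw, hW, zero_mul]; positivity
  · refine le_trans ?_ (h s hs1 hs2 y hy hW)
    exact mul_le_of_le_one_left (Real.exp_pos _).le (logWeight_le_one _)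

lemma exists_Fw_lip0 (R : ℝ) (hR : 0 ≤ R) : ∃ C M : ℝ, 0 ≤ C ∧ 1 ≤ M ∧ ∀ s : ℝ, 1 ≤ s → s ≤ 2 →
    ∀ y y' : InfinitePlace K → ℝ, (∀ w, 0 < y w) → (∀ w, 0 < y' w) →
    (∀ w, |y' w - y w| ≤ R) → M ≤ ‖y‖ → logWeight K (vlog y) ≠ 0 →
    |Fw s (vlog y) - Fw s (vlog y')| ≤ C * ‖y‖ ^ (-((finrank ℚ K : ℝ) + 1)) := by
  obtain ⟨C₂, hC₂, hsupp⟩ := exists_logWeight_supp K
  obtain ⟨C₁, hC₁, hlip⟩ := exists_logWeight_lip K
  obtain ⟨C₀, hC₀, hexp⟩ := exists_exp_nlog_bound K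
  set d : ℝ := (finrank ℚ K : ℝ) with hd
  have hd0 : 0 ≤ d := Nat.cast_nonneg _
  set κ : ℝ := Real.exp (-C₂) with hκ
  have hκ0 : 0 < κ := Real.exp_pos _
  refine ⟨(C₁ + 4 * d) * (2 * R / κ) * C₀, 1 + 2 * R / κ + 4 * d * R / κ, by positivity, ?_, ?_⟩
  · have : 0 ≤ 2 * R / κ := by positivity
    have : 0 ≤ 4 * d * R / κ := by positivity
    linarith
  intro s hs1 hs2 y y' hy hy' hyy' hM hW
  obtain ⟨w, hw⟩ := norm_eq_of_pos y hy
  have hy0 : 0 < ‖y‖ := hw ▸ hy w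
  have hp1 : 0 ≤ 2 * R / κ := by positivity
  have hp2 : 0 ≤ 4 * d * R / κ := by positivity
  have hy1 : 1 ≤ ‖y‖ := by linarith
  have hlow : ∀ v, κ * ‖y‖ ≤ y v := by
    intro v
    have h1 := hsupp _ hW w v
    rw [abs_le] at h1
    have h2 : Real.log ‖y‖ - C₂ ≤ Real.log (y v) := by
      have h3 : vlog y w = Real.log ‖y‖ := by rw [hw]; rfl
      have h4 : vlog y v = Real.log (y v) := rfl
      linarith
    calc κ * ‖y‖ = Real.exp (Real.log ‖y‖ - C₂) := by
          rw [sub_eq_add_neg, Real.exp_add, Real.exp_log hy0, mul_comm]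
      _ ≤ Real.exp (Real.log (y v)) := Real.exp_le_exp.mpr h2
      _ = y v := Real.exp_log (hy v)
  set e : ℝ := 2 * R / (κ * ‖y‖) with he
  have he0 : 0 ≤ e := by positivity
  have hlog : ∀ v, |vlog y' v - vlog y v| ≤ e := by
    intro v
    have h1 : R ≤ y v / 2 := by
      have h2 : 2 * R / κ ≤ ‖y‖ := by linarith
      rw [div_le_iff₀ hκ0] at h2
      have := hlow v
      linarith
    refine (abs_log_sub_log_le (hy v) (hyy' v) h1).trans ?_
    rw [he]
    exact div_le_div_of_nonneg_left (by positivity) (by positivity) (hlow v)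
  have hlog' : ∀ v, |vlog y v - vlog y' v| ≤ e := fun v ↦ by rw [abs_sub_comm]; exact hlog v
  have hz : ‖vlog y - vlog y'‖ ≤ e := by
    rw [pi_norm_le_iff_of_nonneg he0]
    intro v
    rw [Real.norm_eq_abs]
    exact hlog' v
  have hn : |nlog (vlog y) - nlog (vlog y')| ≤ d * e := nlog_sub_le hlog'
  have hde : 2 * (d * e) ≤ 1 := by
    rw [he]
    have h1 : 4 * d * R / κ ≤ ‖y‖ := by linarith
    rw [div_le_iff₀ hκ0] at h1
    rw [← mul_assoc, mul_div_assoc', div_le_one (by positivity)]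
    linarith
  set E := Real.exp (-(s * nlog (vlog y))) with hE
  set E' := Real.exp (-(s * nlog (vlog y'))) with hE'
  have hE0 : 0 < E := Real.exp_pos _
  have hEE : |E - E'| ≤ E * (4 * (d * e)) := by
    have h1 : E' = E * Real.exp (s * (nlog (vlog y) - nlog (vlog y'))) := by
      rw [hE, hE', ← Real.exp_add]; congr 1; ring
    have h2 : E - E' = - (E * (Real.exp (s * (nlog (vlog y) - nlog (vlog y'))) - 1)) := by
      rw [h1]; ring
    rw [h2, abs_neg, abs_mul, abs_of_pos hE0]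
    refine mul_le_mul_of_nonneg_left ?_ hE0.le
    have h3 : |s * (nlog (vlog y) - nlog (vlog y'))| ≤ 2 * (d * e) := by
      rw [abs_mul, abs_of_nonneg (by linarith : (0:ℝ) ≤ s)]
      exact mul_le_mul hs2 hn (abs_nonneg _) (by norm_num)
    refine (Real.abs_exp_sub_one_le (h3.trans hde)).trans ?_
    linarith
  have hfin : |Fw s (vlog y) - Fw s (vlog y')| ≤ (C₁ + 4 * d) * e * E := by
    have h1 : Fw s (vlog y) - Fw s (vlog y') =
        (logWeight K (vlog y) - logWeight K (vlog y')) * E + logWeight K (vlog y') * (E - E') := by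
      simp only [Fw, ← hE, ← hE']; ring
    rw [h1]
    refine (abs_add_le _ _).trans ?_
    rw [abs_mul, abs_mul, abs_of_pos hE0, abs_of_nonneg (logWeight_nonneg (vlog y'))]
    have h2 : |logWeight K (vlog y) - logWeight K (vlog y')| ≤ C₁ * e :=
      (hlip _ _).trans (mul_le_mul_of_nonneg_left hz hC₁)
    have h3 : logWeight K (vlog y') * |E - E'| ≤ E * (4 * (d * e)) :=
      (mul_le_of_le_one_left (abs_nonneg _) (logWeight_le_one _)).trans hEE
    have h4 := mul_le_mul_of_nonneg_right h2 hE0.le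
    nlinarith
  refine hfin.trans ?_
  have h5 : E ≤ C₀ * ‖y‖ ^ (-d) := by
    refine (hexp s hs1 hs2 y hy hW).trans ?_
    refine mul_le_mul_of_nonneg_left ?_ hC₀
    refine Real.rpow_le_rpow_of_exponent_le hy1 ?_
    nlinarith
  calc (C₁ + 4 * d) * e * E ≤ (C₁ + 4 * d) * e * (C₀ * ‖y‖ ^ (-d)) :=
        mul_le_mul_of_nonneg_left h5 (by positivity)
    _ = (C₁ + 4 * d) * (2 * R / κ) * C₀ * ‖y‖ ^ (-(d + 1)) := by
        rw [he, neg_add, Real.rpow_add hy0, Real.rpow_neg_one]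
        field_simp

lemma exists_Fw_lip (R : ℝ) (hR : 0 ≤ R) : ∃ C M : ℝ, 0 ≤ C ∧ 1 ≤ M ∧ ∀ s : ℝ, 1 ≤ s → s ≤ 2 →
    ∀ y y' : InfinitePlace K → ℝ, (∀ w, 0 < y w) → (∀ w, 0 < y' w) →
    (∀ w, |y' w - y w| ≤ R) → M ≤ ‖y‖ →
    |Fw s (vlog y) - Fw s (vlog y')| ≤ C * ‖y‖ ^ (-((finrank ℚ K : ℝ) + 1)) := by
  obtain ⟨C, M, hC, hM, h⟩ := exists_Fw_lip0 K R hR
  set d : ℝ := (finrank ℚ K : ℝ) with hd
  have hd0 : 0 ≤ d := Nat.cast_nonneg _
  refine ⟨C * 2 ^ (d + 1), 2 * M + 2 * R, by positivity, by linarith, ?_⟩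
  intro s hs1 hs2 y y' hy hy' hyy' hMy
  have hpow : (1:ℝ) ≤ 2 ^ (d + 1) := Real.one_le_rpow (by norm_num) (by linarith)
  have hy0 : 0 < ‖y‖ := by linarith
  by_cases hW : logWeight K (vlog y) = 0
  · by_cases hW' : logWeight K (vlog y') = 0
    · simp only [Fw, hW, hW', zero_mul, sub_self, abs_zero]
      positivity
    · have hyy : ‖y‖ - R ≤ ‖y'‖ := by
        obtain ⟨w, hw⟩ := norm_eq_of_pos y hy
        have h1 := hyy' w
        rw [abs_le] at h1
        have h2 : y' w ≤ ‖y'‖ := by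
          have := norm_le_pi_norm y' w
          rwa [Real.norm_eq_abs, abs_of_pos (hy' w)] at this
        rw [hw]; linarith
      have h2 : ‖y‖ / 2 ≤ ‖y'‖ := by linarith
      have h1 := h s hs1 hs2 y' y hy' hy (fun w ↦ by rw [abs_sub_comm]; exact hyy' w)
        (by linarith) hW'
      rw [abs_sub_comm]
      refine h1.trans ?_
      rw [mul_assoc]
      refine mul_le_mul_of_nonneg_left ?_ hC
      calc ‖y'‖ ^ (-(d + 1)) ≤ (‖y‖ / 2) ^ (-(d + 1)) := by
            refine Real.rpow_le_rpow_of_nonpos (by positivity) h2 (by linarith)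
        _ = 2 ^ (d + 1) * ‖y‖ ^ (-(d + 1)) := by
            rw [Real.div_rpow hy0.le (by norm_num), Real.rpow_neg (by norm_num : (0:ℝ) ≤ 2)]
            field_simp
  · refine (h s hs1 hs2 y y' hy hy' hyy' (by linarith) hW).trans ?_
    have h3 : C ≤ C * 2 ^ (d + 1) := le_mul_of_one_le_right hC hpow
    exact mul_le_mul_of_nonneg_right h3 (by positivity)

end Fermat.Agent.ExtVan
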