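import Mathlib
import Fermat.Agent.ExtVan.WeightLip

/-!
# Comparison of weighted sums over the ring of integers and over an ideal
-/

set_option linter.all false

namespace Fermat.Agent.ExtVan

open scoped Classical
open Finset NumberField NumberField.Units NumberField.Units.dirichletUnitTheorem
  NumberField.InfinitePlace Module

variable {K : Type*} [Field K] [NumberField K]

/-- vector of absolute values -/
noncomputable def pv (x : 𝓞 K) : InfinitePlace K → ℝ := fun w ↦ w (x : K)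

lemma pv_nonneg (x : 𝓞 K) (w : InfinitePlace K) : 0 ≤ pv x w := apply_nonneg _ _

lemma pv_pos {x : 𝓞 K} (hx : x ≠ 0) (w : InfinitePlace K) : 0 < pv x w :=
  InfinitePlace.pos_iff.mpr (by simpa using hx)

lemma pv_add_sub_le (x r : 𝓞 K) (w : InfinitePlace K) : |pv (r + x) w - pv x w| ≤ ‖pv r‖ := by
  have h1 : |pv (r + x) w - pv x w| ≤ pv r w := by
    unfold pv
    have h2 : w (((r + x : 𝓞 K)) : K) ≤ w (r : K) + w (x : K) := by
      push_cast
      exact w.1.add_le _ _
    have h3 : w (x : K) ≤ w (((r + x : 𝓞 K)) : K) + w (r : K) := by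
      have : (x : K) = ((r + x : 𝓞 K) : K) + (-(r : K)) := by push_cast; ring
      calc w (x : K) = w (((r + x : 𝓞 K) : K) + (-(r : K))) := by rw [← this]
        _ ≤ w ((r + x : 𝓞 K) : K) + w (-(r : K)) := w.1.add_le _ _
        _ = w ((r + x : 𝓞 K) : K) + w (r : K) := by
          congr 1
          exact w.1.map_neg (r : K)
    rw [abs_le]
    constructor <;> linarith
  refine h1.trans ?_
  have := norm_le_pi_norm (pv r) w
  rwa [Real.norm_eq_abs, abs_of_nonneg (pv_nonneg r w)] at this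

lemma norm_pv_eq (x : 𝓞 K) : ‖pv x‖ = ‖mixedEmbedding K (x : K)‖ := by
  rw [mixedEmbedding.norm_eq_sup'_normAtPlace]
  apply le_antisymm
  · have h0 : 0 ≤ univ.sup' univ_nonempty
        fun w ↦ mixedEmbedding.normAtPlace w (mixedEmbedding K (x : K)) := by
      obtain ⟨w⟩ := (inferInstance : Nonempty (InfinitePlace K))
      exact (mixedEmbedding.normAtPlace_nonneg w _).trans
        (le_sup' (fun w ↦ mixedEmbedding.normAtPlace w (mixedEmbedding K (x : K))) (mem_univ w))
    rw [pi_norm_le_iff_of_nonneg h0]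
    intro w
    rw [Real.norm_eq_abs, abs_of_nonneg (pv_nonneg x w)]
    refine le_trans (le_of_eq ?_)
      (le_sup' (fun w ↦ mixedEmbedding.normAtPlace w (mixedEmbedding K (x : K))) (mem_univ w))
    exact (mixedEmbedding.normAtPlace_apply w (x : K)).symm
  · refine sup'_le _ _ fun w _ ↦ ?_
    rw [mixedEmbedding.normAtPlace_apply]
    have := norm_le_pi_norm (pv x) w
    rwa [Real.norm_eq_abs, abs_of_nonneg (pv_nonneg x w)] at this

variable (K) in
lemma summable_norm_pv (r : ℝ) (hr : r < -finrank ℚ K) :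
    Summable fun x : 𝓞 K ↦ ‖pv x‖ ^ r := by
  have hfr : finrank ℤ (mixedEmbedding.integerLattice K) = finrank ℚ K := by
    rw [ZLattice.rank ℝ, mixedEmbedding.finrank]
  have h := ZLattice.summable_norm_rpow (mixedEmbedding.integerLattice K) r (by rw [hfr]; exact hr)
  let e : 𝓞 K → mixedEmbedding.integerLattice K := fun x ↦ ⟨mixedEmbedding K (x : K), x, rfl⟩
  have he : Function.Injective e := by
    intro x y hxy
    have h1 : mixedEmbedding K (x : K) = mixedEmbedding K (y : K) := congrArg Subtype.val hxy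
    exact RingOfIntegers.coe_injective ((mixedEmbedding_injective K) h1)
  refine (h.comp_injective he).congr fun x ↦ ?_
  simp only [Function.comp, norm_pv_eq]
  rfl

lemma one_le_norm_pv {x : 𝓞 K} (hx : x ≠ 0) : 1 ≤ ‖pv x‖ := by
  by_contra hc
  push Not at hc
  have h1 : ∀ w, pv x w < 1 := fun w ↦ by
    have := norm_le_pi_norm (pv x) w
    rw [Real.norm_eq_abs, abs_of_nonneg (pv_nonneg x w)] at this
    exact this.trans_lt hc
  have h2 : |Algebra.norm ℚ (x : K)| = ∏ w : InfinitePlace K, w (x : K) ^ mult w :=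
    (InfinitePlace.prod_eq_abs_norm (x : K)).symm
  have h3 : (1 : ℝ) ≤ (|Algebra.norm ℚ (x : K)| : ℚ) := by
    have h4 : Algebra.norm ℤ x ≠ 0 := Algebra.norm_ne_zero_iff.mpr hx
    have h5 : ((Algebra.norm ℤ x : ℤ) : ℚ) = Algebra.norm ℚ (x : K) := Algebra.coe_norm_int x
    rw [← h5]
    have h6 : 1 ≤ |Algebra.norm ℤ x| := Int.one_le_abs h4
    exact_mod_cast h6
  have h7 : (∏ w : InfinitePlace K, w (x : K) ^ mult w) < 1 := by
    obtain ⟨w₁⟩ := (inferInstance : Nonempty (InfinitePlace K))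
    calc ∏ w : InfinitePlace K, w (x : K) ^ mult w
        < ∏ w : InfinitePlace K, (1 : ℝ) := by
          refine prod_lt_prod_of_nonempty (fun w _ ↦ pow_pos (pv_pos hx w) _) (fun w _ ↦ ?_)
            univ_nonempty
          exact pow_lt_one₀ (pv_nonneg x w) (h1 w) mult_ne_zero
      _ = 1 := by simp
  rw [← h2] at h7
  linarith

/-- The weighted term. -/
noncomputable def G (s : ℝ) (x : 𝓞 K) : ℝ := if x = 0 then 0 else Fw s (vlog (pv x))

lemma G_nonneg (s : ℝ) (x : 𝓞 K) : 0 ≤ G s x := by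
  unfold G; split_ifs
  · rfl
  · exact Fw_nonneg _ _

lemma G_zero (s : ℝ) : G s (0 : 𝓞 K) = 0 := by simp [G]

lemma G_of_ne {s : ℝ} {x : 𝓞 K} (hx : x ≠ 0) : G s x = Fw s (vlog (pv x)) := by simp [G, hx]

variable (K)

lemma exists_G_bound : ∃ C : ℝ, 0 ≤ C ∧ ∀ s : ℝ, 1 ≤ s → s ≤ 2 → ∀ x : 𝓞 K,
    G s x ≤ C * ‖pv x‖ ^ (-(s * finrank ℚ K)) := by
  obtain ⟨C, hC, h⟩ := exists_Fw_bound K
  refine ⟨C, hC, fun s hs1 hs2 x ↦ ?_⟩
  by_cases hx : x = 0
  · subst hx; rw [G_zero]; positivity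
  · rw [G_of_ne hx]; exact h s hs1 hs2 _ (pv_pos hx)

lemma summable_G {s : ℝ} (hs1 : 1 < s) (hs2 : s ≤ 2) : Summable fun x : 𝓞 K ↦ G s x := by
  obtain ⟨C, hC, h⟩ := exists_G_bound K
  refine Summable.of_nonneg_of_le (fun x ↦ G_nonneg s x) (fun x ↦ h s hs1.le hs2 x) ?_
  refine (summable_norm_pv K _ ?_).mul_left C
  have hd : (0:ℝ) < finrank ℚ K := Nat.cast_pos.mpr finrank_pos
  nlinarith

/-- The bounding function for the difference of two translates. -/
lemma exists_diff_bound (r : 𝓞 K) : ∃ H : 𝓞 K → ℝ, Summable H ∧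
    ∀ s : ℝ, 1 ≤ s → s ≤ 2 → ∀ x : 𝓞 K, |G s (r + x) - G s x| ≤ H x := by
  obtain ⟨C₁, hC₁, hb⟩ := exists_G_bound K
  obtain ⟨C, M, hC, hM, hlip⟩ := exists_Fw_lip K ‖pv r‖ (norm_nonneg _)
  set d : ℝ := (finrank ℚ K : ℝ) with hd
  have hd0 : (0:ℝ) < d := by rw [hd]; exact Nat.cast_pos.mpr finrank_pos
  have hb' : ∀ s : ℝ, 1 ≤ s → s ≤ 2 → ∀ x : 𝓞 K, G s x ≤ C₁ := by
    intro s hs1 hs2 x
    by_cases hx : x = 0
    · subst hx; rw [G_zero]; exact hC₁
    · refine (hb s hs1 hs2 x).trans (mul_le_of_le_one_right hC₁ ?_)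
      exact Real.rpow_le_one_of_one_le_of_nonpos (one_le_norm_pv hx) (by nlinarith)
  set M' := M + ‖pv r‖ with hM'
  have hr0 : 0 ≤ ‖pv r‖ := norm_nonneg _
  refine ⟨fun x ↦ (C + C₁ * M' ^ (d + 1)) * ‖pv x‖ ^ (-(d + 1)) + if x = 0 then C₁ else 0,
    ?_, ?_⟩
  · refine Summable.add ((summable_norm_pv K _ (by rw [← hd]; linarith)).mul_left _) ?_
    exact summable_of_ne_finset_zero (s := {0}) fun x hx ↦ by
      simp only [mem_singleton] at hx
      simp [hx]
  · intro s hs1 hs2 x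
    have hM'0 : 0 ≤ M' := by positivity
    have hpow0 : 0 ≤ ‖pv x‖ ^ (-(d + 1)) := by positivity
    beta_reduce
    by_cases hx : x = 0
    · subst hx
      rw [if_pos rfl, G_zero, sub_zero, abs_of_nonneg (G_nonneg _ _)]
      have h1 := hb' s hs1 hs2 (r + 0)
      have : 0 ≤ (C + C₁ * M' ^ (d + 1)) * ‖pv (0 : 𝓞 K)‖ ^ (-(d + 1)) := by positivity
      linarith
    · rw [if_neg hx, add_zero]
      by_cases hMx : M' < ‖pv x‖
      · have hrx : r + x ≠ 0 := by
          intro h0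
          have h1 : x = -r := by
            rw [eq_neg_iff_add_eq_zero, add_comm]; exact h0
          have h2 : ‖pv x‖ = ‖pv r‖ := by
            have : pv x = pv r := by
              ext w
              simp only [pv, h1]
              push_cast
              exact w.1.map_neg (r : K)
            rw [this]
          linarith
        rw [G_of_ne hrx, G_of_ne hx, abs_sub_comm]
        refine (hlip s hs1 hs2 (pv x) (pv (r + x)) (pv_pos hx) (pv_pos hrx)
          (fun w ↦ pv_add_sub_le x r w) (by linarith)).trans ?_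
        refine mul_le_mul_of_nonneg_right ?_ hpow0
        have : 0 ≤ C₁ * M' ^ (d + 1) := by positivity
        linarith
      · push Not at hMx
        have h1 : |G s (r + x) - G s x| ≤ C₁ := by
          have h2 := hb' s hs1 hs2 (r + x)
          have h3 := hb' s hs1 hs2 x
          have h4 := G_nonneg s (r + x)
          have h5 := G_nonneg s x
          rw [abs_le]; constructor <;> linarith
        refine h1.trans ?_
        have hx1 := one_le_norm_pv hx
        have h6 : (1:ℝ) ≤ M' ^ (d + 1) * ‖pv x‖ ^ (-(d + 1)) := by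
          rw [Real.rpow_neg (norm_nonneg _), ← div_eq_mul_inv, one_le_div (by positivity)]
          exact Real.rpow_le_rpow (norm_nonneg _) hMx (by linarith)
        calc C₁ = C₁ * 1 := (mul_one _).symm
          _ ≤ C₁ * (M' ^ (d + 1) * ‖pv x‖ ^ (-(d + 1))) := mul_le_mul_of_nonneg_left h6 hC₁
          _ ≤ (C + C₁ * M' ^ (d + 1)) * ‖pv x‖ ^ (-(d + 1)) := by
            have : 0 ≤ C * ‖pv x‖ ^ (-(d + 1)) := by positivity
            linarith

/-- The weighted sum over an ideal. -/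
noncomputable def SG (b : Ideal (𝓞 K)) (s : ℝ) : ℝ := ∑' x : b, G s (x : 𝓞 K)

/-- Comparison: the weighted sum over `𝓞 K` is `N(b)` times the weighted sum over `b`, up to a
bounded error. -/
theorem exists_SG_compare (b : Ideal (𝓞 K)) (hb : b ≠ ⊥) : ∃ C : ℝ, ∀ s : ℝ, 1 < s → s ≤ 2 →
    |(∑' x : 𝓞 K, G s x) - Ideal.absNorm b * SG K b s| ≤ C := by
  haveI : Finite (𝓞 K ⧸ b) := Ideal.finiteQuotientOfFreeOfNeBot b hb
  letI := Fintype.ofFinite (𝓞 K ⧸ b)
  choose H hHs hH using exists_diff_bound K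
  -- the equivalence
  let e : (𝓞 K ⧸ b) × b ≃ 𝓞 K :=
    { toFun := fun p ↦ Quotient.out p.1 + p.2
      invFun := fun x ↦ (Ideal.Quotient.mk b x, ⟨x - Quotient.out (Ideal.Quotient.mk b x), by
        rw [← Ideal.Quotient.eq]
        exact (Quotient.out_eq (Ideal.Quotient.mk b x)).symm⟩)
      left_inv := by
        rintro ⟨q, x, hx⟩
        have h1 : Ideal.Quotient.mk b (Quotient.out q + x) = q := by
          rw [map_add, Ideal.Quotient.eq_zero_iff_mem.mpr hx, add_zero]
          exact Quotient.out_eq q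
        ext1
        · exact h1
        · apply Subtype.ext
          simp only [h1]
          ring
      right_inv := by
        intro x
        simp }
  refine ⟨∑ q : 𝓞 K ⧸ b, ∑' x : b, H (Quotient.out q) (x : 𝓞 K), fun s hs1 hs2 ↦ ?_⟩
  have hsG := summable_G K hs1 hs2
  have hsGe : Summable fun p : (𝓞 K ⧸ b) × b ↦ G s (e p) := e.summable_iff.mpr hsG
  have h1 : ∑' x : 𝓞 K, G s x = ∑ q : 𝓞 K ⧸ b, ∑' x : b, G s (Quotient.out q + (x : 𝓞 K)) := by
    rw [← e.tsum_eq, hsGe.tsum_prod, tsum_fintype]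
    rfl
  have h2 : (Ideal.absNorm b : ℝ) * SG K b s = ∑ q : 𝓞 K ⧸ b, ∑' x : b, G s (x : 𝓞 K) := by
    rw [sum_const, card_univ, nsmul_eq_mul, SG]
    congr 2
    rw [Ideal.absNorm_apply, Submodule.cardQuot_apply, Nat.card_eq_fintype_card]
  have hsb : Summable fun x : b ↦ G s (x : 𝓞 K) :=
    hsG.comp_injective (i := fun x : b ↦ (x : 𝓞 K)) Subtype.val_injective
  have hsq : ∀ q : 𝓞 K ⧸ b, Summable fun x : b ↦ G s (Quotient.out q + (x : 𝓞 K)) := fun q ↦
    hsG.comp_injective (i := fun x : b ↦ Quotient.out q + (x : 𝓞 K))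
      (fun x y hxy ↦ Subtype.ext (add_left_cancel hxy))
  rw [h1, h2, ← sum_sub_distrib]
  refine (abs_sum_le_sum_abs _ _).trans (sum_le_sum fun q _ ↦ ?_)
  rw [← (hsq q).tsum_sub hsb]
  have hHb : Summable fun x : b ↦ H (Quotient.out q) (x : 𝓞 K) :=
    (hHs (Quotient.out q)).comp_injective (i := fun x : b ↦ (x : 𝓞 K)) Subtype.val_injective
  have hab : Summable fun x : b ↦ |G s (Quotient.out q + (x : 𝓞 K)) - G s (x : 𝓞 K)| :=
    Summable.of_nonneg_of_le (fun _ ↦ abs_nonneg _) (fun x ↦ hH _ s hs1.le hs2 _) hHb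
  calc |∑' x : b, (G s (Quotient.out q + (x : 𝓞 K)) - G s (x : 𝓞 K))|
      ≤ ∑' x : b, |G s (Quotient.out q + (x : 𝓞 K)) - G s (x : 𝓞 K)| := by
        have := norm_tsum_le_tsum_norm (f := fun x : b ↦
          G s (Quotient.out q + (x : 𝓞 K)) - G s (x : 𝓞 K)) hab
        simpa only [Real.norm_eq_abs] using this
    _ ≤ ∑' x : b, H (Quotient.out q) (x : 𝓞 K) :=
        hab.tsum_le_tsum (fun x ↦ hH _ s hs1.le hs2 _) hHb

end Fermat.Agent.ExtVan
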