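import Mathlib
import Fermat.Agent.ExtVan.LatticeSum

/-!
# Zeta sums over an ideal class
-/

set_option linter.all false

namespace Fermat.Agent.ExtVan

open scoped Classical nonZeroDivisors
open Finset NumberField NumberField.Units NumberField.Units.dirichletUnitTheorem
  NumberField.InfinitePlace Module

variable {K : Type*} [Field K] [NumberField K]

lemma vlog_pv_mul {x y : 𝓞 K} (hx : x ≠ 0) (hy : y ≠ 0) :
    vlog (pv (x * y)) = vlog (pv x) + vlog (pv y) := by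
  ext w
  simp only [vlog, pv, Pi.add_apply]
  push_cast
  rw [map_mul, Real.log_mul]
  · exact (pv_pos hx w).ne'
  · exact (pv_pos hy w).ne'

lemma lproj_vlog_unit (u : (𝓞 K)ˣ) :
    lproj K (vlog (pv (u : 𝓞 K))) = logEmbedding K (Additive.ofMul u) := by
  ext w
  rw [lproj_apply, logEmbedding_component]
  have h : ∑ v : InfinitePlace K, (mult v : ℝ) * vlog (pv (u : 𝓞 K)) v = 0 :=
    sum_mult_mul_log u
  rw [h, zero_div, sub_zero]
  rfl

lemma lcoord_vlog_unit (ζ : torsion K) (e : Fin (rank K) → ℤ) :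
    lcoord K (vlog (pv (((ζ : (𝓞 K)ˣ) * ∏ i, fundSystem K i ^ e i : (𝓞 K)ˣ) : 𝓞 K))) =
      fun i ↦ (e i : ℝ) := by
  have h1 : logEmbedding K (Additive.ofMul ((ζ : (𝓞 K)ˣ) * ∏ i, fundSystem K i ^ e i)) =
      ∑ i, (e i : ℝ) • logBasis K i := by
    rw [ofMul_mul, map_add, (logEmbedding_eq_zero_iff).mpr ζ.2, zero_add, ofMul_prod, map_sum]
    refine sum_congr rfl fun i _ ↦ ?_
    rw [ofMul_zpow, map_zsmul, logEmbedding_fundSystem, ← Int.cast_smul_eq_zsmul ℝ]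
    congr 1
    rw [logBasis, Basis.ofZLatticeBasis_apply]
  unfold lcoord
  rw [LinearMap.comp_apply, lproj_vlog_unit, h1]
  ext i
  simp [Finsupp.single_apply]

lemma unit_ne_zero' (u : (𝓞 K)ˣ) : (u : 𝓞 K) ≠ 0 := u.ne_zero

lemma units_hasSum {x : 𝓞 K} (hx : x ≠ 0) :
    HasSum (fun u : (𝓞 K)ˣ ↦ logWeight K (vlog (pv ((u : 𝓞 K) * x)))) (torsionOrder K) := by
  let e : torsion K × (Fin (rank K) → ℤ) ≃ (𝓞 K)ˣ :=
    Equiv.ofBijective (fun p ↦ (p.1 : (𝓞 K)ˣ) * ∏ i, fundSystem K i ^ p.2 i)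
      ⟨fun p q hpq ↦ by
          obtain ⟨r, -, hr⟩ := exist_unique_eq_mul_prod K
            ((p.1 : (𝓞 K)ˣ) * ∏ i, fundSystem K i ^ p.2 i)
          rw [hr p rfl, hr q hpq],
        fun u ↦ by
          obtain ⟨r, hr, -⟩ := exist_unique_eq_mul_prod K u
          exact ⟨r, hr.symm⟩⟩
  rw [← e.hasSum_iff]
  have h1 : (fun u : (𝓞 K)ˣ ↦ logWeight K (vlog (pv ((u : 𝓞 K) * x)))) ∘ e =
      fun p : torsion K × (Fin (rank K) → ℤ) ↦
        ∏ i, tent (lcoord K (vlog (pv x)) i + p.2 i) := by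
    ext p
    simp only [Function.comp_apply, logWeight]
    refine prod_congr rfl fun i _ ↦ ?_
    rw [vlog_pv_mul (unit_ne_zero' _) hx, map_add, Pi.add_apply]
    have := congrFun (lcoord_vlog_unit p.1 p.2) i
    simp only [e, Equiv.ofBijective_apply]
    rw [this, add_comm]
  rw [h1]
  have h2 := prod_tent_hasSum (lcoord K (vlog (pv x)))
  letI : Fintype (torsion K) := Fintype.ofFinite _
  have h3 : HasSum (fun _ : torsion K ↦ (1 : ℝ)) (torsionOrder K) := by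
    have := hasSum_fintype (fun _ : torsion K ↦ (1 : ℝ))
    rw [sum_const, card_univ, nsmul_eq_mul, mul_one] at this
    rwa [torsionOrder, Nat.card_eq_fintype_card]
  have hs : Summable fun p : torsion K × (Fin (rank K) → ℤ) ↦
      ∏ i, tent (lcoord K (vlog (pv x)) i + p.2 i) := by
    rw [summable_prod_of_nonneg]
    · refine ⟨fun _ ↦ h2.summable, ?_⟩
      exact Summable.of_finite
    · intro p
      exact prod_nonneg fun _ _ ↦ tent_nonneg _
  have h4 := hs.hasSum.prod_fiberwise (fun ζ ↦ h2)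
  have h5 := hs.hasSum
  rw [h4.unique h3] at h5
  exact h5

lemma exp_nlog {x : 𝓞 K} (hx : x ≠ 0) (s : ℝ) :
    Real.exp (-(s * nlog (vlog (pv x)))) = (Ideal.absNorm (Ideal.span {x}) : ℝ) ^ (-s) := by
  have h1 : (Ideal.absNorm (Ideal.span {x}) : ℝ) = ∏ w : InfinitePlace K, w (x : K) ^ mult w := by
    rw [InfinitePlace.prod_eq_abs_norm, Ideal.absNorm_span_singleton, ← Algebra.coe_norm_int x,
      Nat.cast_natAbs]
    push_cast
    rfl
  have h2 : nlog (vlog (pv x)) = Real.log (Ideal.absNorm (Ideal.span {x}) : ℝ) := by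
    have h0 : ∀ w ∈ (univ : Finset (InfinitePlace K)), (w (x : K)) ^ mult w ≠ 0 := fun w _ ↦
      (pow_pos (pv_pos hx w) _).ne'
    rw [h1, Real.log_prod h0]
    refine sum_congr rfl fun w _ ↦ ?_
    rw [Real.log_pow]
    rfl
  have h3 : (0:ℝ) < Ideal.absNorm (Ideal.span {x}) := by
    rw [h1]
    exact prod_pos fun w _ ↦ pow_pos (pv_pos hx w) _
  rw [h2, Real.rpow_def_of_pos h3]
  congr 1; ring

lemma span_unit_mul (u : (𝓞 K)ˣ) (x : 𝓞 K) :
    Ideal.span {(u : 𝓞 K) * x} = Ideal.span {x} :=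
  Ideal.span_singleton_eq_span_singleton.mpr (associated_unit_mul_left x _ u.isUnit)

/-- generators of an ideal are indexed by units -/
noncomputable def genEquiv {x : 𝓞 K} (hx : x ≠ 0) :
    (𝓞 K)ˣ ≃ {y : 𝓞 K // Ideal.span {y} = Ideal.span {x}} :=
  Equiv.ofBijective (fun u ↦ ⟨(u : 𝓞 K) * x, span_unit_mul u x⟩)
    ⟨fun u v huv ↦ Units.ext (mul_right_cancel₀ hx (congrArg Subtype.val huv)),
      fun ⟨y, hy⟩ ↦ by
        obtain ⟨u, hu⟩ := (Ideal.span_singleton_eq_span_singleton.mp hy).symm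
        exact ⟨u, Subtype.ext ((mul_comm _ _).trans hu)⟩⟩

lemma genEquiv_apply {x : 𝓞 K} (hx : x ≠ 0) (u : (𝓞 K)ˣ) :
    (genEquiv hx u : 𝓞 K) = (u : 𝓞 K) * x := rfl

/-- Sum of the weighted terms over all the generators of a principal ideal. -/
lemma fiber_hasSum {x : 𝓞 K} (hx : x ≠ 0) (s : ℝ) :
    HasSum (fun y : {y : 𝓞 K // Ideal.span {y} = Ideal.span {x}} ↦ G s (y : 𝓞 K))
      (torsionOrder K * (Ideal.absNorm (Ideal.span {x}) : ℝ) ^ (-s)) := by
  rw [← (genEquiv hx).hasSum_iff]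
  have h1 := (units_hasSum hx).mul_right ((Ideal.absNorm (Ideal.span {x}) : ℝ) ^ (-s))
  have h2 : ((fun y : {y : 𝓞 K // Ideal.span {y} = Ideal.span {x}} ↦ G s (y : 𝓞 K)) ∘
      (genEquiv hx)) = fun u : (𝓞 K)ˣ ↦ logWeight K (vlog (pv ((u : 𝓞 K) * x))) *
        (Ideal.absNorm (Ideal.span {x}) : ℝ) ^ (-s) := by
    funext u
    have hux : (u : 𝓞 K) * x ≠ 0 := mul_ne_zero (unit_ne_zero' u) hx
    rw [Function.comp_apply, genEquiv_apply, G_of_ne hux, Fw, exp_nlog hux, span_unit_mul]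
  rw [h2]
  exact h1

lemma fiber_hasSum' {J : Ideal (𝓞 K)} (hJ0 : J ≠ ⊥) (hJ : J.IsPrincipal) (s : ℝ) :
    HasSum (fun y : {y : 𝓞 K // Ideal.span {y} = J} ↦ G s (y : 𝓞 K))
      (torsionOrder K * (Ideal.absNorm J : ℝ) ^ (-s)) := by
  obtain ⟨x, hx⟩ := hJ.principal
  rw [Ideal.submodule_span_eq] at hx
  subst hx
  refine fiber_hasSum ?_ s
  rintro rfl
  exact hJ0 (by simp)

end Fermat.Agent.ExtVan
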