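import Mathlib
import Fermat.Agent.ExtVan.ClassSum

/-!
# Zeta sums over an ideal class, II
-/

set_option linter.all false

namespace Fermat.Agent.ExtVan

open scoped nonZeroDivisors
open Finset NumberField NumberField.Units Module

variable {K : Type*} [Field K] [NumberField K]

/-- Ideals in the inverse class of `b`. -/
abbrev InvClass (b : (Ideal (𝓞 K))⁰) : Type _ :=
  {I : (Ideal (𝓞 K))⁰ // ClassGroup.mk0 I = (ClassGroup.mk0 b)⁻¹}

/-- the product ideal -/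
def prodI (b : (Ideal (𝓞 K))⁰) (I : InvClass b) : Ideal (𝓞 K) := (I.1 : Ideal (𝓞 K)) * b

lemma prodI_ne_bot (b : (Ideal (𝓞 K))⁰) (I : InvClass b) : prodI b I ≠ ⊥ :=
  mul_ne_zero (nonZeroDivisors.coe_ne_zero I.1) (nonZeroDivisors.coe_ne_zero b)

lemma prodI_isPrincipal (b : (Ideal (𝓞 K))⁰) (I : InvClass b) : (prodI b I).IsPrincipal := by
  have h1 : ClassGroup.mk0 (I.1 * b) = 1 := by
    rw [map_mul, I.2, inv_mul_cancel]
  exact (ClassGroup.mk0_eq_one_iff (I.1 * b).2).mp h1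

lemma prodI_injective (b : (Ideal (𝓞 K))⁰) : Function.Injective (prodI b) := by
  intro I I' h
  exact Subtype.ext (Subtype.ext (mul_right_cancel₀ (nonZeroDivisors.coe_ne_zero b) h))

lemma exists_prodI (b : (Ideal (𝓞 K))⁰) {x : 𝓞 K} (hx : x ≠ 0) (hxb : x ∈ (b : Ideal (𝓞 K))) :
    ∃ I : InvClass b, prodI b I = Ideal.span {x} := by
  have h1 : (b : Ideal (𝓞 K)) ∣ Ideal.span {x} := by
    rw [Ideal.dvd_span_singleton]; exact hxb
  obtain ⟨J, hJ⟩ := h1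
  have hJ0 : J ≠ ⊥ := by
    rintro rfl
    rw [Ideal.mul_bot, Ideal.span_singleton_eq_bot] at hJ
    exact hx hJ
  have hJ' : J ∈ (Ideal (𝓞 K))⁰ := mem_nonZeroDivisors_of_ne_zero hJ0
  set J' : (Ideal (𝓞 K))⁰ := ⟨J, hJ'⟩ with hJ'def
  have hprod : ((J' * b : (Ideal (𝓞 K))⁰) : Ideal (𝓞 K)) = Ideal.span {x} := by
    rw [Submonoid.coe_mul, hJ, mul_comm]
  have h2 : ClassGroup.mk0 J' = (ClassGroup.mk0 b)⁻¹ := by
    rw [eq_inv_iff_mul_eq_one, ← map_mul]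
    have h3 : ((J' * b : (Ideal (𝓞 K))⁰) : Ideal (𝓞 K)).IsPrincipal := by
      rw [hprod]; exact ⟨⟨x, rfl⟩⟩
    exact (ClassGroup.mk0_eq_one_iff (J' * b).2).mpr h3
  exact ⟨⟨J', h2⟩, by rw [← hprod]; rfl⟩

/-- generators -/
abbrev Gens (b : (Ideal (𝓞 K))⁰) (I : InvClass b) : Type _ :=
  {y : 𝓞 K // Ideal.span {y} = prodI b I}

lemma ne_zero_of_span_eq {y : 𝓞 K} {J : Ideal (𝓞 K)} (hJ : J ≠ ⊥) (h : Ideal.span {y} = J) :
    y ≠ 0 := by
  intro h0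
  apply hJ
  rw [← h]
  exact Ideal.span_singleton_eq_bot.mpr h0

lemma mem_of_span_eq {y : 𝓞 K} {J : Ideal (𝓞 K)} (h : Ideal.span {y} = J) : y ∈ J := by
  rw [← h]
  exact Ideal.mem_span_singleton_self _

lemma prodI_le (b : (Ideal (𝓞 K))⁰) (I : InvClass b) : prodI b I ≤ (b : Ideal (𝓞 K)) := by
  unfold prodI
  exact (Ideal.mul_le_inf (I := (I.1 : Ideal (𝓞 K))) (J := (b : Ideal (𝓞 K)))).trans inf_le_right

lemma gens_ne_zero (b : (Ideal (𝓞 K))⁰) (I : InvClass b) (y : Gens b I) : y.1 ≠ 0 :=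
  ne_zero_of_span_eq (prodI_ne_bot b I) y.2

lemma gens_mem (b : (Ideal (𝓞 K))⁰) (I : InvClass b) (y : Gens b I) :
    y.1 ∈ (b : Ideal (𝓞 K)) :=
  prodI_le b I (mem_of_span_eq y.2)

/-- total map -/
def gensMap (b : (Ideal (𝓞 K))⁰) (p : Σ I : InvClass b, Gens b I) :
    {x : (b : Ideal (𝓞 K)) // x ≠ 0} :=
  ⟨⟨p.2.1, gens_mem b p.1 p.2⟩, fun h ↦ gens_ne_zero b p.1 p.2 (congrArg Subtype.val h)⟩

lemma gensMap_bijective (b : (Ideal (𝓞 K))⁰) : Function.Bijective (gensMap b) := by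
  constructor
  · rintro ⟨I, y⟩ ⟨I', y'⟩ h
    have h0 : y.1 = y'.1 := congrArg (fun z ↦ z.1.1) h
    have h1 : I = I' := by
      apply prodI_injective b
      rw [← y.2, ← y'.2, h0]
    subst h1
    have h2 : y = y' := Subtype.ext h0
    rw [h2]
  · rintro ⟨⟨x, hxb⟩, hx⟩
    have hx0 : x ≠ 0 := fun h ↦ hx (Subtype.ext h)
    obtain ⟨I, hI⟩ := exists_prodI b hx0 hxb
    exact ⟨⟨I, ⟨x, hI.symm⟩⟩, rfl⟩

/-- the sum over an ideal of the weighted terms is the zeta sum over the inverse class -/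
lemma class_hasSum (b : (Ideal (𝓞 K))⁰) {s : ℝ} (hs1 : 1 < s) (hs2 : s ≤ 2) :
    HasSum (fun I : InvClass b ↦
      (torsionOrder K : ℝ) * (Ideal.absNorm (prodI b I) : ℝ) ^ (-s))
      (SG K (b : Ideal (𝓞 K)) s) := by
  have hG : Summable fun x : (b : Ideal (𝓞 K)) ↦ G s (x : 𝓞 K) :=
    (summable_G K hs1 hs2).comp_injective (i := fun x : (b : Ideal (𝓞 K)) ↦ (x : 𝓞 K))
      Subtype.val_injective
  have h1 : HasSum (fun x : {x : (b : Ideal (𝓞 K)) // x ≠ 0} ↦ G s ((x : (b : Ideal (𝓞 K))) : 𝓞 K))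
      (SG K (b : Ideal (𝓞 K)) s) := by
    have h2 : Function.support (fun x : (b : Ideal (𝓞 K)) ↦ G s (x : 𝓞 K)) ⊆
        {x : (b : Ideal (𝓞 K)) | x ≠ 0} := by
      intro x hx hx0
      apply hx
      simp only [hx0]
      exact G_zero s
    exact (hasSum_subtype_iff_of_support_subset h2).mpr hG.hasSum
  rw [← (Equiv.ofBijective _ (gensMap_bijective b)).hasSum_iff] at h1
  refine h1.sigma fun I ↦ ?_
  exact fiber_hasSum' (prodI_ne_bot b I) (prodI_isPrincipal b I) s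

end Fermat.Agent.ExtVan
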