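import Mathlib
import Fermat.Agent.ExtVan.ClassSum2

/-!
# The Dedekind zeta function as a sum over ideals, and boundedness of class group L-series
-/

set_option linter.all false

namespace Fermat.Agent.ExtVan

open scoped nonZeroDivisors Topology
open Finset NumberField NumberField.Units Module Filter

variable (K : Type*) [Field K] [NumberField K]

/-- The real zeta function as a sum over ideals. -/
noncomputable def Zi (s : ℝ) : ℝ := ∑' I : (Ideal (𝓞 K))⁰, (Ideal.absNorm (I : Ideal (𝓞 K)) : ℝ) ^ (-s)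

/-- Partial zeta function of a class. -/
noncomputable def Zc (c : ClassGroup (𝓞 K)) (s : ℝ) : ℝ :=
  ∑' I : {I : (Ideal (𝓞 K))⁰ // ClassGroup.mk0 I = c}, (Ideal.absNorm (I.1 : Ideal (𝓞 K)) : ℝ) ^ (-s)

variable {K}

lemma absNorm_pos_nzd (b : (Ideal (𝓞 K))⁰) : (0 : ℝ) < Ideal.absNorm (b : Ideal (𝓞 K)) :=
  Nat.cast_pos.mpr (Ideal.absNorm_pos_of_nonZeroDivisors b)

lemma class_hasSum' (b : (Ideal (𝓞 K))⁰) {s : ℝ} (hs1 : 1 < s) (hs2 : s ≤ 2) :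
    HasSum (fun I : {I : (Ideal (𝓞 K))⁰ // ClassGroup.mk0 I = (ClassGroup.mk0 b)⁻¹} ↦
      (Ideal.absNorm (I.1 : Ideal (𝓞 K)) : ℝ) ^ (-s))
      ((Ideal.absNorm (b : Ideal (𝓞 K)) : ℝ) ^ s / torsionOrder K * SG K (b : Ideal (𝓞 K)) s) := by
  have h := (class_hasSum b hs1 hs2).mul_left
    ((Ideal.absNorm (b : Ideal (𝓞 K)) : ℝ) ^ s / torsionOrder K)
  have h2 : (fun I : {I : (Ideal (𝓞 K))⁰ // ClassGroup.mk0 I = (ClassGroup.mk0 b)⁻¹} ↦
      (Ideal.absNorm (I.1 : Ideal (𝓞 K)) : ℝ) ^ (-s)) = fun I ↦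
      (Ideal.absNorm (b : Ideal (𝓞 K)) : ℝ) ^ s / torsionOrder K *
        ((torsionOrder K : ℝ) * (Ideal.absNorm (prodI b I) : ℝ) ^ (-s)) := by
    funext I
    have hb := absNorm_pos_nzd b
    have hw : (torsionOrder K : ℝ) ≠ 0 := Nat.cast_ne_zero.mpr (torsionOrder_ne_zero K)
    rw [prodI, map_mul, Nat.cast_mul, Real.mul_rpow (Nat.cast_nonneg _) (Nat.cast_nonneg _),
      Real.rpow_neg hb.le]
    have hb2 : (Ideal.absNorm (b : Ideal (𝓞 K)) : ℝ) ^ s ≠ 0 := (Real.rpow_pos_of_pos hb s).ne'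
    field_simp
  rw [h2]
  exact h

lemma class_summable (c : ClassGroup (𝓞 K)) {s : ℝ} (hs1 : 1 < s) (hs2 : s ≤ 2) :
    Summable (fun I : {I : (Ideal (𝓞 K))⁰ // ClassGroup.mk0 I = c} ↦
      (Ideal.absNorm (I.1 : Ideal (𝓞 K)) : ℝ) ^ (-s)) := by
  obtain ⟨b, hb⟩ := ClassGroup.mk0_surjective c⁻¹
  have hc : c = (ClassGroup.mk0 b)⁻¹ := by rw [hb, inv_inv]
  subst hc
  exact (class_hasSum' b hs1 hs2).summable

lemma Zi_summable {s : ℝ} (hs1 : 1 < s) (hs2 : s ≤ 2) :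
    Summable (fun I : (Ideal (𝓞 K))⁰ ↦ (Ideal.absNorm (I : Ideal (𝓞 K)) : ℝ) ^ (-s)) := by
  rw [← (Equiv.sigmaFiberEquiv (fun I : (Ideal (𝓞 K))⁰ ↦ ClassGroup.mk0 I)).summable_iff]
  rw [summable_sigma_of_nonneg (fun x ↦ by simp only [Function.comp_apply]; positivity)]
  exact ⟨fun c ↦ class_summable c hs1 hs2, Summable.of_finite⟩

lemma Zi_hasSum {s : ℝ} (hs1 : 1 < s) (hs2 : s ≤ 2) :
    HasSum (fun I : (Ideal (𝓞 K))⁰ ↦ (Ideal.absNorm (I : Ideal (𝓞 K)) : ℝ) ^ (-s)) (Zi K s) :=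
  (Zi_summable hs1 hs2).hasSum

lemma dedekindZeta_eq {s : ℝ} (hs1 : 1 < s) (hs2 : s ≤ 2) :
    dedekindZeta K s = (Zi K s : ℂ) := by
  have h1 := Zi_hasSum (K := K) hs1 hs2
  rw [← (Equiv.sigmaFiberEquiv (fun I : (Ideal (𝓞 K))⁰ ↦
    Ideal.absNorm (I : Ideal (𝓞 K)))).hasSum_iff] at h1
  have h2 : ∀ n : ℕ, HasSum (fun I : {I : (Ideal (𝓞 K))⁰ // Ideal.absNorm (I : Ideal (𝓞 K)) = n} ↦
      (Ideal.absNorm (I.1 : Ideal (𝓞 K)) : ℝ) ^ (-s))
      ((Nat.card {I : (Ideal (𝓞 K))⁰ // Ideal.absNorm (I : Ideal (𝓞 K)) = n} : ℝ) *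
        (n : ℝ) ^ (-s)) := by
    intro n
    have hfin : Finite {I : (Ideal (𝓞 K))⁰ // Ideal.absNorm (I : Ideal (𝓞 K)) = n} := by
      have : Finite {I : Ideal (𝓞 K) // Ideal.absNorm I = n} :=
        (Ideal.finite_setOfPred_absNorm_eq (S := 𝓞 K) n).to_subtype
      refine Finite.of_injective (β := {I : Ideal (𝓞 K) // Ideal.absNorm I = n})
        (fun I ↦ ⟨I.1.1, I.2⟩) ?_
      intro I J h
      have h' : (I.1 : Ideal (𝓞 K)) = J.1 := congrArg (fun z : {I : Ideal (𝓞 K) //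
        Ideal.absNorm I = n} ↦ z.1) h
      exact Subtype.ext (Subtype.ext h')
    letI := Fintype.ofFinite {I : (Ideal (𝓞 K))⁰ // Ideal.absNorm (I : Ideal (𝓞 K)) = n}
    have h3 := hasSum_fintype
      (fun I : {I : (Ideal (𝓞 K))⁰ // Ideal.absNorm (I : Ideal (𝓞 K)) = n} ↦
      (Ideal.absNorm (I.1 : Ideal (𝓞 K)) : ℝ) ^ (-s))
    have h4 : ∑ I : {I : (Ideal (𝓞 K))⁰ // Ideal.absNorm (I : Ideal (𝓞 K)) = n},
      (Ideal.absNorm (I.1 : Ideal (𝓞 K)) : ℝ) ^ (-s) =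
        (Nat.card {I : (Ideal (𝓞 K))⁰ // Ideal.absNorm (I : Ideal (𝓞 K)) = n} : ℝ) *
        (n : ℝ) ^ (-s) := by
      rw [sum_congr rfl (fun I _ ↦ by rw [I.2]), sum_const, nsmul_eq_mul, card_univ,
        Nat.card_eq_fintype_card]
    rwa [h4] at h3
  have h5 := h1.sigma h2
  have h6 : HasSum (fun n ↦ LSeries.term
      (fun n ↦ (Nat.card {I : Ideal (𝓞 K) // Ideal.absNorm I = n} : ℂ)) (s : ℂ) n)
      (Zi K s : ℂ) := by
    have h7 := Complex.hasSum_ofReal.mpr h5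
    convert h7 using 1
    funext n
    rcases eq_or_ne n 0 with rfl | hn
    · simp only [LSeries.term_zero]
      rw [Nat.cast_zero, Real.zero_rpow (by linarith)]
      simp
    · rw [LSeries.term_of_ne_zero hn]
      have h8 : Nat.card {I : Ideal (𝓞 K) // Ideal.absNorm I = n} =
          Nat.card {I : (Ideal (𝓞 K))⁰ // Ideal.absNorm (I : Ideal (𝓞 K)) = n} := by
        refine Nat.card_congr ?_
        refine
          { toFun := fun I ↦ ⟨⟨I.1, ?_⟩, I.2⟩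
            invFun := fun I ↦ ⟨I.1.1, I.2⟩
            left_inv := fun I ↦ rfl
            right_inv := fun I ↦ rfl }
        refine mem_nonZeroDivisors_of_ne_zero ?_
        intro h0
        have h9 := I.2
        rw [h0] at h9
        apply hn
        rw [← h9]
        exact Ideal.absNorm_bot
      rw [h8, Complex.ofReal_mul, Complex.ofReal_natCast, Complex.ofReal_cpow (Nat.cast_nonneg _),
        Complex.ofReal_natCast, Complex.ofReal_neg, Complex.cpow_neg, div_eq_mul_inv]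
  rw [dedekindZeta, LSeries]
  exact h6.tsum_eq

lemma eventually_Ioc : ∀ᶠ s : ℝ in 𝓝[>] 1, 1 < s ∧ s ≤ 2 := by
  have h1 : ∀ᶠ s : ℝ in 𝓝[>] 1, s ∈ Set.Ioo (1:ℝ) 2 := Ioo_mem_nhdsGT (by norm_num)
  filter_upwards [h1] with s hs
  exact ⟨hs.1, hs.2.le⟩

variable (K) in
lemma tendsto_Zi : Tendsto (fun s : ℝ ↦ (s - 1) * Zi K s) (𝓝[>] 1) (𝓝 (dedekindZeta_residue K)) := by
  have h := tendsto_sub_one_mul_dedekindZeta_nhdsGT K
  have h2 : Tendsto (fun s : ℝ ↦ (((s - 1) * Zi K s : ℝ) : ℂ)) (𝓝[>] 1)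
      (𝓝 (dedekindZeta_residue K : ℂ)) := by
    refine h.congr' ?_
    filter_upwards [eventually_Ioc] with s hs
    rw [dedekindZeta_eq hs.1 hs.2]
    push_cast
    rfl
  exact (Complex.continuous_re.tendsto _).comp h2

variable (K) in
lemma exists_Zi_bounds : ∃ c C : ℝ, 0 < c ∧ 0 < C ∧
    ∀ᶠ s : ℝ in 𝓝[>] 1, c / (s - 1) ≤ Zi K s ∧ Zi K s ≤ C / (s - 1) := by
  have hpos := dedekindZeta_residue_pos K
  refine ⟨dedekindZeta_residue K / 2, dedekindZeta_residue K + 1, by positivity, by positivity, ?_⟩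
  have h1 := (tendsto_Zi K).eventually (lt_mem_nhds (half_lt_self hpos))
  have h2 := (tendsto_Zi K).eventually (gt_mem_nhds (lt_add_one (dedekindZeta_residue K)))
  filter_upwards [h1, h2, eventually_Ioc] with s hs1 hs2 hs
  have h3 : 0 < s - 1 := by linarith [hs.1]
  constructor
  · rw [div_le_iff₀ h3]; linarith
  · rw [le_div_iff₀ h3]; linarith

variable (K) in
/-- the total weighted sum -/
noncomputable def SO (s : ℝ) : ℝ := ∑' x : 𝓞 K, G s x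

lemma Zc_eq (b : (Ideal (𝓞 K))⁰) {s : ℝ} (hs1 : 1 < s) (hs2 : s ≤ 2) :
    Zc K (ClassGroup.mk0 b)⁻¹ s =
      (Ideal.absNorm (b : Ideal (𝓞 K)) : ℝ) ^ s / torsionOrder K * SG K (b : Ideal (𝓞 K)) s :=
  (class_hasSum' b hs1 hs2).tsum_eq

lemma SG_top (s : ℝ) : SG K (⊤ : Ideal (𝓞 K)) s = SO K s := by
  unfold SG SO
  let e : (⊤ : Ideal (𝓞 K)) ≃ 𝓞 K :=
    { toFun := fun x ↦ x
      invFun := fun x ↦ ⟨x, trivial⟩
      left_inv := fun _ ↦ rfl
      right_inv := fun _ ↦ rfl }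
  exact e.tsum_eq (fun x : 𝓞 K ↦ G s x)

lemma SO_le_Zi {s : ℝ} (hs1 : 1 < s) (hs2 : s ≤ 2) : SO K s ≤ torsionOrder K * Zi K s := by
  have h := Zc_eq (1 : (Ideal (𝓞 K))⁰) hs1 hs2
  have h1 : ((1 : (Ideal (𝓞 K))⁰) : Ideal (𝓞 K)) = ⊤ := by
    rw [Submonoid.coe_one]; exact Ideal.one_eq_top
  rw [h1, SG_top, Ideal.absNorm_top, Nat.cast_one, Real.one_rpow] at h
  have hw : (0 : ℝ) < torsionOrder K := Nat.cast_pos.mpr (torsionOrder_pos K)
  have h2 : Zc K (ClassGroup.mk0 (1 : (Ideal (𝓞 K))⁰))⁻¹ s ≤ Zi K s :=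
    (Zi_summable hs1 hs2).tsum_subtype_le
      (fun I : (Ideal (𝓞 K))⁰ ↦ (Ideal.absNorm (I : Ideal (𝓞 K)) : ℝ) ^ (-s))
      {I : (Ideal (𝓞 K))⁰ | ClassGroup.mk0 I = (ClassGroup.mk0 (1 : (Ideal (𝓞 K))⁰))⁻¹}
      (fun I ↦ by positivity)
  rw [h] at h2
  rw [one_div, inv_mul_le_iff₀ hw] at h2
  exact h2

lemma SO_nonneg (s : ℝ) : 0 ≤ SO K s := tsum_nonneg fun x ↦ G_nonneg s x

variable (K) in
lemma exists_Zc_compare (c : ClassGroup (𝓞 K)) : ∃ C : ℝ, ∀ᶠ s : ℝ in 𝓝[>] 1,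
    |Zc K c s - SO K s / torsionOrder K| ≤ C := by
  obtain ⟨b, hb⟩ := ClassGroup.mk0_surjective c⁻¹
  have hc : c = (ClassGroup.mk0 b)⁻¹ := by rw [hb, inv_inv]
  subst hc
  obtain ⟨C₁, hC₁⟩ := exists_SG_compare K (b : Ideal (𝓞 K)) (nonZeroDivisors.coe_ne_zero b)
  obtain ⟨c₀, C₀, hc₀, hC₀, hZ⟩ := exists_Zi_bounds K
  set N : ℝ := (Ideal.absNorm (b : Ideal (𝓞 K)) : ℝ) with hN
  set w : ℝ := (torsionOrder K : ℝ) with hw
  have hN1 : 1 ≤ N := by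
    rw [hN]
    exact_mod_cast Nat.one_le_iff_ne_zero.mpr (Ideal.absNorm_pos_of_nonZeroDivisors b).ne'
  have hN0 : 0 < N := by linarith
  have hw0 : (0 : ℝ) < w := Nat.cast_pos.mpr (torsionOrder_pos K)
  refine ⟨N * C₁ / w + Real.log N * N * C₀, ?_⟩
  filter_upwards [hZ, eventually_Ioc] with s hs hs12
  obtain ⟨hs1, hs2⟩ := hs12
  have hcmp := hC₁ s hs1 hs2
  rw [Zc_eq b hs1 hs2, ← hN, ← hw]
  change |SO K s - N * SG K (b : Ideal (𝓞 K)) s| ≤ C₁ at hcmp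
  have hSO : SO K s ≤ w * (C₀ / (s - 1)) :=
    (SO_le_Zi hs1 hs2).trans (mul_le_mul_of_nonneg_left hs.2 hw0.le)
  have ht : 0 < s - 1 := by linarith
  have hpow : N ^ s = N * N ^ (s - 1) := by
    rw [← Real.rpow_one_add' hN0.le (by linarith)]
    congr 1; ring
  have hpow1 : N ^ (s - 1) ≤ N := by
    calc N ^ (s - 1) ≤ N ^ (1 : ℝ) := Real.rpow_le_rpow_of_exponent_le hN1 (by linarith)
      _ = N := Real.rpow_one N
  have hpow0 : 1 ≤ N ^ (s - 1) := Real.one_le_rpow hN1 ht.le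
  have hlog0 : 0 ≤ Real.log N := Real.log_nonneg hN1
  have hpow2 : N ^ (s - 1) - 1 ≤ (s - 1) * Real.log N * N := by
    have h1 : N ^ (s - 1) = Real.exp ((s - 1) * Real.log N) := by
      rw [Real.rpow_def_of_pos hN0, mul_comm]
    have h2 : 1 - (s - 1) * Real.log N ≤ Real.exp (-((s - 1) * Real.log N)) := by
      have := Real.add_one_le_exp (-((s - 1) * Real.log N))
      linarith
    have h3 : N ^ (s - 1) * (1 - (s - 1) * Real.log N) ≤ 1 := by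
      calc N ^ (s - 1) * (1 - (s - 1) * Real.log N)
          ≤ N ^ (s - 1) * Real.exp (-((s - 1) * Real.log N)) :=
            mul_le_mul_of_nonneg_left h2 (by linarith)
        _ = 1 := by rw [h1, ← Real.exp_add]; simp
    have h4 : N ^ (s - 1) * ((s - 1) * Real.log N) ≤ N * ((s - 1) * Real.log N) :=
      mul_le_mul_of_nonneg_right hpow1 (by positivity)
    nlinarith
  have hid : N ^ s / w * SG K (b : Ideal (𝓞 K)) s - SO K s / w =
      - (N ^ (s - 1) / w * (SO K s - N * SG K (b : Ideal (𝓞 K)) s)) +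
        (N ^ (s - 1) - 1) / w * SO K s := by
    rw [hpow]; field_simp; ring
  rw [hid]
  refine (abs_add_le _ _).trans ?_
  rw [abs_neg, abs_mul, abs_mul, abs_of_nonneg (SO_nonneg s),
    abs_of_nonneg (by positivity : 0 ≤ N ^ (s - 1) / w),
    abs_of_nonneg (div_nonneg (by linarith) hw0.le : 0 ≤ (N ^ (s - 1) - 1) / w)]
  have hC₁0 : 0 ≤ C₁ := (abs_nonneg _).trans hcmp
  refine add_le_add ?_ ?_
  · calc N ^ (s - 1) / w * |SO K s - N * SG K (b : Ideal (𝓞 K)) s|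
        ≤ N / w * C₁ := mul_le_mul (div_le_div_of_nonneg_right hpow1 hw0.le) hcmp
            (abs_nonneg _) (by positivity)
      _ = N * C₁ / w := by ring
  · calc (N ^ (s - 1) - 1) / w * SO K s
        ≤ ((s - 1) * Real.log N * N) / w * (w * (C₀ / (s - 1))) :=
          mul_le_mul (div_le_div_of_nonneg_right hpow2 hw0.le) hSO (SO_nonneg s) (by positivity)
      _ = Real.log N * N * C₀ := by field_simp

/-- **Boundedness of class group L-series near `s = 1`.** -/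
theorem exists_classSeries_bound (g : ClassGroup (𝓞 K) → ℂ) (hg : ∑ c, g c = 0) :
    ∃ C : ℝ, ∀ᶠ s : ℝ in 𝓝[>] 1,
      ‖∑' I : (Ideal (𝓞 K))⁰, g (ClassGroup.mk0 I) *
        (((Ideal.absNorm (I : Ideal (𝓞 K)) : ℝ) ^ (-s) : ℝ) : ℂ)‖ ≤ C := by
  choose C hC using exists_Zc_compare K
  refine ⟨∑ c, ‖g c‖ * C c, ?_⟩
  filter_upwards [eventually_all.mpr hC, eventually_Ioc] with s hs hs12
  obtain ⟨hs1, hs2⟩ := hs12
  set w : ℝ := (torsionOrder K : ℝ) with hw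
  have hsum : Summable (fun I : (Ideal (𝓞 K))⁰ ↦ g (ClassGroup.mk0 I) *
        (((Ideal.absNorm (I : Ideal (𝓞 K)) : ℝ) ^ (-s) : ℝ) : ℂ)) := by
    have h1 : Summable (fun I : (Ideal (𝓞 K))⁰ ↦
        (∑ c, ‖g c‖) * (Ideal.absNorm (I : Ideal (𝓞 K)) : ℝ) ^ (-s)) :=
      (Zi_summable hs1 hs2).mul_left _
    refine Summable.of_norm_bounded h1 fun I ↦ ?_
    rw [norm_mul]
    have h2 : ‖g (ClassGroup.mk0 I)‖ ≤ ∑ c, ‖g c‖ :=
      single_le_sum (f := fun c ↦ ‖g c‖) (fun c _ ↦ norm_nonneg _) (mem_univ _)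
    have h3 : ‖(((Ideal.absNorm (I : Ideal (𝓞 K)) : ℝ) ^ (-s) : ℝ) : ℂ)‖ =
        (Ideal.absNorm (I : Ideal (𝓞 K)) : ℝ) ^ (-s) := by
      rw [Complex.norm_real, Real.norm_eq_abs, abs_of_nonneg (by positivity)]
    rw [h3]
    exact mul_le_mul_of_nonneg_right h2 (by positivity)
  have hval : ∑' I : (Ideal (𝓞 K))⁰, g (ClassGroup.mk0 I) *
        (((Ideal.absNorm (I : Ideal (𝓞 K)) : ℝ) ^ (-s) : ℝ) : ℂ) =
      ∑ c, g c * ((Zc K c s - SO K s / w : ℝ) : ℂ) := by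
    have h1 : ∑ c, g c * ((Zc K c s - SO K s / w : ℝ) : ℂ) = ∑ c, g c * (Zc K c s : ℂ) := by
      push_cast
      simp_rw [mul_sub]
      rw [sum_sub_distrib, ← sum_mul, hg, zero_mul, sub_zero]
    rw [h1]
    have h2 := hsum.hasSum
    rw [← (Equiv.sigmaFiberEquiv (fun I : (Ideal (𝓞 K))⁰ ↦ ClassGroup.mk0 I)).hasSum_iff] at h2
    have h3 : ∀ c : ClassGroup (𝓞 K), HasSum
        (fun I : {I : (Ideal (𝓞 K))⁰ // ClassGroup.mk0 I = c} ↦
          g (ClassGroup.mk0 I.1) *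
            (((Ideal.absNorm (I.1 : Ideal (𝓞 K)) : ℝ) ^ (-s) : ℝ) : ℂ))
        (g c * (Zc K c s : ℂ)) := by
      intro c
      have h4 : HasSum (fun I : {I : (Ideal (𝓞 K))⁰ // ClassGroup.mk0 I = c} ↦
          (Ideal.absNorm (I.1 : Ideal (𝓞 K)) : ℝ) ^ (-s)) (Zc K c s) :=
        (class_summable c hs1 hs2).hasSum
      have h5 := (Complex.hasSum_ofReal.mpr h4).mul_left (g c)
      have h6 : (fun I : {I : (Ideal (𝓞 K))⁰ // ClassGroup.mk0 I = c} ↦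
          g (ClassGroup.mk0 I.1) *
            (((Ideal.absNorm (I.1 : Ideal (𝓞 K)) : ℝ) ^ (-s) : ℝ) : ℂ)) = fun I ↦ g c *
            (((Ideal.absNorm (I.1 : Ideal (𝓞 K)) : ℝ) ^ (-s) : ℝ) : ℂ) := by
        funext I
        rw [I.2]
      rw [h6]
      exact h5
    have h7 := h2.sigma h3
    exact h7.unique (hasSum_fintype _)
  rw [hval]
  refine (norm_sum_le _ _).trans (sum_le_sum fun c _ ↦ ?_)
  rw [norm_mul, Complex.norm_real, Real.norm_eq_abs]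
  exact mul_le_mul_of_nonneg_left (hs c) (norm_nonneg _)

end Fermat.Agent.ExtVan
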