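import Mathlib
import Fermat.Agent.ExtVan.ZetaIdeal
import Fermat.Agent.ExtVan.EulerIdeal

/-!
# Inequalities between zeta functions and class group L-series
-/

set_option linter.all false

namespace Fermat.Agent.ExtVan

open scoped nonZeroDivisors Topology
open Finset NumberField NumberField.Units Module Filter IsDedekindDomain

variable (K : Type*) [Field K] [NumberField K]

/-- the character value at an ideal -/
noncomputable def clsVal (φ : ClassGroup (𝓞 K) →* ℂ) (I : Ideal (𝓞 K)) : ℂ :=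
  open scoped Classical in if h : I = 0 then 0 else φ (ClassGroup.mk0 ⟨I, mem_nonZeroDivisors_of_ne_zero h⟩)

variable {K}

lemma clsVal_zero (φ : ClassGroup (𝓞 K) →* ℂ) : clsVal K φ 0 = 0 := by simp [clsVal]

lemma clsVal_coe (φ : ClassGroup (𝓞 K) →* ℂ) (I : (Ideal (𝓞 K))⁰) :
    clsVal K φ I = φ (ClassGroup.mk0 I) := by
  rw [clsVal, dif_neg (nonZeroDivisors.coe_ne_zero I)]

lemma clsVal_one (φ : ClassGroup (𝓞 K) →* ℂ) : clsVal K φ 1 = 1 := by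
  have := clsVal_coe φ (1 : (Ideal (𝓞 K))⁰)
  rw [Submonoid.coe_one, map_one, map_one] at this
  exact this

lemma clsVal_mul (φ : ClassGroup (𝓞 K) →* ℂ) (I J : Ideal (𝓞 K)) :
    clsVal K φ (I * J) = clsVal K φ I * clsVal K φ J := by
  by_cases hI : I = 0
  · subst hI; rw [zero_mul, clsVal_zero, zero_mul]
  by_cases hJ : J = 0
  · subst hJ; rw [mul_zero, clsVal_zero, mul_zero]
  have h1 := clsVal_coe φ ((⟨I, mem_nonZeroDivisors_of_ne_zero hI⟩ : (Ideal (𝓞 K))⁰) *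
    ⟨J, mem_nonZeroDivisors_of_ne_zero hJ⟩)
  have h2 := clsVal_coe φ (⟨I, mem_nonZeroDivisors_of_ne_zero hI⟩ : (Ideal (𝓞 K))⁰)
  have h3 := clsVal_coe φ (⟨J, mem_nonZeroDivisors_of_ne_zero hJ⟩ : (Ideal (𝓞 K))⁰)
  rw [map_mul, map_mul, ← h2, ← h3] at h1
  exact h1

/-- The terms of the L-series of a class group character -/
noncomputable def lterm (φ : ClassGroup (𝓞 K) →* ℂ) (s : ℝ) (hs : s ≠ 0) : Ideal (𝓞 K) →*₀ ℂ where
  toFun I := clsVal K φ I * (((Ideal.absNorm I : ℝ) ^ (-s) : ℝ) : ℂ)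
  map_zero' := by rw [clsVal_zero, zero_mul]
  map_one' := by
    rw [clsVal_one, Ideal.one_eq_top, Ideal.absNorm_top]
    simp
  map_mul' I J := by
    rw [clsVal_mul, map_mul, Nat.cast_mul, Real.mul_rpow (Nat.cast_nonneg _) (Nat.cast_nonneg _)]
    push_cast
    ring

lemma lterm_apply (φ : ClassGroup (𝓞 K) →* ℂ) (s : ℝ) (hs : s ≠ 0) (I : Ideal (𝓞 K)) :
    lterm φ s hs I = clsVal K φ I * (((Ideal.absNorm I : ℝ) ^ (-s) : ℝ) : ℂ) := rfl

lemma norm_clsVal {φ : ClassGroup (𝓞 K) →* ℂ} (hφ : ∀ c, ‖φ c‖ = 1) {I : Ideal (𝓞 K)}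
    (hI : I ≠ 0) : ‖clsVal K φ I‖ = 1 := by
  rw [clsVal, dif_neg hI]; exact hφ _

lemma norm_lterm {φ : ClassGroup (𝓞 K) →* ℂ} (hφ : ∀ c, ‖φ c‖ = 1) {s : ℝ} (hs : s ≠ 0)
    (I : Ideal (𝓞 K)) : ‖lterm φ s hs I‖ = (Ideal.absNorm I : ℝ) ^ (-s) := by
  rw [lterm_apply, norm_mul, Complex.norm_real, Real.norm_eq_abs, abs_of_nonneg (by positivity)]
  by_cases hI : I = 0
  · subst hI
    rw [clsVal_zero, norm_zero, zero_mul]
    have : Ideal.absNorm (0 : Ideal (𝓞 K)) = 0 := Ideal.absNorm_bot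
    rw [this, Nat.cast_zero, Real.zero_rpow (neg_ne_zero.mpr hs)]
  · rw [norm_clsVal hφ hI, one_mul]

lemma summable_all {s : ℝ} (hs1 : 1 < s) (hs2 : s ≤ 2) :
    Summable fun I : Ideal (𝓞 K) ↦ (Ideal.absNorm I : ℝ) ^ (-s) := by
  have h := Zi_summable (K := K) hs1 hs2
  have h0 : Function.support (fun I : Ideal (𝓞 K) ↦ (Ideal.absNorm I : ℝ) ^ (-s)) ⊆
      ((Ideal (𝓞 K))⁰ : Set (Ideal (𝓞 K))) := by
    intro I hI
    refine mem_nonZeroDivisors_of_ne_zero ?_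
    rintro rfl
    apply hI
    have : Ideal.absNorm (0 : Ideal (𝓞 K)) = 0 := Ideal.absNorm_bot
    simp only [this]
    rw [Nat.cast_zero, Real.zero_rpow (by linarith)]
  exact ((hasSum_subtype_iff_of_support_subset h0).mp h.hasSum).summable

lemma summable_lterm {φ : ClassGroup (𝓞 K) →* ℂ} (hφ : ∀ c, ‖φ c‖ = 1) {s : ℝ} (hs : s ≠ 0)
    (hs1 : 1 < s) (hs2 : s ≤ 2) : Summable fun I ↦ ‖lterm φ s hs I‖ :=
  (summable_all hs1 hs2).congr fun I ↦ (norm_lterm hφ hs I).symm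

/-- The L-series of a class group character, as a sum over nonzero ideals. -/
noncomputable def Lcls (φ : ClassGroup (𝓞 K) →* ℂ) (s : ℝ) : ℂ :=
  ∑' I : (Ideal (𝓞 K))⁰, φ (ClassGroup.mk0 I) *
        (((Ideal.absNorm (I : Ideal (𝓞 K)) : ℝ) ^ (-s) : ℝ) : ℂ)

lemma tsum_lterm (φ : ClassGroup (𝓞 K) →* ℂ) {s : ℝ} (hs : s ≠ 0) :
    ∑' I, lterm φ s hs I = Lcls φ s := by
  have h0 : Function.support (fun I : Ideal (𝓞 K) ↦ lterm φ s hs I) ⊆
      ((Ideal (𝓞 K))⁰ : Set (Ideal (𝓞 K))) := by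
    intro I hI
    refine mem_nonZeroDivisors_of_ne_zero ?_
    rintro rfl
    exact hI (map_zero _)
  rw [← tsum_subtype_eq_of_support_subset h0, Lcls]
  refine tsum_congr fun I ↦ ?_
  rw [lterm_apply]
  have := clsVal_coe φ I
  rw [← this]

/-- the Euler factor parameter -/
noncomputable def ea (s : ℝ) (v : HeightOneSpectrum (𝓞 K)) : ℝ :=
  (Ideal.absNorm v.asIdeal : ℝ) ^ (-s)

lemma two_le_absNorm (v : HeightOneSpectrum (𝓞 K)) : 2 ≤ Ideal.absNorm v.asIdeal := by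
  have h1 : Ideal.absNorm v.asIdeal ≠ 0 := by
    rw [Ne, Ideal.absNorm_eq_zero_iff]; exact v.ne_bot
  have h2 : Ideal.absNorm v.asIdeal ≠ 1 := by
    rw [Ne, Ideal.absNorm_eq_one_iff]; exact v.isPrime.ne_top
  omega

lemma ea_pos (s : ℝ) (v : HeightOneSpectrum (𝓞 K)) : 0 < ea s v := by
  have : (0:ℝ) < Ideal.absNorm v.asIdeal := by
    have := two_le_absNorm v
    exact_mod_cast (by omega : 0 < Ideal.absNorm v.asIdeal)
  exact Real.rpow_pos_of_pos this _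

lemma ea_le_half {s : ℝ} (hs : 1 ≤ s) (v : HeightOneSpectrum (𝓞 K)) : ea s v ≤ 1 / 2 := by
  have h2 : (2:ℝ) ≤ Ideal.absNorm v.asIdeal := by exact_mod_cast two_le_absNorm v
  calc ea s v ≤ (Ideal.absNorm v.asIdeal : ℝ) ^ (-1 : ℝ) :=
        Real.rpow_le_rpow_of_exponent_le (by linarith) (by linarith)
    _ = (Ideal.absNorm v.asIdeal : ℝ)⁻¹ := Real.rpow_neg_one _
    _ ≤ 2⁻¹ := inv_anti₀ (by norm_num) h2
    _ = 1 / 2 := by norm_num

lemma one_le_efac {s : ℝ} (hs : 1 ≤ s) (v : HeightOneSpectrum (𝓞 K)) : 1 ≤ (1 - ea s v)⁻¹ := by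
  have h1 := ea_pos s v
  have h2 := ea_le_half hs v
  rw [one_le_inv₀ (by linarith)]
  linarith

lemma Lcls_one_eq {s : ℝ} : Lcls (1 : ClassGroup (𝓞 K) →* ℂ) s = (Zi K s : ℂ) := by
  rw [Lcls, Zi, Complex.ofReal_tsum]
  refine tsum_congr fun I ↦ ?_
  rw [MonoidHom.one_apply, one_mul]

lemma euler_norm {φ : ClassGroup (𝓞 K) →* ℂ} (hφ : ∀ c, ‖φ c‖ = 1) {s : ℝ}
    (hs1 : 1 < s) (hs2 : s ≤ 2) :
    HasProd (fun v : HeightOneSpectrum (𝓞 K) ↦ ‖1 - clsVal K φ v.asIdeal * ea s v‖⁻¹)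
      ‖Lcls φ s‖ := by
  have hs : s ≠ 0 := by linarith
  have h := (euler_hasProd (summable_lterm hφ hs hs1 hs2)).norm
  rw [tsum_lterm] at h
  have h2 : (fun v : HeightOneSpectrum (𝓞 K) ↦ ‖(1 - lterm φ s hs v.asIdeal)⁻¹‖) =
      fun v ↦ ‖1 - clsVal K φ v.asIdeal * ea s v‖⁻¹ := by
    funext v
    rw [norm_inv, lterm_apply]
    rfl
  rw [h2] at h
  exact h

lemma euler_zeta {s : ℝ} (hs1 : 1 < s) (hs2 : s ≤ 2) :
    HasProd (fun v : HeightOneSpectrum (𝓞 K) ↦ (1 - ea s v)⁻¹) (Zi K s) := by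
  have h := euler_norm (K := K) (φ := 1) (fun c ↦ by simp) hs1 hs2
  have hZ : 0 ≤ Zi K s := tsum_nonneg fun I ↦ by positivity
  rw [Lcls_one_eq, Complex.norm_real, Real.norm_eq_abs, abs_of_nonneg hZ] at h
  have h2 : (fun v : HeightOneSpectrum (𝓞 K) ↦
      ‖1 - clsVal K (1 : ClassGroup (𝓞 K) →* ℂ) v.asIdeal * ea s v‖⁻¹) =
      fun v ↦ (1 - ea s v)⁻¹ := by
    funext v
    have h3 : clsVal K (1 : ClassGroup (𝓞 K) →* ℂ) v.asIdeal = 1 := by
      rw [clsVal, dif_neg (show v.asIdeal ≠ 0 from v.ne_bot)]; rfl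
    have h4 : (1 : ℂ) - 1 * (ea s v : ℂ) = ((1 - ea s v : ℝ) : ℂ) := by push_cast; ring
    rw [h3, h4, Complex.norm_real, Real.norm_eq_abs, abs_of_nonneg]
    have := ea_le_half hs1.le v
    linarith
  rw [h2] at h
  exact h

/-- A finite partial product of the Euler product of zeta is bounded by zeta. -/
lemma prod_le_Zi {s : ℝ} (hs1 : 1 < s) (hs2 : s ≤ 2) (S : Finset (HeightOneSpectrum (𝓞 K))) :
    ∏ v ∈ S, (1 - ea s v)⁻¹ ≤ Zi K s := by
  have h := euler_zeta (K := K) hs1 hs2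
  rw [HasProd, SummationFilter.unconditional_filter] at h
  refine ge_of_tendsto h ?_
  filter_upwards [eventually_ge_atTop S] with T hT
  classical
  have h1 : 1 ≤ ∏ v ∈ T \ S, (1 - ea s v)⁻¹ :=
    Finset.prod_induction _ (fun x : ℝ ↦ 1 ≤ x)
      (fun a b ha hb ↦ one_le_mul_of_one_le_of_one_le ha hb) le_rfl
      (fun v _ ↦ one_le_efac hs1.le v)
  have h2 : 0 ≤ ∏ v ∈ S, (1 - ea s v)⁻¹ := prod_nonneg fun v _ ↦ by
    have := one_le_efac hs1.le v; linarith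
  rw [← prod_sdiff hT]
  exact le_mul_of_one_le_left h2 h1

lemma Zi_le_mul {φ : ClassGroup (𝓞 K) →* ℂ} (hφ : ∀ c, ‖φ c‖ = 1) {s : ℝ}
    (hs1 : 1 < s) (hs2 : s ≤ 2) {B : ℝ}
    (hB : ∀ S : Finset (HeightOneSpectrum (𝓞 K)), (∀ v ∈ S, clsVal K φ v.asIdeal ≠ 1) →
      ∏ v ∈ S, (1 - ea s v)⁻¹ ≤ B) :
    Zi K s ≤ ‖Lcls φ s‖ * B ^ 2 := by
  classical
  have h1 := euler_zeta (K := K) hs1 hs2
  have h2 := euler_norm hφ hs1 hs2
  rw [HasProd, SummationFilter.unconditional_filter] at h1 h2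
  refine le_of_tendsto_of_tendsto' h1 (h2.mul_const (B ^ 2)) fun S ↦ ?_
  set T := S.filter fun v ↦ clsVal K φ v.asIdeal ≠ 1 with hT
  have hTB : ∏ v ∈ T, (1 - ea s v)⁻¹ ≤ B := hB T fun v hv ↦ (mem_filter.mp hv).2
  have hT0 : 0 ≤ ∏ v ∈ T, (1 - ea s v)⁻¹ := prod_nonneg fun v _ ↦ by
    have := one_le_efac hs1.le v; linarith
  have h3 : ∏ v ∈ S, (1 - ea s v)⁻¹ ≤
      (∏ v ∈ S, ‖1 - clsVal K φ v.asIdeal * ea s v‖⁻¹) * ∏ v ∈ T, ((1 - ea s v)⁻¹) ^ 2 := by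
    rw [hT, prod_filter, ← prod_mul_distrib]
    refine prod_le_prod (fun v _ ↦ by have := one_le_efac hs1.le v; linarith) fun v _ ↦ ?_
    have ha0 := ea_pos s v
    have ha1 := ea_le_half hs1.le v
    by_cases hv : clsVal K φ v.asIdeal = 1
    · rw [if_neg (not_not.mpr hv), mul_one, hv]
      have h4 : (1 : ℂ) - 1 * (ea s v : ℂ) = ((1 - ea s v : ℝ) : ℂ) := by push_cast; ring
      rw [h4, Complex.norm_real, Real.norm_eq_abs, abs_of_nonneg (by linarith)]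
    · rw [if_pos hv]
      have hn : ‖1 - clsVal K φ v.asIdeal * ea s v‖ ≤ 1 + ea s v := by
        refine (norm_sub_le _ _).trans ?_
        rw [norm_one, norm_mul, norm_clsVal hφ v.ne_bot, one_mul, Complex.norm_real,
          Real.norm_eq_abs, abs_of_pos ha0]
      have hn0 : 0 < ‖1 - clsVal K φ v.asIdeal * ea s v‖ := by
        have h5 : 1 - ea s v ≤ ‖1 - clsVal K φ v.asIdeal * ea s v‖ := by
          have h6 := norm_sub_norm_le (1 : ℂ) (clsVal K φ v.asIdeal * ea s v)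
          rw [norm_one, norm_mul, norm_clsVal hφ v.ne_bot, one_mul, Complex.norm_real,
            Real.norm_eq_abs, abs_of_pos ha0] at h6
          exact h6
        linarith
      have h7 : (1 + ea s v)⁻¹ ≤ ‖1 - clsVal K φ v.asIdeal * ea s v‖⁻¹ := inv_anti₀ hn0 hn
      have h8 : (1 - ea s v)⁻¹ ≤ (1 + ea s v)⁻¹ * ((1 - ea s v)⁻¹) ^ 2 := by
        rw [← sub_nonneg]
        have h9 : (1 + ea s v)⁻¹ * ((1 - ea s v)⁻¹) ^ 2 - (1 - ea s v)⁻¹ =
          (ea s v) ^ 2 / ((1 + ea s v) * (1 - ea s v) ^ 2) := by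
          have e1 : (1 : ℝ) + ea s v ≠ 0 := by linarith
          have e2 : (1 : ℝ) - ea s v ≠ 0 := by linarith
          field_simp
          ring
        rw [h9]
        positivity
      refine h8.trans (mul_le_mul_of_nonneg_right h7 (by positivity))
  refine h3.trans ?_
  have h4 : 0 ≤ ∏ v ∈ S, ‖1 - clsVal K φ v.asIdeal * ea s v‖⁻¹ :=
    prod_nonneg fun v _ ↦ by positivity
  refine mul_le_mul_of_nonneg_left ?_ h4
  rw [prod_pow]
  exact pow_le_pow_left₀ hT0 hTB 2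

end Fermat.Agent.ExtVan
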