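import Mathlib
import Fermat.Agent.ExtVan.ZetaIneq

/-!
# Existence of primes with prescribed nontrivial class and splitting behaviour
-/

set_option linter.all false

namespace Fermat.Agent.ExtVan

open scoped nonZeroDivisors Topology
open Finset NumberField NumberField.Units Module Filter IsDedekindDomain

variable {K : Type*} [Field K] [NumberField K]

lemma efac_le_exp {s : ℝ} (hs : 1 ≤ s) (v : HeightOneSpectrum (𝓞 K)) :
    (1 - ea s v)⁻¹ ≤ Real.exp (2 * ea s v) := by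
  have h0 := ea_pos s v
  have h1 := ea_le_half hs v
  rw [inv_le_comm₀ (by linarith) (Real.exp_pos _), ← Real.exp_neg]
  have h2 := Real.quadratic_le_exp_of_nonneg (x := 2 * ea s v) (by linarith)
  have h3 : Real.exp (-(2 * ea s v)) = (Real.exp (2 * ea s v))⁻¹ := Real.exp_neg _
  rw [h3, inv_le_comm₀ (Real.exp_pos _) (by linarith)]
  refine le_trans ?_ h2
  rw [inv_le_iff_one_le_mul₀ (by linarith)]
  nlinarith [sq_nonneg (ea s v)]

/-- the rational prime below a prime ideal -/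
noncomputable def rp (v : HeightOneSpectrum (𝓞 K)) : ℕ := (Ideal.absNorm v.asIdeal).minFac

lemma rp_prime (v : HeightOneSpectrum (𝓞 K)) : (rp v).Prime :=
  Nat.minFac_prime (by have := two_le_absNorm v; omega)

lemma rp_spec (v : HeightOneSpectrum (𝓞 K)) :
    ∃ f : ℕ, 0 < f ∧ Ideal.absNorm v.asIdeal = (rp v) ^ f ∧ ((rp v : ℕ) : 𝓞 K) ∈ v.asIdeal := by
  have hmax := v.isMaximal
  letI : Field (𝓞 K ⧸ v.asIdeal) := Ideal.Quotient.field _
  haveI : Finite (𝓞 K ⧸ v.asIdeal) := Ideal.finiteQuotientOfFreeOfNeBot _ v.ne_bot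
  letI := Fintype.ofFinite (𝓞 K ⧸ v.asIdeal)
  obtain ⟨q, hchar, n, hq, hcard⟩ := FiniteField.card' (𝓞 K ⧸ v.asIdeal)
  have h1 : Ideal.absNorm v.asIdeal = q ^ (n : ℕ) := by
    rw [Ideal.absNorm_apply, Submodule.cardQuot_apply, Nat.card_eq_fintype_card]
    exact hcard
  have h2 : rp v = q := by
    rw [rp, h1, hq.pow_minFac n.pos.ne']
  refine ⟨n, n.pos, by rw [h2]; exact h1, ?_⟩
  rw [h2, ← Ideal.Quotient.eq_zero_iff_mem, map_natCast]
  exact CharP.cast_eq_zero _ _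

lemma fiber_card_le (n : ℕ) (hn : 2 ≤ n) (S : Finset (HeightOneSpectrum (𝓞 K)))
    (hS : ∀ v ∈ S, (n : 𝓞 K) ∈ v.asIdeal ∧ n ≤ Ideal.absNorm v.asIdeal) :
    S.card ≤ finrank ℚ K := by
  classical
  have hdvd : ∏ v ∈ S, v.asIdeal ∣ Ideal.span {(n : 𝓞 K)} := by
    refine Finset.prod_dvd_of_coprime ?_ ?_
    · intro v hv w hw hvw
      simp only [Function.onFun]
      rw [Ideal.isCoprime_iff_sup_eq]
      refine Ideal.IsMaximal.coprime_of_ne v.isMaximal w.isMaximal ?_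
      exact fun h ↦ hvw (HeightOneSpectrum.ext h)
    · intro v hv
      rw [Ideal.dvd_span_singleton]
      exact (hS v hv).1
  have h1 : ∏ v ∈ S, Ideal.absNorm v.asIdeal ∣ n ^ finrank ℚ K := by
    have h2 := map_dvd (Ideal.absNorm (S := 𝓞 K)) hdvd
    rw [map_prod, Ideal.absNorm_span_singleton, Algebra.norm_natCast] at h2
    rw [Int.natAbs_pow, Int.natAbs_natCast, RingOfIntegers.rank] at h2
    exact h2
  have h3 : n ^ S.card ≤ n ^ finrank ℚ K := by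
    calc n ^ S.card = ∏ v ∈ S, n := by rw [prod_const]
      _ ≤ ∏ v ∈ S, Ideal.absNorm v.asIdeal := prod_le_prod' fun v hv ↦ (hS v hv).2
      _ ≤ n ^ finrank ℚ K := Nat.le_of_dvd (by positivity) h1
  exact (Nat.pow_le_pow_iff_right (by omega)).mp h3

lemma exceptional_sum_bound : ∃ C : ℝ, ∀ s : ℝ, 1 < s → s ≤ 2 →
    ∀ S : Finset (HeightOneSpectrum (𝓞 K)), (∀ v ∈ S, ¬ (Ideal.absNorm v.asIdeal).Prime) →
      ∑ v ∈ S, ea s v ≤ C := by
  classical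
  have hsum : Summable fun n : ℕ ↦ (finrank ℚ K : ℝ) * (1 / (n : ℝ) ^ 2) :=
    (Real.summable_one_div_nat_pow.mpr one_lt_two).mul_left _
  refine ⟨∑' n : ℕ, (finrank ℚ K : ℝ) * (1 / (n : ℝ) ^ 2), fun s hs1 hs2 S hS ↦ ?_⟩
  have h1 : ∀ v ∈ S, ea s v ≤ 1 / ((rp v : ℕ) : ℝ) ^ 2 := by
    intro v hv
    obtain ⟨f, hf0, hf, hmem⟩ := rp_spec v
    have hf2 : 2 ≤ f := by
      by_contra hlt
      have : f = 1 := by omega
      rw [this, pow_one] at hf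
      exact hS v hv (by rw [hf]; exact rp_prime v)
    have hrp : (1:ℝ) ≤ (rp v : ℝ) := by exact_mod_cast (rp_prime v).one_lt.le
    have h2 : ((rp v : ℝ)) ^ 2 ≤ (Ideal.absNorm v.asIdeal : ℝ) := by
      rw [hf]; push_cast
      exact pow_le_pow_right₀ hrp hf2
    have h3 : (1:ℝ) ≤ (Ideal.absNorm v.asIdeal : ℝ) := by
      exact_mod_cast (by have := two_le_absNorm v; omega : 1 ≤ Ideal.absNorm v.asIdeal)
    calc ea s v ≤ (Ideal.absNorm v.asIdeal : ℝ) ^ (-1 : ℝ) :=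
        Real.rpow_le_rpow_of_exponent_le h3 (by linarith)
      _ = (Ideal.absNorm v.asIdeal : ℝ)⁻¹ := Real.rpow_neg_one _
      _ ≤ ((rp v : ℝ) ^ 2)⁻¹ := inv_anti₀ (by positivity) h2
      _ = 1 / ((rp v : ℕ) : ℝ) ^ 2 := by rw [one_div]
  calc ∑ v ∈ S, ea s v ≤ ∑ v ∈ S, 1 / ((rp v : ℕ) : ℝ) ^ 2 := sum_le_sum h1
    _ = ∑ n ∈ S.image rp, ∑ v ∈ S.filter (fun v ↦ rp v = n), 1 / ((rp v : ℕ) : ℝ) ^ 2 := by
        rw [sum_fiberwise_of_maps_to fun v hv ↦ mem_image_of_mem rp hv]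
    _ ≤ ∑ n ∈ S.image rp, (finrank ℚ K : ℝ) * (1 / (n : ℝ) ^ 2) := by
        refine sum_le_sum fun n hn ↦ ?_
        have h4 : ∑ v ∈ S.filter (fun v ↦ rp v = n), 1 / ((rp v : ℕ) : ℝ) ^ 2 =
            (S.filter (fun v ↦ rp v = n)).card * (1 / (n : ℝ) ^ 2) := by
          rw [sum_congr rfl (fun v hv ↦ by rw [(mem_filter.mp hv).2]), sum_const, nsmul_eq_mul]
        rw [h4]
        refine mul_le_mul_of_nonneg_right ?_ (by positivity)
        obtain ⟨v₀, hv₀, hn₀⟩ := mem_image.mp hn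
        have hn2 : 2 ≤ n := by rw [← hn₀]; exact (rp_prime v₀).two_le
        have := fiber_card_le n hn2 (S.filter (fun v ↦ rp v = n)) (fun v hv ↦ by
          obtain ⟨f, hf0, hf, hmem⟩ := rp_spec v
          have hv2 := (mem_filter.mp hv).2
          rw [hv2] at hmem hf
          refine ⟨hmem, ?_⟩
          rw [hf]
          exact Nat.le_self_pow hf0.ne' n)
        exact_mod_cast this
    _ ≤ ∑' n : ℕ, (finrank ℚ K : ℝ) * (1 / (n : ℝ) ^ 2) :=
        hsum.sum_le_tsum _ fun n _ ↦ by positivity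

lemma exceptional_bound (Bad : Finset (HeightOneSpectrum (𝓞 K))) : ∃ C : ℝ, 0 < C ∧
    ∀ s : ℝ, 1 < s → s ≤ 2 →
    ∀ S : Finset (HeightOneSpectrum (𝓞 K)),
      (∀ v ∈ S, v ∈ Bad ∨ ¬ (Ideal.absNorm v.asIdeal).Prime) →
      ∏ v ∈ S, (1 - ea s v)⁻¹ ≤ C := by
  classical
  obtain ⟨C, hC⟩ := exceptional_sum_bound (K := K)
  refine ⟨Real.exp (2 * (Bad.card + C)), Real.exp_pos _, fun s hs1 hs2 S hS ↦ ?_⟩
  have h1 : ∏ v ∈ S, (1 - ea s v)⁻¹ ≤ ∏ v ∈ S, Real.exp (2 * ea s v) :=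
    prod_le_prod (fun v _ ↦ by have := one_le_efac hs1.le v; linarith)
      fun v _ ↦ efac_le_exp hs1.le v
  refine h1.trans ?_
  rw [← Real.exp_sum, Real.exp_le_exp, ← mul_sum]
  refine mul_le_mul_of_nonneg_left ?_ (by norm_num)
  rw [← sum_filter_add_sum_filter_not S (fun v ↦ (Ideal.absNorm v.asIdeal).Prime)]
  refine add_le_add ?_ (hC s hs1 hs2 _ fun v hv ↦ (mem_filter.mp hv).2)
  have h2 : S.filter (fun v ↦ (Ideal.absNorm v.asIdeal).Prime) ⊆ Bad := by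
    intro v hv
    obtain ⟨h3, h4⟩ := mem_filter.mp hv
    rcases hS v h3 with h5 | h5
    · exact h5
    · exact absurd h4 h5
  calc ∑ v ∈ S.filter (fun v ↦ (Ideal.absNorm v.asIdeal).Prime), ea s v
      ≤ ∑ v ∈ S.filter (fun v ↦ (Ideal.absNorm v.asIdeal).Prime), (1 : ℝ) :=
        sum_le_sum fun v _ ↦ by have := ea_le_half hs1.le v; linarith
    _ = (S.filter (fun v ↦ (Ideal.absNorm v.asIdeal).Prime)).card := by simp
    _ ≤ Bad.card := by exact_mod_cast card_le_card h2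

variable {K' : Type*} [Field K'] [NumberField K'] [Algebra K K']

/-- The primes of `K` having `p` primes above them in `K'` of the same norm. -/
lemma split_bound (p : ℕ) {s : ℝ} (hs1 : 1 < s) (hs2 : s ≤ 2)
    (S : Finset (HeightOneSpectrum (𝓞 K)))
    (hS : ∀ v ∈ S, ∃ T : Finset (HeightOneSpectrum (𝓞 K')), T.card = p ∧ ∀ w ∈ T,
      Ideal.absNorm w.asIdeal = Ideal.absNorm v.asIdeal ∧
      w.asIdeal.comap (algebraMap (𝓞 K) (𝓞 K')) = v.asIdeal) :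
    (∏ v ∈ S, (1 - ea s v)⁻¹) ^ p ≤ Zi K' s := by
  classical
  choose! T hT hTw using hS
  have hdisj : Set.PairwiseDisjoint (S : Set (HeightOneSpectrum (𝓞 K))) T := by
    intro v hv v' hv' hvv'
    rw [Function.onFun, Finset.disjoint_left]
    intro w hw hw'
    apply hvv'
    apply HeightOneSpectrum.ext
    rw [← (hTw v hv w hw).2, ← (hTw v' hv' w hw').2]
  have h1 : ∏ w ∈ S.biUnion T, (1 - ea s w)⁻¹ = (∏ v ∈ S, (1 - ea s v)⁻¹) ^ p := by
    rw [prod_biUnion hdisj, ← prod_pow]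
    refine prod_congr rfl fun v hv ↦ ?_
    rw [← hT v hv, ← prod_const]
    refine prod_congr rfl fun w hw ↦ ?_
    rw [ea, ea, (hTw v hv w hw).1]
  rw [← h1]
  exact prod_le_Zi hs1 hs2 _

/-- **Existence of primes.** -/
theorem class_char_trivial (p : ℕ) (hp : 3 ≤ p) (φ : ClassGroup (𝓞 K) →* ℂ)
    (hφ : ∀ c, ‖φ c‖ = 1) (hsum : ∑ c, φ c = 0)
    (Bad : Finset (HeightOneSpectrum (𝓞 K)))
    (hsplit : ∀ v : HeightOneSpectrum (𝓞 K), v ∉ Bad → (Ideal.absNorm v.asIdeal).Prime →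
      clsVal K φ v.asIdeal ≠ 1 →
      ∃ T : Finset (HeightOneSpectrum (𝓞 K')), T.card = p ∧ ∀ w ∈ T,
      Ideal.absNorm w.asIdeal = Ideal.absNorm v.asIdeal ∧
      w.asIdeal.comap (algebraMap (𝓞 K) (𝓞 K')) = v.asIdeal) : False := by
  classical
  obtain ⟨C₁, hC₁⟩ := exists_classSeries_bound (K := K) (fun c ↦ φ c) hsum
  obtain ⟨C₂, hC₂0, hC₂⟩ := exceptional_bound Bad
  obtain ⟨c, C, hc, hC, hZ⟩ := exists_Zi_bounds K
  obtain ⟨c', C', hc', hC', hZ'⟩ := exists_Zi_bounds K'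
  have hp0 : (p : ℝ) ≠ 0 := by positivity
  have hp3 : (3 : ℝ) ≤ p := by exact_mod_cast hp
  -- key inequality
  have key : ∀ᶠ s : ℝ in 𝓝[>] 1, c / (s - 1) ≤ C₁ * (C₂ * (C' / (s - 1)) ^ (1 / (p : ℝ))) ^ 2 := by
    filter_upwards [hC₁, hZ, hZ', eventually_Ioc] with s h1 h2 h3 hs12
    obtain ⟨hs1, hs2⟩ := hs12
    have hs0 : 0 < s - 1 := by linarith
    have hB : ∀ S : Finset (HeightOneSpectrum (𝓞 K)), (∀ v ∈ S, clsVal K φ v.asIdeal ≠ 1) →
      ∏ v ∈ S, (1 - ea s v)⁻¹ ≤ C₂ * (C' / (s - 1)) ^ (1 / (p : ℝ)) := by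
      intro S hS
      rw [← prod_filter_mul_prod_filter_not S (fun v ↦ v ∈ Bad ∨ ¬ (Ideal.absNorm v.asIdeal).Prime)]
      refine mul_le_mul (hC₂ s hs1 hs2 _ fun v hv ↦ (mem_filter.mp hv).2) ?_
        (prod_nonneg fun v _ ↦ by have := one_le_efac hs1.le v; linarith) hC₂0.le
      set S' := S.filter (fun v ↦ ¬ (v ∈ Bad ∨ ¬ (Ideal.absNorm v.asIdeal).Prime)) with hS'
      have h4 : (∏ v ∈ S', (1 - ea s v)⁻¹) ^ p ≤ Zi K' s := by
        refine split_bound p hs1 hs2 S' fun v hv ↦ ?_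
        obtain ⟨h5, h6⟩ := mem_filter.mp hv
        push Not at h6
        exact hsplit v h6.1 h6.2 (hS v h5)
      have h5 : 0 ≤ ∏ v ∈ S', (1 - ea s v)⁻¹ :=
        prod_nonneg fun v _ ↦ by have := one_le_efac hs1.le v; linarith
      have h6 : ∏ v ∈ S', (1 - ea s v)⁻¹ = ((∏ v ∈ S', (1 - ea s v)⁻¹) ^ p) ^ (1 / (p : ℝ)) := by
        rw [← Real.rpow_natCast, ← Real.rpow_mul h5, mul_one_div_cancel hp0, Real.rpow_one]
      rw [h6]
      exact Real.rpow_le_rpow (by positivity) (h4.trans h3.2) (by positivity)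
    have h7 := Zi_le_mul hφ hs1 hs2 hB
    have h8 : ‖Lcls φ s‖ ≤ C₁ := h1
    calc c / (s - 1) ≤ Zi K s := h2.1
      _ ≤ ‖Lcls φ s‖ * (C₂ * (C' / (s - 1)) ^ (1 / (p : ℝ))) ^ 2 := h7
      _ ≤ _ := mul_le_mul_of_nonneg_right h8 (by positivity)
  -- contradiction as s → 1
  have hexp : 0 < 1 - 2 / (p : ℝ) := by
    rw [sub_pos, div_lt_one (by positivity)]; linarith
  set D : ℝ := C₁ * C₂ ^ 2 * C' ^ (2 / (p : ℝ)) with hD
  have key2 : ∀ᶠ s : ℝ in 𝓝[>] 1, c ≤ D * (s - 1) ^ (1 - 2 / (p : ℝ)) := by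
    filter_upwards [key, eventually_Ioc] with s h1 hs12
    obtain ⟨hs1, hs2⟩ := hs12
    have hs0 : 0 < s - 1 := by linarith
    rw [div_le_iff₀ hs0] at h1
    refine h1.trans (le_of_eq ?_)
    have e1 : ((C' / (s - 1)) ^ (1 / (p : ℝ))) ^ 2 = C' ^ (2 / (p : ℝ)) * (s - 1) ^ (-(2 / (p : ℝ))) := by
      rw [← Real.rpow_natCast, ← Real.rpow_mul (by positivity), Real.div_rpow hC'.le hs0.le,
        Real.rpow_neg hs0.le, div_eq_mul_inv]
      congr 2 <;> push_cast <;> ring_nf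
    have e2 : (s - 1) ^ (1 - 2 / (p : ℝ)) = (s - 1) ^ (-(2 / (p : ℝ))) * (s - 1) := by
      have e0 : 1 - 2 / (p : ℝ) = -(2 / (p : ℝ)) + 1 := by ring
      rw [e0, Real.rpow_add hs0, Real.rpow_one]
    rw [mul_pow, e1, e2, hD]
    ring
  have hlim : Tendsto (fun s : ℝ ↦ D * (s - 1) ^ (1 - 2 / (p : ℝ))) (𝓝[>] 1) (𝓝 (D * 0)) := by
    refine Tendsto.const_mul D ?_
    have h1 : Tendsto (fun s : ℝ ↦ s - 1) (𝓝[>] 1) (𝓝 0) := by
      have : Tendsto (fun s : ℝ ↦ s - 1) (𝓝 1) (𝓝 (1 - 1)) :=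
        (continuous_id.sub continuous_const).tendsto 1
      rw [sub_self] at this
      exact this.mono_left nhdsWithin_le_nhds
    have h2 := h1.rpow_const (p := 1 - 2 / (p : ℝ)) (Or.inr hexp.le)
    rwa [Real.zero_rpow hexp.ne'] at h2
  have h3 : c ≤ D * 0 := ge_of_tendsto hlim key2
  linarith

end Fermat.Agent.ExtVan
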