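import Mathlib
import Fermat.Agent.ExtVan.ZetaIneq

/-!
# Boundedness near `s = 1` of the L-series of a nontrivial ray class character
-/

set_option linter.all false

namespace Fermat.Agent.ExtVan

open scoped nonZeroDivisors Topology
open Finset NumberField NumberField.Units NumberField.InfinitePlace Module Filter IsDedekindDomain

variable {K : Type*} [Field K] [NumberField K]

/-- Same signs at all real embeddings. -/
def SameSign (x y : 𝓞 K) : Prop := ∀ φ : K →+* ℝ, 0 < φ (x : K) * φ (y : K)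

variable (K) in
lemma exists_supp_lower : ∃ κ : ℝ, 0 < κ ∧ ∀ y : InfinitePlace K → ℝ, (∀ w, 0 < y w) →
    logWeight K (vlog y) ≠ 0 → ∀ w, κ * ‖y‖ ≤ y w := by
  obtain ⟨C₂, hC₂, hsupp⟩ := exists_logWeight_supp K
  refine ⟨Real.exp (-C₂), Real.exp_pos _, fun y hy hW v ↦ ?_⟩
  obtain ⟨w, hw⟩ := norm_eq_of_pos y hy
  have hy0 : 0 < ‖y‖ := hw ▸ hy w
  have h1 := hsupp _ hW w v
  rw [abs_le] at h1
  have h2 : Real.log ‖y‖ - C₂ ≤ Real.log (y v) := by
    have h3 : vlog y w = Real.log ‖y‖ := by rw [hw]; rfl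
    have h4 : vlog y v = Real.log (y v) := rfl
    linarith
  calc Real.exp (-C₂) * ‖y‖ = Real.exp (Real.log ‖y‖ - C₂) := by
        rw [sub_eq_add_neg, Real.exp_add, Real.exp_log hy0, mul_comm]
    _ ≤ Real.exp (Real.log (y v)) := Real.exp_le_exp.mpr h2
    _ = y v := Real.exp_log (hy v)

/-- a real embedding gives a place -/
lemma exists_place_of_real (φ : K →+* ℝ) : ∃ w : InfinitePlace K, ∀ x : K, w x = |φ x| := by
  refine ⟨InfinitePlace.mk (Complex.ofRealHom.comp φ), fun x ↦ ?_⟩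
  rw [InfinitePlace.apply]
  simp

lemma abs_real_le_norm_pv (φ : K →+* ℝ) (x : 𝓞 K) : |φ (x : K)| ≤ ‖pv x‖ := by
  obtain ⟨w, hw⟩ := exists_place_of_real φ
  rw [← hw]
  have := norm_le_pi_norm (pv x) w
  rwa [Real.norm_eq_abs, abs_of_nonneg (pv_nonneg x w)] at this

lemma sameSign_of_lt {r x : 𝓞 K} (h : ∀ w, ‖pv r‖ < pv x w) : SameSign (r + x) x := by
  intro φ
  obtain ⟨w, hw⟩ := exists_place_of_real φ
  have h1 : |φ (r : K)| < |φ (x : K)| := by
    refine (abs_real_le_norm_pv φ r).trans_lt ?_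
    rw [← hw]; exact h w
  push_cast
  rw [map_add]
  rcases lt_trichotomy (φ (x : K)) 0 with h2 | h2 | h2
  · rw [abs_of_neg h2] at h1
    have := le_abs_self (φ (r : K))
    nlinarith
  · rw [h2, abs_zero] at h1
    exact absurd h1 (not_lt.mpr (abs_nonneg _))
  · rw [abs_of_pos h2] at h1
    have := neg_abs_le (φ (r : K))
    nlinarith

lemma sameSign_of_lt' {r x : 𝓞 K} (h : ∀ w, ‖pv r‖ < pv (r + x) w) : SameSign (r + x) x := by
  intro φ
  obtain ⟨w, hw⟩ := exists_place_of_real φ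
  have h1 : |φ (r : K)| < |φ ((r + x : 𝓞 K) : K)| := by
    refine (abs_real_le_norm_pv φ r).trans_lt ?_
    rw [← hw]; exact h w
  push_cast at h1 ⊢
  rw [map_add] at h1 ⊢
  rcases lt_trichotomy (φ (r : K) + φ (x : K)) 0 with h2 | h2 | h2
  · rw [abs_of_neg h2] at h1
    have := neg_abs_le (φ (r : K))
    nlinarith
  · rw [h2, abs_zero] at h1
    exact absurd h1 (not_lt.mpr (abs_nonneg _))
  · rw [abs_of_pos h2] at h1
    have := le_abs_self (φ (r : K))
    nlinarith

variable (K)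

/-- Uniform bound for the weighted term. -/
lemma exists_G_unif : ∃ C : ℝ, 0 ≤ C ∧ ∀ s : ℝ, 1 ≤ s → s ≤ 2 → ∀ x : 𝓞 K, G s x ≤ C := by
  obtain ⟨C₁, hC₁, hb⟩ := exists_G_bound K
  refine ⟨C₁, hC₁, fun s hs1 hs2 x ↦ ?_⟩
  by_cases hx : x = 0
  · subst hx; rw [G_zero]; exact hC₁
  · refine (hb s hs1 hs2 x).trans (mul_le_of_le_one_right hC₁ ?_)
    refine Real.rpow_le_one_of_one_le_of_nonpos (one_le_norm_pv hx) ?_
    have : (0:ℝ) ≤ finrank ℚ K := Nat.cast_nonneg _
    nlinarith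

/-- Bounding function for the difference of two translates, twisted version. -/
lemma exists_twisted_diff_bound (r : 𝓞 K) (h : 𝓞 K → ℂ) (hh1 : ∀ x, ‖h x‖ ≤ 1)
    (hh : ∀ x, x ≠ 0 → r + x ≠ 0 → SameSign (r + x) x → h (r + x) = h x) :
    ∃ H : 𝓞 K → ℝ, Summable H ∧ ∀ s : ℝ, 1 ≤ s → s ≤ 2 → ∀ x : 𝓞 K,
      ‖h (r + x) * (G s (r + x) : ℂ) - h x * (G s x : ℂ)‖ ≤ H x := by
  obtain ⟨H, hH, hHb⟩ := exists_diff_bound K r
  obtain ⟨C, hC, hGC⟩ := exists_G_unif K
  obtain ⟨κ, hκ, hlow⟩ := exists_supp_lower K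
  -- radius beyond which everything is nice
  set M : ℝ := (‖pv r‖ + 1) / κ + ‖pv r‖ + 1 with hM
  have hr0 : 0 ≤ ‖pv r‖ := norm_nonneg _
  have hfin : {x : 𝓞 K | ‖pv x‖ ≤ M}.Finite := by
    have hs := summable_norm_pv K (-(finrank ℚ K : ℝ) - 1) (by linarith)
    have hM0 : 0 < M := by positivity
    have h1 : {x : 𝓞 K | ‖pv x‖ ≤ M} ⊆ {0} ∪
        {x : 𝓞 K | M ^ (-(finrank ℚ K : ℝ) - 1) ≤ ‖pv x‖ ^ (-(finrank ℚ K : ℝ) - 1)} := by
      intro x hx
      by_cases hx0 : x = 0
      · left; exact hx0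
      · right
        have h3 := one_le_norm_pv hx0
        have : (0:ℝ) ≤ finrank ℚ K := Nat.cast_nonneg _
        exact Real.rpow_le_rpow_of_nonpos (by linarith) hx (by linarith)
    refine Set.Finite.subset (Set.Finite.union (Set.finite_singleton 0) ?_) h1
    have h4 := hs.tendsto_cofinite_zero
    have h5 := h4.eventually (gt_mem_nhds (Real.rpow_pos_of_pos hM0 (-(finrank ℚ K : ℝ) - 1)))
    rw [Filter.eventually_cofinite] at h5
    refine h5.subset fun x hx ↦ ?_
    simp only [Set.mem_setOf_eq, not_lt] at hx ⊢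
    exact hx
  refine ⟨fun x ↦ |H x| + Set.indicator {x : 𝓞 K | ‖pv x‖ ≤ M} (fun _ ↦ 2 * C) x, ?_, ?_⟩
  · refine hH.abs.add ?_
    refine summable_of_ne_finset_zero (s := hfin.toFinset) fun x hx ↦ ?_
    rw [Set.Finite.mem_toFinset] at hx
    exact Set.indicator_of_notMem hx _
  · intro s hs1 hs2 x
    beta_reduce
    have hG1 := hGC s hs1 hs2 x
    have hG2 := hGC s hs1 hs2 (r + x)
    have hG3 := G_nonneg s x
    have hG4 := G_nonneg s (r + x)
    by_cases hx : ‖pv x‖ ≤ M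
    · have hx' : x ∈ {x : 𝓞 K | ‖pv x‖ ≤ M} := hx
      rw [Set.indicator_of_mem hx']
      have h2 : ‖h (r + x) * (G s (r + x) : ℂ) - h x * (G s x : ℂ)‖ ≤ 2 * C := by
        refine (norm_sub_le _ _).trans ?_
        rw [norm_mul, norm_mul, Complex.norm_real, Complex.norm_real, Real.norm_eq_abs,
          Real.norm_eq_abs, abs_of_nonneg hG3, abs_of_nonneg hG4]
        have h3 : ‖h (r + x)‖ * G s (r + x) ≤ 1 * C :=
          mul_le_mul (hh1 _) hG2 hG4 zero_le_one
        have h4 : ‖h x‖ * G s x ≤ 1 * C := mul_le_mul (hh1 _) hG1 hG3 zero_le_one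
        linarith
      have := abs_nonneg (H x)
      linarith
    · have hx' : x ∉ {x : 𝓞 K | ‖pv x‖ ≤ M} := hx
      rw [Set.indicator_of_notMem hx', add_zero]
      push Not at hx
      have hbase : |G s (r + x) - G s x| ≤ |H x| := (hHb s hs1 hs2 x).trans (le_abs_self _)
      have hx0 : x ≠ 0 := by
        rintro rfl
        have h5 : ‖pv (0 : 𝓞 K)‖ = 0 := by
          rw [norm_eq_zero]; ext w; simp [pv]
        rw [h5] at hx
        have : 0 < M := by positivity
        linarith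
      -- norm of r + x
      have hnorm : ‖pv x‖ - ‖pv r‖ ≤ ‖pv (r + x)‖ := by
        obtain ⟨w, hw⟩ := norm_eq_of_pos (pv x) (pv_pos hx0)
        have h1 := pv_add_sub_le x r w
        rw [abs_le] at h1
        have h2 : pv (r + x) w ≤ ‖pv (r + x)‖ := by
          have := norm_le_pi_norm (pv (r + x)) w
          rwa [Real.norm_eq_abs, abs_of_nonneg (pv_nonneg (r + x) w)] at this
        rw [hw]; linarith
      have hk : 0 ≤ (‖pv r‖ + 1) / κ := by positivity
      have hrx0 : r + x ≠ 0 := by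
        intro h0
        rw [h0] at hnorm
        have h5 : ‖pv (0 : 𝓞 K)‖ = 0 := by
          rw [norm_eq_zero]; ext w; simp [pv]
        rw [h5] at hnorm
        linarith
      by_cases h0 : G s x = 0 ∧ G s (r + x) = 0
      · rw [h0.1, h0.2]; simp
      · have hss : SameSign (r + x) x := by
          by_cases h1 : G s x = 0
          · have h2 : G s (r + x) ≠ 0 := fun h2 ↦ h0 ⟨h1, h2⟩
            rw [G_of_ne hrx0, Fw] at h2
            have h3 := hlow _ (pv_pos hrx0) (left_ne_zero_of_mul h2)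
            refine sameSign_of_lt' fun w ↦ lt_of_lt_of_le ?_ (h3 w)
            have h4 : (‖pv r‖ + 1) / κ ≤ ‖pv (r + x)‖ := by linarith
            rw [div_le_iff₀ hκ] at h4
            linarith
          · rw [G_of_ne hx0, Fw] at h1
            have h3 := hlow _ (pv_pos hx0) (left_ne_zero_of_mul h1)
            refine sameSign_of_lt fun w ↦ lt_of_lt_of_le ?_ (h3 w)
            have h4 : (‖pv r‖ + 1) / κ ≤ ‖pv x‖ := by linarith
            rw [div_le_iff₀ hκ] at h4
            linarith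
        rw [hh x hx0 hrx0 hss, ← mul_sub, norm_mul]
        have h6 : ‖(G s (r + x) : ℂ) - (G s x : ℂ)‖ = |G s (r + x) - G s x| := by
          rw [← Complex.ofReal_sub, Complex.norm_real, Real.norm_eq_abs]
        rw [h6]
        exact (mul_le_of_le_one_left (abs_nonneg _) (hh1 x)).trans hbase

end Fermat.Agent.ExtVan
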