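import Mathlib
import Fermat.Agent.ExtVan.RayBound

/-!
# Boundedness near `s = 1` of the L-series of a nontrivial ray class character, II
-/

set_option linter.all false

namespace Fermat.Agent.ExtVan

open scoped nonZeroDivisors Topology
open Finset NumberField NumberField.Units NumberField.InfinitePlace Module Filter IsDedekindDomain

variable {K : Type*} [Field K] [NumberField K]

/-- twisted weighted sum over an ideal -/
noncomputable def TG (h : 𝓞 K → ℂ) (M : Ideal (𝓞 K)) (s : ℝ) : ℂ :=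
  ∑' x : M, h (x : 𝓞 K) * (G s (x : 𝓞 K) : ℂ)

lemma summable_twisted {h : 𝓞 K → ℂ} (hh1 : ∀ x, ‖h x‖ ≤ 1) {s : ℝ} (hs1 : 1 < s) (hs2 : s ≤ 2) :
    Summable fun x : 𝓞 K ↦ h x * (G s x : ℂ) := by
  refine Summable.of_norm_bounded (summable_G K hs1 hs2) fun x ↦ ?_
  rw [norm_mul, Complex.norm_real, Real.norm_eq_abs, abs_of_nonneg (G_nonneg s x)]
  exact mul_le_of_le_one_left (G_nonneg s x) (hh1 x)

variable (K) in
theorem exists_TG_compare (M N 𝔪 : Ideal (𝓞 K)) (hNM : N ≤ M) (hN : N ≠ ⊥)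
    (hrep : ∀ x ∈ M, ∃ r ∈ M, r ∈ 𝔪 ∧ x - r ∈ N)
    (h : 𝓞 K → ℂ) (hh1 : ∀ x, ‖h x‖ ≤ 1)
    (hh : ∀ r ∈ 𝔪, ∀ x, x ≠ 0 → r + x ≠ 0 → SameSign (r + x) x → h (r + x) = h x) :
    ∃ C : ℝ, ∀ s : ℝ, 1 < s → s ≤ 2 →
      ‖(Ideal.absNorm M : ℂ) * TG h M s - Ideal.absNorm N * TG h N s‖ ≤ C := by
  classical
  haveI : Finite (𝓞 K ⧸ N) := Ideal.finiteQuotientOfFreeOfNeBot N hN
  set M' : AddSubgroup (𝓞 K) := M.toAddSubgroup with hM'
  set N' : AddSubgroup (𝓞 K) := N.toAddSubgroup with hN'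
  have hNM' : N' ≤ M' := hNM
  let Q := M' ⧸ N'.addSubgroupOf M'
  have hNidx : N'.index = Ideal.absNorm N := by
    rw [Ideal.absNorm_apply]; rfl
  have hMidx : M'.index = Ideal.absNorm M := by
    rw [Ideal.absNorm_apply]; rfl
  have hNfin : N'.index ≠ 0 := by
    rw [hNidx, Ne, Ideal.absNorm_eq_zero_iff]; exact hN
  have hrel : N'.relIndex M' * M'.index = N'.index := AddSubgroup.relIndex_mul_index hNM'
  have hrel0 : N'.relIndex M' ≠ 0 := by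
    intro h0; rw [h0, zero_mul] at hrel; exact hNfin hrel.symm
  haveI hQfin : Finite Q := by
    have h1 : Nat.card Q ≠ 0 := hrel0
    exact Nat.finite_of_card_ne_zero h1
  letI : Fintype Q := Fintype.ofFinite Q
  have hQcard : (Fintype.card Q : ℕ) = N'.relIndex M' := by
    rw [← Nat.card_eq_fintype_card]; rfl
  -- representatives
  have hrep' : ∀ q : Q, ∃ r : M', (r : 𝓞 K) ∈ 𝔪 ∧ (QuotientAddGroup.mk r : Q) = q := by
    intro q
    obtain ⟨x, rfl⟩ := QuotientAddGroup.mk_surjective q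
    obtain ⟨r, hrM, hr𝔪, hxr⟩ := hrep x x.2
    refine ⟨⟨r, hrM⟩, hr𝔪, ?_⟩
    rw [QuotientAddGroup.eq, AddSubgroup.mem_addSubgroupOf]
    have h1 : ((-(⟨r, hrM⟩ : M') + x : M') : 𝓞 K) = (x : 𝓞 K) - r := by
      push_cast; ring
    rw [h1]; exact hxr
  choose R hR𝔪 hRq using hrep'
  let e : Q × N ≃ M :=
    { toFun := fun p ↦ ⟨(R p.1 : 𝓞 K) + (p.2 : 𝓞 K), M.add_mem (R p.1).2 (hNM p.2.2)⟩
      invFun := fun x ↦ ((QuotientAddGroup.mk (⟨x.1, x.2⟩ : M') : Q),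
        ⟨(x : 𝓞 K) - R (QuotientAddGroup.mk (⟨x.1, x.2⟩ : M') : Q), by
          have h1 := hRq (QuotientAddGroup.mk (⟨x.1, x.2⟩ : M') : Q)
          rw [QuotientAddGroup.eq, AddSubgroup.mem_addSubgroupOf] at h1
          have h2 : ((-(R (QuotientAddGroup.mk (⟨x.1, x.2⟩ : M') : Q)) + (⟨x.1, x.2⟩ : M') : M') :
            𝓞 K) = (x : 𝓞 K) - R (QuotientAddGroup.mk (⟨x.1, x.2⟩ : M') : Q) := by
            push_cast; ring
          rw [h2] at h1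
          exact h1⟩)
      left_inv := by
        rintro ⟨q, n, hn⟩
        have h1 : (QuotientAddGroup.mk (⟨(R q : 𝓞 K) + n, M.add_mem (R q).2 (hNM hn)⟩ : M') : Q)
            = q := by
          conv_rhs => rw [← hRq q]
          rw [eq_comm, QuotientAddGroup.eq, AddSubgroup.mem_addSubgroupOf]
          have h2 : ((-(R q) + (⟨(R q : 𝓞 K) + n, M.add_mem (R q).2 (hNM hn)⟩ : M') : M') : 𝓞 K)
            = n := by push_cast; ring
          rw [h2]; exact hn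
        ext1
        · exact h1
        · apply Subtype.ext
          simp only [h1]
          ring
      right_inv := by
        intro x
        apply Subtype.ext
        simp }
  choose H hHs hH using fun q : Q ↦ exists_twisted_diff_bound K (R q : 𝓞 K) h hh1
    (fun x hx hrx hss ↦ hh _ (hR𝔪 q) x hx hrx hss)
  refine ⟨Ideal.absNorm M * ∑ q : Q, ∑' x : N, H q (x : 𝓞 K), fun s hs1 hs2 ↦ ?_⟩
  have hsG := summable_twisted hh1 hs1 hs2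
  have hsM : Summable fun x : M ↦ h (x : 𝓞 K) * (G s (x : 𝓞 K) : ℂ) :=
    hsG.comp_injective (i := fun x : M ↦ (x : 𝓞 K)) Subtype.val_injective
  have hsN : Summable fun x : N ↦ h (x : 𝓞 K) * (G s (x : 𝓞 K) : ℂ) :=
    hsG.comp_injective (i := fun x : N ↦ (x : 𝓞 K)) Subtype.val_injective
  have hsGe : Summable fun p : Q × N ↦
      h ((e p : M) : 𝓞 K) * (G s ((e p : M) : 𝓞 K) : ℂ) := e.summable_iff.mpr hsM
  have h1 : TG h M s = ∑ q : Q, ∑' x : N,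
      h ((R q : 𝓞 K) + (x : 𝓞 K)) * (G s ((R q : 𝓞 K) + (x : 𝓞 K)) : ℂ) := by
    rw [TG, ← e.tsum_eq, hsGe.tsum_prod, tsum_fintype]
    rfl
  have h2 : (Ideal.absNorm N : ℂ) * TG h N s = (Ideal.absNorm M : ℂ) *
      ∑ q : Q, ∑' x : N, h (x : 𝓞 K) * (G s (x : 𝓞 K) : ℂ) := by
    rw [sum_const, card_univ, nsmul_eq_mul, hQcard, TG, ← hNidx, ← hMidx, ← hrel]
    push_cast
    ring
  rw [h1, h2, ← mul_sub, ← sum_sub_distrib, norm_mul]
  have h3 : ‖(Ideal.absNorm M : ℂ)‖ = Ideal.absNorm M := by simp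
  rw [h3]
  refine mul_le_mul_of_nonneg_left ?_ (Nat.cast_nonneg _)
  refine (norm_sum_le _ _).trans (sum_le_sum fun q _ ↦ ?_)
  have hsq : Summable fun x : N ↦
      h ((R q : 𝓞 K) + (x : 𝓞 K)) * (G s ((R q : 𝓞 K) + (x : 𝓞 K)) : ℂ) :=
    hsG.comp_injective (i := fun x : N ↦ (R q : 𝓞 K) + (x : 𝓞 K))
      (fun x y hxy ↦ Subtype.ext (add_left_cancel hxy))
  rw [← hsq.tsum_sub hsN]
  have hHb : Summable fun x : N ↦ H q (x : 𝓞 K) :=
    (hHs q).comp_injective (i := fun x : N ↦ (x : 𝓞 K)) Subtype.val_injective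
  have hab : Summable fun x : N ↦
      ‖h ((R q : 𝓞 K) + (x : 𝓞 K)) * (G s ((R q : 𝓞 K) + (x : 𝓞 K)) : ℂ) -
        h (x : 𝓞 K) * (G s (x : 𝓞 K) : ℂ)‖ :=
    Summable.of_nonneg_of_le (fun _ ↦ norm_nonneg _) (fun x ↦ hH q s hs1.le hs2 _) hHb
  exact (norm_tsum_le_tsum_norm hab).trans (hab.tsum_le_tsum (fun x ↦ hH q s hs1.le hs2 _) hHb)

/-- partial sum over a class -/
noncomputable def Tc (χ : Ideal (𝓞 K) →*₀ ℂ) (c : ClassGroup (𝓞 K)) (s : ℝ) : ℂ :=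
  ∑' I : {I : (Ideal (𝓞 K))⁰ // ClassGroup.mk0 I = c},
    χ (I.1 : Ideal (𝓞 K)) * (((Ideal.absNorm (I.1 : Ideal (𝓞 K)) : ℝ) ^ (-s) : ℝ) : ℂ)

/-- total sum -/
noncomputable def Tt (χ : Ideal (𝓞 K) →*₀ ℂ) (s : ℝ) : ℂ :=
  ∑' I : (Ideal (𝓞 K))⁰,
    χ (I : Ideal (𝓞 K)) * (((Ideal.absNorm (I : Ideal (𝓞 K)) : ℝ) ^ (-s) : ℝ) : ℂ)

/-- the function on elements induced by a function on ideals -/
noncomputable def hχ (χ : Ideal (𝓞 K) →*₀ ℂ) (x : 𝓞 K) : ℂ := χ (Ideal.span {x})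

lemma TG_eq_class {χ : Ideal (𝓞 K) →*₀ ℂ} (hχ1 : ∀ I, ‖χ I‖ ≤ 1) (b : (Ideal (𝓞 K))⁰) {s : ℝ}
    (hs1 : 1 < s) (hs2 : s ≤ 2) :
    TG (hχ χ) (b : Ideal (𝓞 K)) s = (torsionOrder K : ℂ) * χ (b : Ideal (𝓞 K)) *
      (((Ideal.absNorm (b : Ideal (𝓞 K)) : ℝ) ^ (-s) : ℝ) : ℂ) * Tc χ (ClassGroup.mk0 b)⁻¹ s := by
  have hh1 : ∀ x, ‖hχ χ x‖ ≤ 1 := fun x ↦ hχ1 _
  have hG : Summable fun x : (b : Ideal (𝓞 K)) ↦ hχ χ (x : 𝓞 K) * (G s (x : 𝓞 K) : ℂ) :=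
    (summable_twisted hh1 hs1 hs2).comp_injective (i := fun x : (b : Ideal (𝓞 K)) ↦ (x : 𝓞 K))
      Subtype.val_injective
  have h1 : HasSum (fun x : {x : (b : Ideal (𝓞 K)) // x ≠ 0} ↦
      hχ χ ((x : (b : Ideal (𝓞 K))) : 𝓞 K) * (G s ((x : (b : Ideal (𝓞 K))) : 𝓞 K) : ℂ))
      (TG (hχ χ) (b : Ideal (𝓞 K)) s) := by
    have h2 : Function.support (fun x : (b : Ideal (𝓞 K)) ↦
        hχ χ (x : 𝓞 K) * (G s (x : 𝓞 K) : ℂ)) ⊆ {x : (b : Ideal (𝓞 K)) | x ≠ 0} := by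
      intro x hx hx0
      apply hx
      have : (x : 𝓞 K) = 0 := congrArg Subtype.val hx0
      simp only [this, G_zero, Complex.ofReal_zero, mul_zero]
    exact (hasSum_subtype_iff_of_support_subset h2).mpr hG.hasSum
  rw [← (Equiv.ofBijective _ (gensMap_bijective b)).hasSum_iff] at h1
  have h3 : ∀ I : InvClass b, HasSum (fun y : Gens b I ↦ hχ χ y.1 * (G s y.1 : ℂ))
      (χ (prodI b I) * ((torsionOrder K * (Ideal.absNorm (prodI b I) : ℝ) ^ (-s) : ℝ) : ℂ)) := by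
    intro I
    have h4 := Complex.hasSum_ofReal.mpr
      (fiber_hasSum' (prodI_ne_bot b I) (prodI_isPrincipal b I) s)
    have h5 := h4.mul_left (χ (prodI b I))
    have h6 : (fun y : Gens b I ↦ hχ χ y.1 * (G s y.1 : ℂ)) =
        fun y : Gens b I ↦ χ (prodI b I) * (G s y.1 : ℂ) := by
      funext y
      rw [hχ, y.2]
    rw [h6]
    exact h5
  have h7 := h1.sigma h3
  have h8 := h7.tsum_eq
  rw [← h8, Tc, ← tsum_mul_left]
  refine tsum_congr fun I ↦ ?_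
  rw [prodI, map_mul, map_mul, Nat.cast_mul, Real.mul_rpow (Nat.cast_nonneg _) (Nat.cast_nonneg _)]
  push_cast
  ring

lemma Tt_summable {χ : Ideal (𝓞 K) →*₀ ℂ} (hχ1 : ∀ I, ‖χ I‖ ≤ 1) {s : ℝ}
    (hs1 : 1 < s) (hs2 : s ≤ 2) : Summable fun I : (Ideal (𝓞 K))⁰ ↦
    χ (I : Ideal (𝓞 K)) * (((Ideal.absNorm (I : Ideal (𝓞 K)) : ℝ) ^ (-s) : ℝ) : ℂ) := by
  refine Summable.of_norm_bounded (Zi_summable hs1 hs2) fun I ↦ ?_
  rw [norm_mul, Complex.norm_real, Real.norm_eq_abs, abs_of_nonneg (by positivity)]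
  exact mul_le_of_le_one_left (by positivity) (hχ1 _)

lemma Tt_eq_sum {χ : Ideal (𝓞 K) →*₀ ℂ} (hχ1 : ∀ I, ‖χ I‖ ≤ 1) {s : ℝ}
    (hs1 : 1 < s) (hs2 : s ≤ 2) : Tt χ s = ∑ c, Tc χ c s := by
  have h2 := (Tt_summable hχ1 hs1 hs2).hasSum
  rw [← (Equiv.sigmaFiberEquiv (fun I : (Ideal (𝓞 K))⁰ ↦ ClassGroup.mk0 I)).hasSum_iff] at h2
  have h3 := h2.summable
  have h4 : Tt χ s = ∑' c, Tc χ c s := by
    rw [Tt, ← h2.tsum_eq, h3.tsum_sigma]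
    rfl
  rw [h4, tsum_fintype]

end Fermat.Agent.ExtVan
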