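import Mathlib
import Fermat.Agent.ExtVan.RayBound2

/-!
# Boundedness near `s = 1` of the L-series of a nontrivial ray class character, III
-/

set_option linter.all false

namespace Fermat.Agent.ExtVan

open scoped nonZeroDivisors Topology
open Finset NumberField NumberField.Units NumberField.InfinitePlace Module Filter IsDedekindDomain

variable {K : Type*} [Field K] [NumberField K]

lemma Tc_eq_zero_of_forall {χ : Ideal (𝓞 K) →*₀ ℂ} {c : ClassGroup (𝓞 K)} (s : ℝ)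
    (h : ∀ I : (Ideal (𝓞 K))⁰, ClassGroup.mk0 I = c → χ (I : Ideal (𝓞 K)) = 0) :
    Tc χ c s = 0 := by
  rw [Tc]
  have : (fun I : {I : (Ideal (𝓞 K))⁰ // ClassGroup.mk0 I = c} ↦
    χ (I.1 : Ideal (𝓞 K)) * (((Ideal.absNorm (I.1 : Ideal (𝓞 K)) : ℝ) ^ (-s) : ℝ) : ℂ)) =
      fun _ ↦ 0 := by
    funext I
    rw [h I.1 I.2, zero_mul]
  rw [this, tsum_zero]

lemma forall_zero_of_inv {χ : Ideal (𝓞 K) →*₀ ℂ} {c : ClassGroup (𝓞 K)}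
    (h : ∀ b : (Ideal (𝓞 K))⁰, ClassGroup.mk0 b = c⁻¹ → χ (b : Ideal (𝓞 K)) = 0) :
    ∀ I : (Ideal (𝓞 K))⁰, ClassGroup.mk0 I = c → χ (I : Ideal (𝓞 K)) = 0 := by
  intro I hI
  have hcard : 0 < Fintype.card (ClassGroup (𝓞 K)) := Fintype.card_pos
  have h1 : ClassGroup.mk0 (I ^ (Fintype.card (ClassGroup (𝓞 K)) - 1)) = c⁻¹ := by
    rw [map_pow, hI, eq_inv_iff_mul_eq_one, ← pow_succ, Nat.sub_add_cancel hcard, pow_card_eq_one]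
  have h2 := h _ h1
  rw [SubmonoidClass.coe_pow, map_pow] at h2
  exact eq_zero_of_pow_eq_zero h2

/-- **Key comparison for each class.** -/
lemma exists_Tc_compare (χ : Ideal (𝓞 K) →*₀ ℂ) (hχ1 : ∀ I, ‖χ I‖ ≤ 1) (𝔪 : Ideal (𝓞 K))
    (hray : ∀ r ∈ 𝔪, ∀ x : 𝓞 K, x ≠ 0 → r + x ≠ 0 → SameSign (r + x) x →
      χ (Ideal.span {r + x}) = χ (Ideal.span {x}))
    (J : (Ideal (𝓞 K))⁰) (hJ : IsCoprime (J : Ideal (𝓞 K)) 𝔪) (c : ClassGroup (𝓞 K)) :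
    ∃ C : ℝ, ∀ s : ℝ, 1 < s → s ≤ 2 →
      ‖Tc χ c s - χ (J : Ideal (𝓞 K)) *
        (((Ideal.absNorm (J : Ideal (𝓞 K)) : ℝ) ^ (1 - s) : ℝ) : ℂ) *
          Tc χ (c * (ClassGroup.mk0 J)⁻¹) s‖ ≤ C := by
  by_cases hex : ∃ b : (Ideal (𝓞 K))⁰, ClassGroup.mk0 b = c⁻¹ ∧ χ (b : Ideal (𝓞 K)) ≠ 0
  · obtain ⟨b, hbc, hχb⟩ := hex
    have hc : c = (ClassGroup.mk0 b)⁻¹ := by rw [hbc, inv_inv]
    have hJb : (J : Ideal (𝓞 K)) * b = ((J * b : (Ideal (𝓞 K))⁰) : Ideal (𝓞 K)) :=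
      (Submonoid.coe_mul _ _ _).symm
    have hle : (J : Ideal (𝓞 K)) * b ≤ (b : Ideal (𝓞 K)) :=
      (Ideal.mul_le_inf (I := (J : Ideal (𝓞 K))) (J := (b : Ideal (𝓞 K)))).trans inf_le_right
    obtain ⟨C, hC⟩ := exists_TG_compare K (b : Ideal (𝓞 K)) ((J : Ideal (𝓞 K)) * b) 𝔪
      hle
      (by rw [hJb]; exact nonZeroDivisors.coe_ne_zero _)
      (by
        intro x hx
        obtain ⟨j, hj, m, hm, hjm⟩ := Submodule.mem_sup.mp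
          ((Ideal.isCoprime_iff_sup_eq.mp hJ).symm ▸ Submodule.mem_top : (1 : 𝓞 K) ∈
            (J : Ideal (𝓞 K)) ⊔ 𝔪)
        refine ⟨m * x, Ideal.mul_mem_left _ _ hx, Ideal.mul_mem_right _ _ hm, ?_⟩
        have : x - m * x = j * x := by
          have : x = (j + m) * x := by rw [hjm, one_mul]
          linear_combination this
        rw [this]
        exact Ideal.mul_mem_mul hj hx)
      (hχ χ) (fun x ↦ hχ1 _) (fun r hr x hx hrx hss ↦ hray r hr x hx hrx hss)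
    set w : ℝ := (torsionOrder K : ℝ) with hw
    set Nb : ℝ := (Ideal.absNorm (b : Ideal (𝓞 K)) : ℝ) with hNb
    set NJ : ℝ := (Ideal.absNorm (J : Ideal (𝓞 K)) : ℝ) with hNJ
    have hw0 : (0 : ℝ) < w := Nat.cast_pos.mpr (torsionOrder_pos K)
    have hNb0 : 0 < Nb := absNorm_pos_nzd b
    have hNJ0 : 0 < NJ := absNorm_pos_nzd J
    have hNb1 : 1 ≤ Nb := by
      rw [hNb]; exact_mod_cast Nat.one_le_iff_ne_zero.mpr (Ideal.absNorm_pos_of_nonZeroDivisors b).ne'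
    have hχb0 : 0 < ‖χ (b : Ideal (𝓞 K))‖ := norm_pos_iff.mpr hχb
    refine ⟨C * Nb / (w * ‖χ (b : Ideal (𝓞 K))‖), fun s hs1 hs2 ↦ ?_⟩
    have h1 := hC s hs1 hs2
    rw [hJb, TG_eq_class hχ1 b hs1 hs2, TG_eq_class hχ1 (J * b) hs1 hs2] at h1
    have hcl : (ClassGroup.mk0 (J * b))⁻¹ = c * (ClassGroup.mk0 J)⁻¹ := by
      rw [map_mul, mul_inv, hc, mul_comm]
    rw [hcl, ← hc, Submonoid.coe_mul, map_mul, map_mul] at h1
    set X := Tc χ c s - χ (J : Ideal (𝓞 K)) * ((NJ ^ (1 - s) : ℝ) : ℂ) *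
      Tc χ (c * (ClassGroup.mk0 J)⁻¹) s with hX
    have h2 : (Ideal.absNorm (b : Ideal (𝓞 K)) : ℂ) *
        ((torsionOrder K : ℂ) * χ (b : Ideal (𝓞 K)) * ((Nb ^ (-s) : ℝ) : ℂ) * Tc χ c s) -
        ((Ideal.absNorm (J : Ideal (𝓞 K)) * Ideal.absNorm (b : Ideal (𝓞 K)) : ℕ) : ℂ) *
        ((torsionOrder K : ℂ) * (χ (J : Ideal (𝓞 K)) * χ (b : Ideal (𝓞 K))) *
          ((((Ideal.absNorm (J : Ideal (𝓞 K)) * Ideal.absNorm (b : Ideal (𝓞 K)) : ℕ) : ℝ) ^ (-s) :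
            ℝ) : ℂ) * Tc χ (c * (ClassGroup.mk0 J)⁻¹) s) =
        ((w * Nb ^ (1 - s) : ℝ) : ℂ) * χ (b : Ideal (𝓞 K)) * X := by
      have e1 : Nb ^ (1 - s) = Nb * Nb ^ (-s) := by
        rw [sub_eq_add_neg, Real.rpow_add hNb0, Real.rpow_one]
      have e2 : NJ ^ (1 - s) = NJ * NJ ^ (-s) := by
        rw [sub_eq_add_neg, Real.rpow_add hNJ0, Real.rpow_one]
      have e3 : (((Ideal.absNorm (J : Ideal (𝓞 K)) * Ideal.absNorm (b : Ideal (𝓞 K)) : ℕ) : ℝ))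
          ^ (-s) = NJ ^ (-s) * Nb ^ (-s) := by
        rw [Nat.cast_mul, Real.mul_rpow (Nat.cast_nonneg _) (Nat.cast_nonneg _)]
      have e4 : (Ideal.absNorm (b : Ideal (𝓞 K)) : ℂ) = (Nb : ℂ) := by rw [hNb]; simp
      have e5 : (Ideal.absNorm (J : Ideal (𝓞 K)) : ℂ) = (NJ : ℂ) := by rw [hNJ]; simp
      have e6 : (torsionOrder K : ℂ) = (w : ℂ) := by rw [hw]; simp
      rw [hX, e3, e1, e2, Nat.cast_mul, e4, e5, e6]
      push_cast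
      ring
    rw [h2, norm_mul, norm_mul, Complex.norm_real, Real.norm_eq_abs,
      abs_of_nonneg (by positivity)] at h1
    have h3 : Nb⁻¹ ≤ Nb ^ (1 - s) := by
      rw [← Real.rpow_neg_one]
      exact Real.rpow_le_rpow_of_exponent_le hNb1 (by linarith)
    have hX0 : 0 ≤ ‖X‖ := norm_nonneg _
    rw [le_div_iff₀ (by positivity)]
    have h4 : w * Nb⁻¹ * ‖χ (b : Ideal (𝓞 K))‖ * ‖X‖ ≤ C := by
      refine le_trans ?_ h1
      gcongr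
    have h5 : w * Nb⁻¹ * ‖χ (b : Ideal (𝓞 K))‖ * ‖X‖ * Nb = ‖X‖ * (w * ‖χ (b : Ideal (𝓞 K))‖) := by
      field_simp
    rw [← h5]
    exact mul_le_mul_of_nonneg_right h4 hNb0.le
  · push Not at hex
    refine ⟨0, fun s hs1 hs2 ↦ ?_⟩
    have hz := forall_zero_of_inv hex
    rw [Tc_eq_zero_of_forall s hz]
    by_cases hχJ : χ (J : Ideal (𝓞 K)) = 0
    · rw [hχJ]; simp
    · have h1 : Tc χ (c * (ClassGroup.mk0 J)⁻¹) s = 0 := by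
        refine Tc_eq_zero_of_forall s fun I hI ↦ ?_
        have h2 : ClassGroup.mk0 (I * J) = c := by
          rw [map_mul, hI]; group
        have h3 := hz _ h2
        rw [Submonoid.coe_mul, map_mul] at h3
        exact (mul_eq_zero.mp h3).resolve_right hχJ
      rw [h1]; simp

/-- **Boundedness of ray class L-series near `s = 1`.**  Let `χ` be a multiplicative function on
ideals, bounded by `1`, whose value at a principal ideal `(x)` depends only on `x` modulo `𝔪` and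
the signs of `x` at the real embeddings.  If `χ J ≠ 1` for some `J` prime to `𝔪`,
then `∑ χ(I) N(I)^{-s}` stays bounded as `s → 1+`. -/
theorem ray_series_bound (χ : Ideal (𝓞 K) →*₀ ℂ) (hχ1 : ∀ I, ‖χ I‖ ≤ 1) (𝔪 : Ideal (𝓞 K))
    (hray : ∀ r ∈ 𝔪, ∀ x : 𝓞 K, x ≠ 0 → r + x ≠ 0 → SameSign (r + x) x →
      χ (Ideal.span {r + x}) = χ (Ideal.span {x}))
    (J : (Ideal (𝓞 K))⁰) (hJ : IsCoprime (J : Ideal (𝓞 K)) 𝔪) (hχJ : χ (J : Ideal (𝓞 K)) ≠ 1) :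
    ∃ C : ℝ, ∀ᶠ s : ℝ in 𝓝[>] 1, ‖Tt χ s‖ ≤ C := by
  choose C hC using exists_Tc_compare χ hχ1 𝔪 hray J hJ
  set δ : ℝ := ‖1 - χ (J : Ideal (𝓞 K))‖ with hδ
  have hδ0 : 0 < δ := by
    rw [hδ, norm_pos_iff, sub_ne_zero]; exact hχJ.symm
  set NJ : ℝ := (Ideal.absNorm (J : Ideal (𝓞 K)) : ℝ) with hNJ
  have hNJ0 : 0 < NJ := absNorm_pos_nzd J
  have hlim : Tendsto (fun s : ℝ ↦ ‖1 - χ (J : Ideal (𝓞 K)) * ((NJ ^ (1 - s) : ℝ) : ℂ)‖)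
      (𝓝[>] 1) (𝓝 δ) := by
    have h1 : Tendsto (fun s : ℝ ↦ NJ ^ (1 - s)) (𝓝 1) (𝓝 (NJ ^ ((1:ℝ) - 1))) := by
      have hc : Continuous fun s : ℝ ↦ NJ ^ (1 - s) :=
        Continuous.rpow continuous_const (continuous_const.sub continuous_id)
          (fun _ ↦ Or.inl hNJ0.ne')
      exact hc.tendsto 1
    rw [sub_self, Real.rpow_zero] at h1
    have h2 : Tendsto (fun s : ℝ ↦ ((NJ ^ (1 - s) : ℝ) : ℂ)) (𝓝[>] 1) (𝓝 ((1 : ℝ) : ℂ)) :=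
      ((Complex.continuous_ofReal.tendsto 1).comp h1).mono_left nhdsWithin_le_nhds
    have h3 := ((h2.const_mul (χ (J : Ideal (𝓞 K)))).const_sub (1 : ℂ)).norm
    rw [Complex.ofReal_one, mul_one] at h3
    exact h3
  refine ⟨(∑ c, C c) / (δ / 2), ?_⟩
  filter_upwards [hlim.eventually (lt_mem_nhds (half_lt_self hδ0)), eventually_Ioc] with s hs hs12
  obtain ⟨hs1, hs2⟩ := hs12
  have hid : (1 - χ (J : Ideal (𝓞 K)) * ((NJ ^ (1 - s) : ℝ) : ℂ)) * Tt χ s =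
      ∑ c, (Tc χ c s - χ (J : Ideal (𝓞 K)) * ((NJ ^ (1 - s) : ℝ) : ℂ) *
        Tc χ (c * (ClassGroup.mk0 J)⁻¹) s) := by
    rw [sum_sub_distrib, ← mul_sum, Tt_eq_sum hχ1 hs1 hs2]
    have h4 : ∑ c, Tc χ (c * (ClassGroup.mk0 J)⁻¹) s = ∑ c, Tc χ c s :=
      Equiv.sum_comp (Equiv.mulRight (ClassGroup.mk0 J)⁻¹) (fun c ↦ Tc χ c s)
    rw [h4]; ring
  have h5 : ‖(1 - χ (J : Ideal (𝓞 K)) * ((NJ ^ (1 - s) : ℝ) : ℂ)) * Tt χ s‖ ≤ ∑ c, C c := by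
    rw [hid]
    exact (norm_sum_le _ _).trans (sum_le_sum fun c _ ↦ hC c s hs1 hs2)
  rw [norm_mul] at h5
  rw [le_div_iff₀ (by positivity)]
  have h6 : (δ / 2) * ‖Tt χ s‖ ≤ ‖1 - χ (J : Ideal (𝓞 K)) * ((NJ ^ (1 - s) : ℝ) : ℂ)‖ * ‖Tt χ s‖ :=
    mul_le_mul_of_nonneg_right hs.le (norm_nonneg _)
  linarith

end Fermat.Agent.ExtVan
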