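import Fermat.Agent.ExtVan.Split2

set_option autoImplicit false
set_option linter.all false

open NumberField Polynomial IsDedekindDomain WithZero
open scoped Pointwise

namespace Fermat.Agent.ExtVan

variable {K : Type} [Field K] [NumberField K]

theorem finite_above (n : ℕ) (hn : n ≠ 0) :
    {v : HeightOneSpectrum (𝓞 K) | (n : 𝓞 K) ∈ v.asIdeal}.Finite := by
  have h1 : (Ideal.span {(n : 𝓞 K)}) ≠ 0 := by simpa using hn
  have := Ideal.finite_factors h1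
  refine this.subset ?_
  intro v hv
  simp only [Set.mem_setOf_eq] at hv ⊢
  rw [Ideal.dvd_span_singleton]
  exact hv

theorem dvd_norm_sub_one (p ℓ : ℕ) [Fact p.Prime] [Fact ℓ.Prime] {z : 𝓞 K}
    (hz : IsPrimitiveRoot z p)
    (v : HeightOneSpectrum (𝓞 K)) (hv : Ideal.absNorm v.asIdeal = ℓ) (hpv : (p : 𝓞 K) ∉ v.asIdeal) :
    p ∣ ℓ - 1 := by
  have hpP : p.Prime := Fact.out
  haveI := v.isMaximal
  letI : Field (𝓞 K ⧸ v.asIdeal) := Ideal.Quotient.field _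
  haveI : Finite (𝓞 K ⧸ v.asIdeal) := Ideal.finiteQuotientOfFreeOfNeBot _ v.ne_bot
  letI := Fintype.ofFinite (𝓞 K ⧸ v.asIdeal)
  have hcard : Fintype.card (𝓞 K ⧸ v.asIdeal) = ℓ := by
    rw [← hv, Ideal.absNorm_apply, Submodule.cardQuot_apply, Nat.card_eq_fintype_card]
  by_contra hnd
  have h1 : z ^ (ℓ - 1) ≠ 1 := fun h => hnd (hz.dvd_of_pow_eq_one _ h)
  apply hpv
  apply prime_mem_of_root hpP (μ := z ^ (ℓ - 1)) _ h1
  · rw [← Ideal.Quotient.eq_zero_iff_mem, map_sub, map_one, map_pow, sub_eq_zero, ← hcard]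
    apply FiniteField.pow_card_sub_one_eq_one
    intro h0
    rw [Ideal.Quotient.eq_zero_iff_mem] at h0
    have : (1 : 𝓞 K) ∈ v.asIdeal := by
      rw [← hz.pow_eq_one]
      exact v.asIdeal.pow_mem_of_mem h0 _ hpP.pos
    exact v.isPrime.ne_top ((Ideal.eq_top_iff_one _).mpr this)
  · rw [← pow_mul, mul_comm, pow_mul, hz.pow_eq_one, one_pow]

theorem class_char_eq_one (p : ℕ) [Fact p.Prime] [IsCyclotomicExtension {p} ℚ K]
    (hp : 3 ≤ p) {z : 𝓞 K} (hz : IsPrimitiveRoot z p)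
    (c : Gal(K/ℚ) → ℕ) (hE : ∀ b : K, b ^ p ≠ (E2 c z : K))
    (φ : ClassGroup (𝓞 K) →* ℂ) (hφp : ∀ a, φ a ^ p = 1)
    (hφc : ∀ (σ : Gal(K/ℚ)) (I : Ideal (𝓞 K)), I ≠ 0 → clsVal K φ (σ • I) = clsVal K φ I ^ (c σ)) :
    φ = 1 := by
  classical
  have hpP : p.Prime := Fact.out
  haveI : NeZero p := ⟨hpP.ne_zero⟩
  haveI : IsGalois ℚ K := IsCyclotomicExtension.isGalois {p} ℚ K
  by_contra hφ1
  have hsum : ∑ a, φ a = 0 := by
    obtain ⟨b, hb⟩ : ∃ b, φ b ≠ 1 := by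
      by_contra h
      push Not at h
      exact hφ1 (MonoidHom.ext h)
    have h1 : φ b * ∑ a, φ a = ∑ a, φ a := by
      rw [Finset.mul_sum]
      rw [← Equiv.sum_comp (Equiv.mulLeft b) (fun a => φ a)]
      apply Finset.sum_congr rfl
      intro a _
      simp
    have h2 : (φ b - 1) * ∑ a, φ a = 0 := by rw [sub_mul, h1, one_mul, sub_self]
    exact (mul_eq_zero.mp h2).resolve_left (sub_ne_zero.mpr hb)
  have hnorm : ∀ a, ‖φ a‖ = 1 := fun a => Complex.norm_eq_one_of_pow_eq_one (hφp a) hpP.ne_zero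
  set P : (K)[X] := X ^ p - C (E2 c z : K) with hPdef
  haveI hfd : FiniteDimensional K P.SplittingField := inferInstance
  haveI : NumberField P.SplittingField := NumberField.of_module_finite K P.SplittingField
  refine class_char_trivial (K' := P.SplittingField) p hp φ hnorm hsum
    (finite_above (K := K) p hpP.ne_zero).toFinset ?_
  intro v hvB hvprime hφv
  have hpv : (p : 𝓞 K) ∉ v.asIdeal := by
    simpa using hvB
  obtain ⟨ℓ, hℓ⟩ : ∃ ℓ, Ideal.absNorm v.asIdeal = ℓ := ⟨_, rfl⟩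
  haveI : Fact ℓ.Prime := ⟨hℓ ▸ hvprime⟩
  have hℓv : (ℓ : 𝓞 K) ∈ v.asIdeal := by rw [← hℓ]; exact Ideal.absNorm_mem v.asIdeal
  have hdvd := dvd_norm_sub_one p ℓ hz v hℓ hpv
  obtain ⟨t, ht⟩ := E2_congr p ℓ hp hdvd hz c φ hφp hφc v hℓv hφv
  have hev : E2 c z ∉ v.asIdeal := by
    intro h
    have h1 := v.asIdeal.sub_mem (v.asIdeal.mul_mem_right ((t : 𝓞 K) ^ p) h) ht
    rw [sub_sub_cancel] at h1
    exact v.isPrime.ne_top ((Ideal.eq_top_iff_one _).mpr h1)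
  exact split_primes (L := P.SplittingField) p hz (E2 c z) hE v hpv hev (t : 𝓞 K) ht

end Fermat.Agent.ExtVan
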