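import Fermat.Agent.ExtVan.ClassChar

set_option autoImplicit false
set_option linter.all false

open NumberField Polynomial IsDedekindDomain WithZero
open scoped Pointwise nonZeroDivisors

namespace Fermat.Agent.ExtVan

theorem char_exists {A : Type*} [CommGroup A] [Finite A] (S : A →* A) (p : ℕ) [Fact p.Prime]
    (a : A) (hSa : S a = 1) (hap : a ^ p = 1) (ha : a ≠ 1) :
    ∃ φ : A →* ℂ, φ ≠ 1 ∧ (∀ x, φ x ^ p = 1) ∧ ∀ x, φ (S x) = 1 := by
  have hpP : p.Prime := Fact.out
  -- the cokernel has order divisible by p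
  have h1 : p ∣ Nat.card S.ker := by
    have : orderOf (⟨a, hSa⟩ : S.ker) = p := by
      apply orderOf_eq_prime
      · exact Subtype.ext hap
      · intro h
        exact ha (congrArg Subtype.val h)
    rw [← this]
    exact orderOf_dvd_natCard _
  have h2 : S.range.index = Nat.card S.ker := by
    have e1 := Subgroup.card_mul_index S.ker
    have e2 := Subgroup.card_mul_index S.range
    rw [Subgroup.index_ker] at e1
    have hpos : 0 < Nat.card S.range := Nat.card_pos
    apply Nat.eq_of_mul_eq_mul_left hpos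
    rw [e2, ← e1, mul_comm]
  have h3 : p ∣ Nat.card (A ⧸ S.range) := by
    rw [← Subgroup.index_eq_card, h2]; exact h1
  set B := A ⧸ S.range
  obtain ⟨b, hb⟩ := exists_prime_orderOf_dvd_card' (G := B) p h3
  have h4 : ¬ Function.Surjective (powMonoidHom p : B →* B) := by
    intro hs
    have hi := (Finite.injective_iff_surjective (f := (powMonoidHom p : B →* B))).mpr hs
    have : b = 1 := by
      apply hi
      simp only [powMonoidHom_apply, one_pow]
      rw [← hb]; exact pow_orderOf_eq_one b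
    rw [this, orderOf_one] at hb
    exact hpP.one_lt.ne hb
  have h5 : (powMonoidHom p : B →* B).range ≠ ⊤ := by
    intro h; exact h4 (MonoidHom.range_eq_top.mp h)
  set N := (powMonoidHom p : B →* B).range with hN
  obtain ⟨y, hy⟩ : ∃ y : B, y ∉ N := by
    by_contra h
    push Not at h
    exact h5 ((Subgroup.eq_top_iff' _).mpr h)
  have hy1 : (QuotientGroup.mk y : B ⧸ N) ≠ 1 := by
    intro h
    exact hy ((QuotientGroup.eq_one_iff y).mp h)
  haveI : NeZero (Monoid.exponent (B ⧸ N)) := ⟨Monoid.exponent_ne_zero_of_finite⟩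
  obtain ⟨ψ, hψ⟩ := CommGroup.exists_apply_ne_one_of_hasEnoughRootsOfUnity (B ⧸ N) ℂ hy1
  refine ⟨(Units.coeHom ℂ).comp (ψ.comp ((QuotientGroup.mk' N).comp (QuotientGroup.mk' S.range))),
    ?_, ?_, ?_⟩
  · intro h
    obtain ⟨x, hx⟩ := QuotientGroup.mk_surjective y
    have h6 := DFunLike.congr_fun h x
    apply hψ
    apply Units.ext
    rw [← hx]
    exact h6
  · intro x
    have : ((QuotientGroup.mk' N) ((QuotientGroup.mk' S.range) x)) ^ p = 1 := by
      rw [← map_pow]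
      exact (QuotientGroup.eq_one_iff _).mpr ⟨(QuotientGroup.mk' S.range) x, rfl⟩
    show ((ψ ((QuotientGroup.mk' N) ((QuotientGroup.mk' S.range) x)) : ℂˣ) : ℂ) ^ p = 1
    rw [← Units.val_pow_eq_pow_val, ← map_pow, this, map_one, Units.val_one]
  · intro x
    have : (QuotientGroup.mk' S.range) (S x) = 1 := (QuotientGroup.eq_one_iff _).mpr ⟨x, rfl⟩
    show ((ψ ((QuotientGroup.mk' N) ((QuotientGroup.mk' S.range) (S x))) : ℂˣ) : ℂ) = 1
    rw [this, map_one, map_one, Units.val_one]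

section act

variable {R G : Type*} [CommRing R] [IsDedekindDomain R] [Group G] [MulSemiringAction G R]

noncomputable def smulI (σ : G) : (Ideal R)⁰ →* (Ideal R)⁰ where
  toFun I := ⟨σ • I.1, mem_nonZeroDivisors_of_ne_zero (fun h => by
    have h1 : I.1 = σ⁻¹ • (⊥ : Ideal R) := by
      have h0 : σ • I.1 = ⊥ := h
      rw [← h0, inv_smul_smul]
    exact nonZeroDivisors.coe_ne_zero I (by rw [h1, Ideal.smul_bot]; rfl))⟩
  map_one' := Subtype.ext (smul_one σ)
  map_mul' I J := Subtype.ext (smul_mul' σ I.1 J.1)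

theorem smul_span (σ : G) (x : R) : σ • Ideal.span {x} = Ideal.span {σ • x} := by
  rw [Ideal.pointwise_smul_def, Ideal.map_span, Set.image_singleton]
  rfl

theorem mk0_smulI_eq (σ : G) {I J : (Ideal R)⁰} (h : ClassGroup.mk0 I = ClassGroup.mk0 J) :
    ClassGroup.mk0 (smulI σ I) = ClassGroup.mk0 (smulI σ J) := by
  rw [ClassGroup.mk0_eq_mk0_iff] at h ⊢
  obtain ⟨x, y, hx, hy, h⟩ := h
  refine ⟨σ • x, σ • y, fun h0 => hx ?_, fun h0 => hy ?_, ?_⟩
  · rw [← inv_smul_smul σ x, h0, smul_zero]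
  · rw [← inv_smul_smul σ y, h0, smul_zero]
  · rw [← smul_span, ← smul_span]
    show σ • Ideal.span {x} * σ • I.1 = σ • Ideal.span {y} * σ • J.1
    rw [← smul_mul', ← smul_mul', h]

/-- The action on the class group. -/
noncomputable def clsAct (σ : G) : ClassGroup R →* ClassGroup R where
  toFun c := ClassGroup.mk0 (smulI σ (Function.surjInv ClassGroup.mk0_surjective c))
  map_one' := by
    have h := mk0_smulI_eq (R := R) σ (I := Function.surjInv ClassGroup.mk0_surjective 1) (J := 1)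
      (by rw [Function.surjInv_eq ClassGroup.mk0_surjective, map_one])
    rw [h, map_one, map_one]
  map_mul' c d := by
    have h := mk0_smulI_eq (R := R) σ (I := Function.surjInv ClassGroup.mk0_surjective (c * d))
      (J := Function.surjInv ClassGroup.mk0_surjective c * Function.surjInv ClassGroup.mk0_surjective d)
      (by rw [Function.surjInv_eq ClassGroup.mk0_surjective, map_mul,
            Function.surjInv_eq ClassGroup.mk0_surjective,
            Function.surjInv_eq ClassGroup.mk0_surjective])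
    rw [h, map_mul, map_mul]

theorem clsAct_mk0 (σ : G) (I : (Ideal R)⁰) :
    clsAct σ (ClassGroup.mk0 I) = ClassGroup.mk0 (smulI σ I) :=
  mk0_smulI_eq σ (Function.surjInv_eq _ _)

theorem clsAct_mul (σ τ : G) (c : ClassGroup R) : clsAct (σ * τ) c = clsAct σ (clsAct τ c) := by
  obtain ⟨I, rfl⟩ := ClassGroup.mk0_surjective c
  rw [clsAct_mk0, clsAct_mk0, clsAct_mk0]
  congr 1
  exact Subtype.ext (mul_smul σ τ I.1)

theorem clsAct_one (c : ClassGroup R) : clsAct (1 : G) c = c := by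
  obtain ⟨I, rfl⟩ := ClassGroup.mk0_surjective c
  rw [clsAct_mk0]
  congr 1
  exact Subtype.ext (one_smul G I.1)

end act

variable {K : Type} [Field K] [NumberField K]

theorem cls_trivial (p : ℕ) [Fact p.Prime] [IsCyclotomicExtension {p} ℚ K]
    (hp : 3 ≤ p) {z : 𝓞 K} (hz : IsPrimitiveRoot z p)
    (c : Gal(K/ℚ) → ℕ) (hE : ∀ b : K, b ^ p ≠ (E2 c z : K))
    (σ₀ : Gal(K/ℚ)) (hσ₀ : ∀ σ : Gal(K/ℚ), σ ∈ Subgroup.zpowers σ₀)
    (hc : ∀ k : ℕ, c (σ₀ ^ k) ≡ (c σ₀) ^ k [MOD p])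
    (a : ClassGroup (𝓞 K)) (ha : a ^ p = 1) (hσa : clsAct σ₀ a = a ^ (c σ₀)) : a = 1 := by
  by_contra ha1
  -- S x = σ₀ x / x ^ m
  let S : ClassGroup (𝓞 K) →* ClassGroup (𝓞 K) := clsAct σ₀ / powMonoidHom (c σ₀)
  have hS : ∀ x, S x = clsAct σ₀ x / x ^ (c σ₀) := fun x => rfl
  obtain ⟨φ, hφ1, hφp, hφS⟩ := char_exists S p a (by rw [hS, hσa, div_self']) ha ha1
  apply hφ1
  have h1 : ∀ x, φ (clsAct σ₀ x) = φ x ^ (c σ₀) := by
    intro x
    have h2 := hφS x
    rw [hS] at h2
    have h3 : φ (clsAct σ₀ x) = φ (clsAct σ₀ x / x ^ (c σ₀)) * φ (x ^ (c σ₀)) := by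
      rw [← map_mul, div_mul_cancel]
    rw [h3, h2, one_mul, map_pow]
  have h2 : ∀ (k : ℕ) (x), φ (clsAct (σ₀ ^ k) x) = φ x ^ ((c σ₀) ^ k) := by
    intro k
    induction k with
    | zero => intro x; rw [pow_zero, pow_zero, clsAct_one, pow_one]
    | succ k ih =>
      intro x
      rw [pow_succ, clsAct_mul, ih, h1, ← pow_mul, pow_succ, mul_comm]
  have h3 : ∀ (x) (m n : ℕ), m ≡ n [MOD p] → φ x ^ m = φ x ^ n := by
    intro x m n hmn
    have h4 : ∀ m : ℕ, φ x ^ m = φ x ^ (m % p) := by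
      intro m
      conv_lhs => rw [← Nat.div_add_mod m p, pow_add, pow_mul, hφp, one_pow, one_mul]
    rw [h4 m, h4 n, hmn]
  apply class_char_eq_one p hp hz c hE φ hφp
  intro σ I hI
  obtain ⟨k, hk⟩ := (mem_powers_iff_mem_zpowers.mpr (hσ₀ σ))
  simp only at hk
  have hI0 : I ∈ (Ideal (𝓞 K))⁰ := mem_nonZeroDivisors_of_ne_zero hI
  have e1 : clsVal K φ I = φ (ClassGroup.mk0 ⟨I, hI0⟩) := clsVal_coe φ ⟨I, hI0⟩
  have e2 : clsVal K φ (σ • I) = φ (ClassGroup.mk0 (smulI σ ⟨I, hI0⟩)) :=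
    clsVal_coe φ (smulI σ ⟨I, hI0⟩)
  rw [e1, e2, ← clsAct_mk0, ← hk, h2]
  exact (h3 _ _ _ (hc k)).symm

end Fermat.Agent.ExtVan
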