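import Mathlib

set_option autoImplicit false
set_option linter.all false

open NumberField Polynomial

namespace Fermat.Agent.ExtVan

variable {K F : Type*} [Field K] [Field F] [NumberField K] [NumberField F] [Algebra K F]

theorem isPrimitiveRoot_mul {M : Type*} [CommMonoid M] {x y : M} {m n : ℕ}
    (hx : IsPrimitiveRoot x m) (hy : IsPrimitiveRoot y n) (h : m.Coprime n) :
    IsPrimitiveRoot (x * y) (m * n) := by
  rw [IsPrimitiveRoot.iff_orderOf]
  rw [(Commute.all x y).orderOf_mul_eq_mul_orderOf_of_coprime]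
  · rw [← hx.eq_orderOf, ← hy.eq_orderOf]
  · rwa [← hx.eq_orderOf, ← hy.eq_orderOf]

/-- If `K = ℚ(ζ_m)` and `F = K(ζ_n)` with coprime `m n`, then `F = ℚ(ζ_{mn})`. -/
theorem isCyc_mul (m n : ℕ) [NeZero m] [NeZero n] (h : m.Coprime n)
    [IsCyclotomicExtension {m} ℚ K] [IsCyclotomicExtension {n} K F] :
    IsCyclotomicExtension {m * n} ℚ F := by
  have h1 : IsCyclotomicExtension ({m} ∪ {n}) ℚ F :=
    IsCyclotomicExtension.trans {m} {n} ℚ K F (FaithfulSMul.algebraMap_injective K F)
  -- primitive roots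
  obtain ⟨x, hx⟩ := h1.exists_isPrimitiveRoot (n := m) (by simp) (NeZero.ne m)
  obtain ⟨y, hy⟩ := h1.exists_isPrimitiveRoot (n := n) (by simp) (NeZero.ne n)
  have hxy : IsPrimitiveRoot (x * y) (m * n) := isPrimitiveRoot_mul hx hy h
  have h2 : IsCyclotomicExtension (({m} ∪ {n}) ∪ {m * n}) ℚ F :=
    IsCyclotomicExtension.union_of_isPrimitiveRoot _ _ _ hxy
  have h3 : (({m} ∪ {n}) ∪ {m * n} : Set ℕ) = ({m * n} ∪ {m}) ∪ {n} := by
    ext; simp; tauto
  rw [h3] at h2
  have h0 : m * n ≠ 0 := mul_ne_zero (NeZero.ne m) (NeZero.ne n)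
  rw [← IsCyclotomicExtension.iff_union_of_dvd _ _ ⟨m * n, by simp, h0, dvd_mul_left _ _⟩,
    ← IsCyclotomicExtension.iff_union_of_dvd _ _ ⟨m * n, by simp, h0, dvd_mul_right _ _⟩] at h2
  exact h2

theorem finrank_cyc (m n : ℕ) [NeZero m] [NeZero n] (h : m.Coprime n)
    [IsCyclotomicExtension {m} ℚ K] [IsCyclotomicExtension {n} K F] :
    Module.finrank K F = n.totient := by
  haveI := isCyc_mul (K := K) (F := F) m n h
  haveI : NeZero (m * n) := ⟨mul_ne_zero (NeZero.ne m) (NeZero.ne n)⟩
  have h1 : Module.finrank ℚ F = (m * n).totient := IsCyclotomicExtension.Rat.finrank (m * n) F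
  have h2 : Module.finrank ℚ K = m.totient := IsCyclotomicExtension.Rat.finrank m K
  have h3 := Module.finrank_mul_finrank ℚ K F
  rw [h1, h2, Nat.totient_mul h] at h3
  exact Nat.eq_of_mul_eq_mul_left (Nat.totient_pos.mpr (Nat.pos_of_ne_zero (NeZero.ne m))) h3

theorem cyclotomic_irreducible_of_coprime (m n : ℕ) [NeZero m] [NeZero n] (h : m.Coprime n)
    [IsCyclotomicExtension {m} ℚ K] [IsCyclotomicExtension {n} K F] :
    Irreducible (cyclotomic n K) := by
  have hf := finrank_cyc (K := K) (F := F) m n h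
  have hz := IsCyclotomicExtension.zeta_spec n K F
  have hint : IsIntegral K (IsCyclotomicExtension.zeta n K F) :=
    (hz.isIntegral (Nat.pos_of_ne_zero (NeZero.ne n))).tower_top
  have hdeg : (minpoly K (IsCyclotomicExtension.zeta n K F)).natDegree = n.totient := by
    rw [← hf]
    have htop := IsCyclotomicExtension.adjoin_primitive_root_eq_top (A := K) (B := F) hz
    have : IntermediateField.adjoin K {IsCyclotomicExtension.zeta n K F} = ⊤ := by
      rw [← IntermediateField.toSubalgebra_inj]
      rw [IntermediateField.adjoin_simple_toSubalgebra_of_isAlgebraic hint.isAlgebraic]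
      rw [htop, IntermediateField.top_toSubalgebra]
    rw [← IntermediateField.adjoin.finrank hint, this, IntermediateField.finrank_top']
  have hdvd : minpoly K (IsCyclotomicExtension.zeta n K F) ∣ cyclotomic n K := by
    apply minpoly.dvd
    rw [aeval_def, ← eval_map, map_cyclotomic]
    exact hz.isRoot_cyclotomic (Nat.pos_of_ne_zero (NeZero.ne n))
  have heq : minpoly K (IsCyclotomicExtension.zeta n K F) = cyclotomic n K := by
    symm
    apply Polynomial.eq_of_monic_of_dvd_of_natDegree_le (minpoly.monic hint) (cyclotomic.monic n K)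
      hdvd
    rw [hdeg, natDegree_cyclotomic]
  rw [← heq]
  exact minpoly.irreducible hint

end Fermat.Agent.ExtVan
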