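import Fermat.Agent.Inertia.Minkowski
import Fermat.Agent.Inertia.Decomp

set_option autoImplicit false
set_option linter.all false

namespace Fermat.Agent.ExtVan

open Fermat.Agent.GaloisBasics Fermat.Agent.Inertia

local notation "Qb" => AlgebraicClosure ℚ
local notation "GQ" => (AlgebraicClosure ℚ ≃ₐ[ℚ] AlgebraicClosure ℚ)

variable {p : ℕ} [Fact p.Prime]

/-- kernel of `b` on `N` -/
def kerb (N : Subgroup GQ) (b : GQ → ZMod p) (hb : ∀ g ∈ N, ∀ h ∈ N, b (g * h) = b g + b h) :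
    Subgroup GQ where
  carrier := {g | g ∈ N ∧ b g = 0}
  mul_mem' := by
    rintro g h ⟨hg, hg'⟩ ⟨hh, hh'⟩
    exact ⟨N.mul_mem hg hh, by rw [hb g hg h hh, hg', hh', add_zero]⟩
  one_mem' := by
    refine ⟨N.one_mem, ?_⟩
    have := hb 1 N.one_mem 1 N.one_mem
    rw [one_mul] at this
    exact (add_eq_left.mp this.symm)
  inv_mem' := by
    rintro g ⟨hg, hg'⟩
    refine ⟨N.inv_mem hg, ?_⟩
    have h1 := hb g hg g⁻¹ (N.inv_mem hg)
    have h0 : b 1 = 0 := by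
      have := hb 1 N.one_mem 1 N.one_mem
      rw [one_mul] at this
      exact (add_eq_left.mp this.symm)
    rw [mul_inv_cancel, h0, hg', zero_add] at h1
    exact h1.symm

theorem b_one {N : Subgroup GQ} {b : GQ → ZMod p} (hb : ∀ g ∈ N, ∀ h ∈ N, b (g * h) = b g + b h) :
    b 1 = 0 := by
  have := hb 1 N.one_mem 1 N.one_mem
  rw [one_mul] at this
  exact (add_eq_left.mp this.symm)

theorem b_pow {N : Subgroup GQ} {b : GQ → ZMod p} (hb : ∀ g ∈ N, ∀ h ∈ N, b (g * h) = b g + b h)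
    {g : GQ} (hg : g ∈ N) (k : ℕ) : b (g ^ k) = k * b g := by
  induction k with
  | zero => rw [pow_zero, b_one hb, Nat.cast_zero, zero_mul]
  | succ k ih => rw [pow_succ, hb _ (N.pow_mem hg k) _ hg, ih]; push_cast; ring

theorem b_inv {N : Subgroup GQ} {b : GQ → ZMod p} (hb : ∀ g ∈ N, ∀ h ∈ N, b (g * h) = b g + b h)
    {g : GQ} (hg : g ∈ N) : b g⁻¹ = - b g := by
  have h1 := hb g hg g⁻¹ (N.inv_mem hg)
  rw [mul_inv_cancel, b_one hb] at h1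
  exact (neg_eq_of_add_eq_zero_right h1.symm).symm

theorem exists_tau {N : Subgroup GQ} {b : GQ → ZMod p}
    (hb : ∀ g ∈ N, ∀ h ∈ N, b (g * h) = b g + b h)
    (hne : ∃ g ∈ N, b g ≠ 0) : ∃ τ ∈ N, b τ = 1 := by
  obtain ⟨g, hg, hbg⟩ := hne
  refine ⟨g ^ ((b g)⁻¹).val, N.pow_mem hg _, ?_⟩
  rw [b_pow hb hg, ZMod.natCast_val, ZMod.cast_id, inv_mul_cancel₀ hbg]

theorem exists_theta (K₀ : IntermediateField ℚ Qb) (ζ : Qb) (hζ : IsPrimitiveRoot ζ p)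
    (hζK : ζ ∈ K₀) (b : GQ → ZMod p)
    (hb : ∀ g ∈ K₀.fixingSubgroup, ∀ h ∈ K₀.fixingSubgroup, b (g * h) = b g + b h)
    (hopen : IsOpen {g : GQ | g ∈ K₀.fixingSubgroup ∧ b g = 0})
    (hne : ∃ g ∈ K₀.fixingSubgroup, b g ≠ 0) :
    ∃ θ : Qb, θ ≠ 0 ∧ ∀ g ∈ K₀.fixingSubgroup, g θ = ζ ^ (b g).val * θ := by
  classical
  have hpP : p.Prime := Fact.out
  set N := K₀.fixingSubgroup with hN
  obtain ⟨τ, hτN, hτ⟩ := exists_tau hb hne
  set H := kerb N b hb with hHdef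
  have hmemH : ∀ g, g ∈ H ↔ g ∈ N ∧ b g = 0 := fun g => Iff.rfl
  let Hc : ClosedSubgroup GQ := ⟨H, Subgroup.isClosed_of_isOpen H hopen⟩
  set L₁ : IntermediateField ℚ Qb := IntermediateField.fixedField H with hL₁
  have hLH : L₁.fixingSubgroup = H := InfiniteGalois.fixingSubgroup_fixedField Hc
  have hζ0 : ζ ≠ 0 := hζ.ne_zero hpP.ne_zero
  have hτζ : τ ζ = ζ := (IntermediateField.mem_fixingSubgroup_iff K₀ τ).mp hτN ζ hζK
  -- characters
  let χ : Fin p → (L₁ →* Qb) := fun i =>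
    ((τ ^ (i : ℕ) : GQ) : Qb →* Qb).comp (algebraMap L₁ Qb : L₁ →* Qb)
  have hχ : Function.Injective χ := by
    intro i j hij
    have h1 : ∀ x ∈ L₁, (τ ^ (i : ℕ) : GQ) x = (τ ^ (j : ℕ) : GQ) x := by
      intro x hx
      exact DFunLike.congr_fun hij (⟨x, hx⟩ : L₁)
    have h2 : (τ ^ (j : ℕ))⁻¹ * τ ^ (i : ℕ) ∈ L₁.fixingSubgroup := by
      rw [IntermediateField.mem_fixingSubgroup_iff]
      intro x hx
      rw [AlgEquiv.mul_apply, h1 x hx]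
      exact AlgEquiv.symm_apply_apply (τ ^ (j : ℕ)) x
    rw [hLH, hmemH] at h2
    have h3 := h2.2
    rw [hb _ (N.inv_mem (N.pow_mem hτN _)) _ (N.pow_mem hτN _), b_inv hb (N.pow_mem hτN _),
      b_pow hb hτN, b_pow hb hτN, hτ, mul_one, mul_one] at h3
    have h4 : ((i : ℕ) : ZMod p) = ((j : ℕ) : ZMod p) := by linear_combination h3
    have h5 := (ZMod.natCast_eq_natCast_iff' _ _ _).mp h4
    rw [Nat.mod_eq_of_lt i.2, Nat.mod_eq_of_lt j.2] at h5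
    exact Fin.ext h5
  have hlin := (linearIndependent_monoidHom L₁ Qb).comp χ hχ
  have hex : ∃ x : L₁, ∑ i : Fin p, (ζ⁻¹) ^ (i : ℕ) * (τ ^ (i : ℕ) : GQ) (x : Qb) ≠ 0 := by
    by_contra hcon
    push Not at hcon
    have h1 := Fintype.linearIndependent_iff.mp hlin (fun i => (ζ⁻¹) ^ (i : ℕ)) (by
      funext x
      rw [Finset.sum_apply, Pi.zero_apply, ← hcon x]
      rfl) ⟨0, hpP.pos⟩
    simp at h1
  obtain ⟨x, hx⟩ := hex
  rw [Fin.sum_univ_eq_sum_range (fun i => (ζ⁻¹) ^ i * (τ ^ i : GQ) (x : Qb)) p] at hx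
  set θ : Qb := ∑ i ∈ Finset.range p, (ζ⁻¹) ^ i * (τ ^ i : GQ) (x : Qb) with hθ
  have hfix : ∀ h ∈ H, ∀ y ∈ L₁, h y = y := by
    intro h hh y hy
    exact (IntermediateField.mem_fixedField_iff _ _).mp hy h hh
  have hτp : (τ ^ p : GQ) (x : Qb) = x := by
    apply hfix _ _ _ x.2
    rw [hmemH]
    exact ⟨N.pow_mem hτN _, by rw [b_pow hb hτN, CharP.cast_eq_zero, zero_mul]⟩
  have hτθ : τ θ = ζ * θ := by
    have h1 : τ θ = ζ * ∑ i ∈ Finset.range p, (ζ⁻¹) ^ (i + 1) * (τ ^ (i + 1) : GQ) (x : Qb) := by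
      rw [hθ, map_sum, Finset.mul_sum]
      apply Finset.sum_congr rfl
      intro i _
      rw [map_mul, map_pow, map_inv₀, hτζ, pow_succ (ζ⁻¹), pow_succ' τ, AlgEquiv.mul_apply]
      field_simp
    rw [h1]
    congr 1
    have h2 := Finset.sum_range_succ (fun i => (ζ⁻¹) ^ i * (τ ^ i : GQ) (x : Qb)) p
    have h3 := Finset.sum_range_succ' (fun i => (ζ⁻¹) ^ i * (τ ^ i : GQ) (x : Qb)) p
    rw [h2] at h3
    simp only [inv_pow, hζ.pow_eq_one, inv_one, hτp, one_mul, pow_zero, AlgEquiv.one_apply] at h3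
    rw [hθ]
    simp only [inv_pow]
    exact (add_right_cancel h3).symm
  have hτkθ : ∀ k : ℕ, (τ ^ k : GQ) θ = ζ ^ k * θ := by
    intro k
    induction k with
    | zero => simp
    | succ k ih =>
      rw [pow_succ, AlgEquiv.mul_apply, hτθ, map_mul, ih]
      have : (τ ^ k : GQ) ζ = ζ := (IntermediateField.mem_fixingSubgroup_iff K₀ _).mp (N.pow_mem hτN k) ζ hζK
      rw [this]; ring
  -- θ is fixed by H
  have hHτ : ∀ h ∈ H, ∀ i : ℕ, ∀ y ∈ L₁, h ((τ ^ i : GQ) y) = (τ ^ i : GQ) y := by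
    intro h hh i y hy
    have h1 : (τ ^ i)⁻¹ * h * τ ^ i ∈ H := by
      rw [hmemH] at hh ⊢
      refine ⟨N.mul_mem (N.mul_mem (N.inv_mem (N.pow_mem hτN _)) hh.1) (N.pow_mem hτN _), ?_⟩
      rw [hb _ (N.mul_mem (N.inv_mem (N.pow_mem hτN _)) hh.1) _ (N.pow_mem hτN _),
        hb _ (N.inv_mem (N.pow_mem hτN _)) _ hh.1, hh.2, b_inv hb (N.pow_mem hτN _)]
      ring
    have h2 := hfix _ h1 y hy
    have h3 : h ((τ ^ i : GQ) y) = (τ ^ i : GQ) (((τ ^ i)⁻¹ * h * τ ^ i : GQ) y) := by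
      rw [AlgEquiv.mul_apply, AlgEquiv.mul_apply]
      exact (AlgEquiv.apply_symm_apply (τ ^ i) _).symm
    rw [h3, h2]
  have hHθ : ∀ h ∈ H, h θ = θ := by
    intro h hh
    rw [hθ, map_sum]
    apply Finset.sum_congr rfl
    intro i _
    have : h ζ = ζ := (IntermediateField.mem_fixingSubgroup_iff K₀ _).mp hh.1 ζ hζK
    rw [map_mul, map_pow, map_inv₀, this, hHτ h hh i x x.2]
  refine ⟨θ, hx, ?_⟩
  intro g hg
  have h1 : (τ ^ (b g).val)⁻¹ * g ∈ H := by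
    rw [hmemH]
    refine ⟨N.mul_mem (N.inv_mem (N.pow_mem hτN _)) hg, ?_⟩
    rw [hb _ (N.inv_mem (N.pow_mem hτN _)) _ hg, b_inv hb (N.pow_mem hτN _), b_pow hb hτN, hτ,
      ZMod.natCast_val, ZMod.cast_id]
    ring
  have h2 := hHθ _ h1
  have h3 : g θ = (τ ^ (b g).val : GQ) (((τ ^ (b g).val)⁻¹ * g : GQ) θ) := by
    rw [AlgEquiv.mul_apply]
    exact (AlgEquiv.apply_symm_apply (τ ^ (b g).val) _).symm
  rw [h3, h2, hτkθ]

end Fermat.Agent.ExtVan
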