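import Fermat.Prelude.Def_ExtCitation_KummerBridge
import Fermat.Prelude.Def_ExtCitation_AdmissibleExtension_v2

set_option autoImplicit false
set_option linter.all false

open ExtCitation Module

namespace Fermat.Agent.ExtVan

local notation "Qb" => AlgebraicClosure ℚ
local notation "GQ" => (AlgebraicClosure ℚ ≃ₐ[ℚ] AlgebraicClosure ℚ)

variable {p : ℕ} [Fact p.Prime]
variable {V : Type} [AddCommGroup V] [Module (ZMod p) V] [DistribMulAction GQ V]
  [SMulCommClass GQ (ZMod p) V]

/-- value of the cyclotomic character -/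
noncomputable def chv (p : ℕ) [Fact p.Prime] (g : GQ) : ZMod p := ((cycloChar p g : (ZMod p)ˣ) : ZMod p)

theorem chv_mul (g h : GQ) : chv p (g * h) = chv p g * chv p h := by
  rw [chv, map_mul, Units.val_mul]; rfl

theorem chv_one : chv p 1 = 1 := by rw [chv, map_one, Units.val_one]

theorem chv_ne_zero (g : GQ) : chv p g ≠ 0 := (cycloChar p g).ne_zero

theorem exists_basis (C : Submodule (ZMod p) V) (h : IsAdmissibleExtensionCts p V C) :
    ∃ c w : V, c ∈ C ∧ c ≠ 0 ∧ (∀ x ∈ C, ∃ a : ZMod p, x = a • c) ∧ w ∉ C ∧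
      (∀ x : V, ∃ a b : ZMod p, x = a • w + b • c) := by
  have hpP : p.Prime := Fact.out
  haveI hfinV : Finite V := Nat.finite_of_card_ne_zero (by
    rw [h.card_total]; exact pow_ne_zero _ hpP.ne_zero)
  haveI : Module.Finite (ZMod p) V := Module.Finite.of_finite
  have hC1 : finrank (ZMod p) C = 1 := by
    have h1 := Module.natCard_eq_pow_finrank (K := ZMod p) (V := C)
    rw [h.card_sub, Nat.card_zmod] at h1
    have h2 : p ^ 1 = p ^ finrank (ZMod p) C := by rw [pow_one]; exact h1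
    exact (Nat.pow_right_injective hpP.two_le h2).symm
  have hV2 : finrank (ZMod p) V = 2 := by
    have h1 := Module.natCard_eq_pow_finrank (K := ZMod p) (V := V)
    rw [h.card_total, Nat.card_zmod] at h1
    exact (Nat.pow_right_injective hpP.two_le h1).symm
  obtain ⟨c, hc0, hc⟩ := finrank_eq_one_iff'.mp hC1
  have hCne : C ≠ ⊤ := by
    intro htop
    rw [htop, finrank_top, hV2] at hC1
    omega
  obtain ⟨w, hw⟩ : ∃ w, w ∉ C := by
    by_contra hcon
    push Not at hcon
    exact hCne (Submodule.eq_top_iff'.mpr hcon)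
  have hc0' : (c : V) ≠ 0 := by simpa using hc0
  refine ⟨c, w, c.2, hc0', ?_, hw, ?_⟩
  · intro x hx
    obtain ⟨a, ha⟩ := hc ⟨x, hx⟩
    exact ⟨a, (congrArg Subtype.val ha).symm⟩
  · -- span
    have hlin : LinearIndependent (ZMod p) ![w, (c : V)] := by
      rw [LinearIndependent.pair_iff]
      intro s t hst
      have hs : s = 0 := by
        by_contra hs0
        apply hw
        have : w = (-(s⁻¹ * t)) • (c : V) := by
          have h2 : s • w = -(t • (c : V)) := eq_neg_of_add_eq_zero_left hst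
          have h3 : s⁻¹ • (s • w) = s⁻¹ • (-(t • (c : V))) := by rw [h2]
          rw [smul_smul, inv_mul_cancel₀ hs0, one_smul] at h3
          rw [h3, smul_neg, smul_smul, neg_smul]
        rw [this]
        exact C.smul_mem _ c.2
      rw [hs, zero_smul, zero_add] at hst
      exact ⟨hs, (smul_eq_zero.mp hst).resolve_right hc0'⟩
    have hspan : Submodule.span (ZMod p) (Set.range ![w, (c : V)]) = ⊤ := by
      apply hlin.span_eq_top_of_card_eq_finrank'
      rw [hV2]; rfl
    intro x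
    have hx : x ∈ Submodule.span (ZMod p) (Set.range ![w, (c : V)]) := by rw [hspan]; trivial
    rw [Matrix.range_cons, Matrix.range_cons, Matrix.range_empty, Set.union_empty,
      Set.singleton_union, Submodule.mem_span_pair] at hx
    obtain ⟨a, b, hab⟩ := hx
    exact ⟨a, b, hab.symm⟩

theorem basis_unique {C : Submodule (ZMod p) V} {c w : V} (hc : c ∈ C) (hc0 : c ≠ 0) (hw : w ∉ C)
    {a b a' b' : ZMod p} (h : a • w + b • c = a' • w + b' • c) : a = a' ∧ b = b' := by
  have h1 : (a - a') • w = (b' - b) • c := by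
    rw [sub_smul, sub_smul, sub_eq_sub_iff_add_eq_add, h, add_comm]
  have h2 : a - a' = 0 := by
    by_contra h0
    apply hw
    have h3 : (a - a')⁻¹ • ((a - a') • w) = (a - a')⁻¹ • ((b' - b) • c) := by rw [h1]
    rw [smul_smul, inv_mul_cancel₀ h0, one_smul] at h3
    rw [h3]
    exact C.smul_mem _ (C.smul_mem _ hc)
  rw [h2, zero_smul] at h1
  have h3 := (smul_eq_zero.mp h1.symm).resolve_right hc0
  exact ⟨sub_eq_zero.mp h2, (sub_eq_zero.mp h3).symm⟩

/-- A splitting-adapted description of the cocycle. -/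
theorem exists_cocycle (C : Submodule (ZMod p) V) (h : IsAdmissibleExtensionCts p V C)
    (δ : GQ) (hδ : chv p δ ≠ 1) :
    ∃ (c w : V) (b : GQ → ZMod p), c ∈ C ∧ c ≠ 0 ∧ (∀ x ∈ C, ∃ a : ZMod p, x = a • c) ∧ w ∉ C ∧
      (∀ x : V, ∃ a b : ZMod p, x = a • w + b • c) ∧
      (∀ g : GQ, g • w = chv p g • w + b g • c) ∧ b δ = 0 := by
  obtain ⟨c, w₀, hc, hc0, hC, hw₀, hspan⟩ := exists_basis C h
  have h1 : ∀ g : GQ, ∃ β : ZMod p, g • w₀ = chv p g • w₀ + β • c := by
    intro g
    obtain ⟨β, hβ⟩ := hC _ (h.cyclo_quot g w₀)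
    refine ⟨β, ?_⟩
    rw [← hβ, chv, coe_cycloChar]
    abel
  choose b₀ hb₀ using h1
  set lam : ZMod p := b₀ δ * (chv p δ - 1)⁻¹ with hlam
  have hne : chv p δ - 1 ≠ 0 := sub_ne_zero.mpr hδ
  refine ⟨c, w₀ + lam • c, fun g => b₀ g + lam - chv p g * lam, hc, hc0, hC, ?_, ?_, ?_, ?_⟩
  · intro hmem
    apply hw₀
    have := C.sub_mem hmem (C.smul_mem lam hc)
    rwa [add_sub_cancel_right] at this
  · intro x
    obtain ⟨a, b, hab⟩ := hspan x
    refine ⟨a, b - a * lam, ?_⟩
    rw [hab, smul_add, smul_smul, sub_smul]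
    abel
  · intro g
    rw [smul_add, hb₀, smul_comm g lam c, h.fixed_sub g c hc, smul_add, smul_smul, sub_smul, add_smul]
    abel
  · show b₀ δ + lam - chv p δ * lam = 0
    have : b₀ δ + lam - chv p δ * lam = b₀ δ - (chv p δ - 1) * lam := by ring
    rw [this, hlam, mul_comm (b₀ δ), mul_inv_cancel_left₀ hne, sub_self]

theorem ext_data (C : Submodule (ZMod p) V) (h : IsAdmissibleExtensionCts p V C)
    (hns : ¬ SplitsGlobally C) (δ : GQ) (hδ : chv p δ ≠ 1)
    (hgen : ∀ g : GQ, ∃ k : ℕ, chv p g = chv p (δ ^ k)) :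
    ∃ b : GQ → ZMod p, (∀ g h, b (g * h) = chv p h * b g + b h) ∧ b δ = 0 ∧
      (∃ g, chv p g = 1 ∧ b g ≠ 0) ∧
      IsOpen {g : GQ | chv p g = 1 ∧ b g = 0} ∧
      (∀ ℓ : ℕ, ℓ.Prime → ℓ ≠ p → ∀ A : ValuationSubring Qb, A.LiesOverPrime ℓ →
        ∀ σ ∈ A.inertiaSubgroupIn ℚ, b σ = 0) ∧
      (∀ A : ValuationSubring Qb, A.LiesOverPrime p →
        ∀ σ ∈ A.decompositionSubgroup ℚ, chv p σ = 1 → b σ = 0) := by
  obtain ⟨c, w, b, hc, hc0, hC, hw, hspan, hb, hbδ⟩ := exists_cocycle C h δ hδ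
  have huniq : ∀ {a b a' b' : ZMod p}, a • w + b • c = a' • w + b' • c → a = a' ∧ b = b' :=
    fun h => basis_unique hc hc0 hw h
  have hbmul : ∀ g h, b (g * h) = chv p h * b g + b h := by
    intro g k
    have e1 := hb (g * k)
    rw [mul_smul, hb k, smul_add, smul_comm g (chv p k) w, smul_comm g (b k) c, hb g,
      h.fixed_sub g c hc, chv_mul] at e1
    have e2 : (chv p g * chv p k) • w + (chv p k * b g + b k) • c =
        (chv p g * chv p k) • w + b (g * k) • c := by
      rw [← e1, smul_add, smul_smul, smul_smul, add_smul, mul_comm (chv p g)]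
      abel
    exact (huniq e2).2.symm
  have htriv : ∀ g : GQ, (∀ v : V, g • v = v) ↔ (chv p g = 1 ∧ b g = 0) := by
    intro g
    constructor
    · intro hg
      have e1 := hb g
      rw [hg w] at e1
      have e2 : (1 : ZMod p) • w + (0 : ZMod p) • c = chv p g • w + b g • c := by
        rw [one_smul, zero_smul, add_zero]; exact e1
      obtain ⟨e3, e4⟩ := huniq e2
      exact ⟨e3.symm, e4.symm⟩
    · rintro ⟨h1, h2⟩ v
      obtain ⟨x, y, rfl⟩ := hspan v
      rw [smul_add, smul_comm g x w, smul_comm g y c, hb, h1, h2, h.fixed_sub g c hc, one_smul,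
        zero_smul, add_zero]
  refine ⟨b, hbmul, hbδ, ?_, ?_, ?_, ?_⟩
  · -- nontriviality
    by_contra hcon
    push Not at hcon
    apply hns
    have hb1 : b 1 = 0 := hcon 1 chv_one
    have hbδk : ∀ k : ℕ, b (δ ^ k) = 0 := by
      intro k
      induction k with
      | zero => rw [pow_zero, hb1]
      | succ k ih => rw [pow_succ, hbmul, ih, hbδ, mul_zero, add_zero]
    have hb0 : ∀ g, b g = 0 := by
      intro g
      obtain ⟨k, hk⟩ := hgen g
      have e1 : chv p ((δ ^ k)⁻¹ * g) = 1 := by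
        have e2 := chv_mul (p := p) (δ ^ k) ((δ ^ k)⁻¹ * g)
        rw [mul_inv_cancel_left, hk] at e2
        have e3 := mul_left_cancel₀ (chv_ne_zero (p := p) (δ ^ k)) ((mul_one _).trans e2)
        exact e3.symm
      have e2 := hbmul (δ ^ k) ((δ ^ k)⁻¹ * g)
      rw [mul_inv_cancel_left, hbδk, mul_zero, zero_add, hcon _ e1] at e2
      exact e2
    refine ⟨Submodule.span (ZMod p) {w}, ?_, ?_⟩
    · intro σ x hx
      rw [Submodule.mem_span_singleton] at hx ⊢
      obtain ⟨a, rfl⟩ := hx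
      refine ⟨a * chv p σ, ?_⟩
      rw [smul_comm σ a w, hb, hb0, zero_smul, add_zero, smul_smul]
    · constructor
      · rw [disjoint_iff, Submodule.eq_bot_iff]
        rintro x ⟨hx1, hx2⟩
        obtain ⟨a, ha⟩ := Submodule.mem_span_singleton.mp hx2
        obtain ⟨b', hb'⟩ := hC x hx1
        have e1 : a • w + (0 : ZMod p) • c = (0 : ZMod p) • w + b' • c := by
          rw [ha, hb', zero_smul, zero_smul, add_zero, zero_add]
        obtain ⟨e2, -⟩ := huniq e1
        rw [← ha, e2, zero_smul]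
      · rw [codisjoint_iff, Submodule.eq_top_iff']
        intro x
        obtain ⟨a, b', rfl⟩ := hspan x
        apply Submodule.add_mem
        · exact Submodule.mem_sup_right (Submodule.smul_mem _ _ (Submodule.mem_span_singleton_self w))
        · exact Submodule.mem_sup_left (C.smul_mem _ hc)
  · have e1 : {g : GQ | chv p g = 1 ∧ b g = 0} = {σ : GQ | ∀ v : V, σ • v = v} := by
      ext g; exact (htriv g).symm
    rw [e1]
    exact h.open_kernel
  · intro ℓ hℓ hℓp A hA σ hσ
    exact ((htriv σ).mp (h.unramified_outside ℓ hℓ hℓp A hA σ hσ)).2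
  · intro A hA σ hσ hχ
    obtain ⟨C', hC', hcompl⟩ := h.locally_split A hA
    have htop : w ∈ C ⊔ C' := by rw [hcompl.sup_eq_top]; trivial
    obtain ⟨x, hx, y, hy, hxy⟩ := Submodule.mem_sup.mp htop
    have e1 : σ • y - y = b σ • c := by
      have e2 : y = w - x := by rw [← hxy, add_sub_cancel_left]
      rw [e2, smul_sub, hb, hχ, one_smul, h.fixed_sub σ x hx]
      abel
    have e2 : b σ • c ∈ C ⊓ C' := by
      refine ⟨C.smul_mem _ hc, ?_⟩
      rw [← e1]
      exact C'.sub_mem (hC' σ hσ y hy) hy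
    rw [hcompl.inf_eq_bot, Submodule.mem_bot] at e2
    exact (smul_eq_zero.mp e2).resolve_right hc0

end Fermat.Agent.ExtVan
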