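import Fermat.Agent.ExtVan.Gal9
import Fermat.Agent.ExtVan.Gal2

set_option autoImplicit false
set_option linter.all false
set_option maxSynthPendingDepth 3

open NumberField IsDedekindDomain WithZero NumberField.Units ExtCitation
open scoped Pointwise nonZeroDivisors

namespace Fermat.Agent.ExtVan

open Fermat.Agent.GaloisBasics Fermat.Agent.Inertia

local notation "Qb" => AlgebraicClosure ℚ
local notation "Zb" => integralClosure ℤ (AlgebraicClosure ℚ)
local notation "GQ" => (AlgebraicClosure ℚ ≃ₐ[ℚ] AlgebraicClosure ℚ)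

theorem zeta_action {p : ℕ} [Fact p.Prime] (ζ : Qb) (hζ : IsPrimitiveRoot ζ p) (g : GQ) :
    g ζ = ζ ^ (cycloExp p g) := by
  have hpP : p.Prime := Fact.out
  haveI : NeZero p := ⟨hpP.ne_zero⟩
  have hu : IsUnit ζ := hζ.isUnit hpP.ne_zero
  have h1 : hu.unit ∈ rootsOfUnity p Qb := by
    rw [mem_rootsOfUnity']
    exact hζ.pow_eq_one
  exact modularCyclotomicCharacter.spec Qb (card_rootsOfUnity_eq_self p) (g : Qb ≃+* Qb) h1

/-- The cyclotomic field together with an embedding into `ℚ̄`. -/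
theorem exists_K (p : ℕ) [Fact p.Prime] : ∃ (K : Type) (_ : Field K) (_ : NumberField K)
    (_ : Algebra K Qb), IsCyclotomicExtension {p} ℚ K := by
  have hpP : p.Prime := Fact.out
  haveI : NeZero p := ⟨hpP.ne_zero⟩
  let f : CyclotomicField p ℚ →ₐ[ℚ] Qb := IsAlgClosed.lift
  refine ⟨CyclotomicField p ℚ, inferInstance, inferInstance, f.toRingHom.toAlgebra, ?_⟩
  have h := CyclotomicField.isCyclotomicExtension p ℚ
  have e : (DivisionRing.toRatAlgebra : Algebra ℚ (CyclotomicField p ℚ)) =
    CyclotomicField.algebra p ℚ := Subsingleton.elim _ _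
  rw [e]
  exact h

theorem exists_gen (p : ℕ) [Fact p.Prime] (K : Type) [Field K] [NumberField K]
    [IsCyclotomicExtension {p} ℚ K] : ∃ σ₀ : Gal(K/ℚ), ∀ σ : Gal(K/ℚ), σ ∈ Subgroup.zpowers σ₀ := by
  have hpP : p.Prime := Fact.out
  haveI : NeZero p := ⟨hpP.ne_zero⟩
  have hirr : Irreducible (Polynomial.cyclotomic p ℚ) := Polynomial.cyclotomic.irreducible_rat hpP.pos
  haveI : IsCyclic (Gal(K/ℚ)) := isCyclic_of_surjective (IsCyclotomicExtension.autEquivPow K hirr).symm
    (IsCyclotomicExtension.autEquivPow K hirr).symm.surjective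
  exact IsCyclic.exists_generator

end Fermat.Agent.ExtVan
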