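import Fermat.Agent.ExtVan.Gal10

set_option autoImplicit false
set_option linter.all false
set_option maxSynthPendingDepth 3

open NumberField IsDedekindDomain WithZero NumberField.Units ExtCitation
open scoped Pointwise nonZeroDivisors

namespace Fermat.Agent.ExtVan

open Fermat.Agent.GaloisBasics Fermat.Agent.Inertia

local notation "Qb" => AlgebraicClosure ℚ
local notation "Zb" => integralClosure ℤ (AlgebraicClosure ℚ)
local notation "GQ" => (AlgebraicClosure ℚ ≃ₐ[ℚ] AlgebraicClosure ℚ)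

section

variable {K : Type} [Field K] [NumberField K] [Algebra K Qb] {p : ℕ} [Fact p.Prime]
    [IsCyclotomicExtension {p} ℚ K] 

theorem chv_eq_cy {z : 𝓞 K} (hz : IsPrimitiveRoot z p) (g : GQ) (σ : Gal(K/ℚ))
    (h : ∀ x : K, g (algebraMap K Qb x) = algebraMap K Qb (σ x)) : chv p g = (cy hz σ : ZMod p) := by
  have hpP : p.Prime := Fact.out
  have hz1 : IsPrimitiveRoot (z : K) p := hz.map_of_injective (FaithfulSMul.algebraMap_injective _ _)
  have hz2 : IsPrimitiveRoot (algebraMap K Qb (z : K)) p :=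
    hz1.map_of_injective (algebraMap K Qb).injective
  have h1 := zeta_action (p := p) _ hz2 g
  have h2 : g (algebraMap K Qb (z : K)) = (algebraMap K Qb (z : K)) ^ (cy hz σ) := by
    rw [h, ← map_pow]
    congr 1
    exact congrArg (algebraMap (𝓞 K) K) (cy_spec hz σ)
  rw [h1] at h2
  rw [zpow_mod hz2, zpow_mod hz2 (cy hz σ)] at h2
  have h3 := hz2.pow_inj (Nat.mod_lt _ hpP.pos) (Nat.mod_lt _ hpP.pos) h2
  rw [chv, coe_cycloChar]
  exact (ZMod.natCast_eq_natCast_iff _ _ _).mpr h3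

theorem fix_iff {z : 𝓞 K} (hz : IsPrimitiveRoot z p) (g : GQ) :
    (∀ x : K, g (algebraMap K Qb x) = algebraMap K Qb x) ↔ chv p g = 1 := by
  have hpP : p.Prime := Fact.out
  haveI : NeZero p := ⟨hpP.ne_zero⟩
  haveI : IsGalois ℚ K := IsCyclotomicExtension.isGalois {p} ℚ K
  have hgK : ∀ x : K, g (algebraMap K Qb x) = algebraMap K Qb (g.restrictNormal K x) :=
    fun x => (AlgEquiv.restrictNormal_commutes g K x).symm
  constructor
  · intro h
    rw [chv_eq_cy hz g 1 (fun x => h x), cy_one]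
  · intro h x
    rw [chv_eq_cy hz g _ hgK] at h
    have h1 : g.restrictNormal K = 1 := cy_inj hz (by rw [h, cy_one])
    rw [hgK, h1]; rfl

theorem fixing_iff (g : GQ) :
    g ∈ (imF K).fixingSubgroup ↔ ∀ x : K, g (algebraMap K Qb x) = algebraMap K Qb x := by
  rw [IntermediateField.mem_fixingSubgroup_iff]
  constructor
  · intro h x
    exact h _ (mem_imF.mpr ⟨x, rfl⟩)
  · intro h y hy
    obtain ⟨x, rfl⟩ := mem_imF.mp hy
    exact h x

theorem mem_of_fixed (t : Qb)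
    (h : ∀ g : GQ, (∀ x : K, g (algebraMap K Qb x) = algebraMap K Qb x) → g t = t) :
    ∃ y : K, algebraMap K Qb y = t := by
  have h1 : t ∈ IntermediateField.fixedField (imF K).fixingSubgroup := by
    rw [IntermediateField.mem_fixedField_iff]
    intro g hg
    exact h g ((fixing_iff g).mp hg)
  rw [InfiniteGalois.fixedField_fixingSubgroup] at h1
  exact mem_imF.mp h1

theorem zpow_eq_of_cast {R : Type*} [CommRing R] {x : R} (hx : IsPrimitiveRoot x p) {m n : ℕ}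
    (h : (m : ZMod p) = n) : x ^ m = x ^ n := by
  rw [zpow_mod hx m, zpow_mod hx n]
  congr 1
  exact (ZMod.natCast_eq_natCast_iff _ _ _).mp h

end

/-- The vanishing theorem. -/
theorem vanishing {p : ℕ} [Fact p.Prime] (hp : 3 ≤ p) : ExtCitation.ExtVanishingCts p := by
  intro V _ _ _ _ C hadm
  by_contra hns
  have hpP : p.Prime := Fact.out
  haveI : NeZero p := ⟨hpP.ne_zero⟩
  obtain ⟨K, _, _, _, _⟩ := exists_K p
  haveI : IsGalois ℚ K := IsCyclotomicExtension.isGalois {p} ℚ K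
  obtain ⟨σ₀, hσ₀⟩ := exists_gen p K
  have hzK := IsCyclotomicExtension.zeta_spec p ℚ K
  set z : 𝓞 K := hzK.toInteger with hzdef
  have hz : IsPrimitiveRoot z p := hzK.toInteger_isPrimitiveRoot
  have hz1 : IsPrimitiveRoot (z : K) p := hz.map_of_injective (FaithfulSMul.algebraMap_injective _ _)
  set ζ : Qb := algebraMap K Qb (z : K) with hζdef
  have hζ : IsPrimitiveRoot ζ p := hz1.map_of_injective (algebraMap K Qb).injective
  set δ : GQ := AlgEquiv.liftNormal σ₀ Qb with hδdef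
  have hδ : ∀ x : K, δ (algebraMap K Qb x) = algebraMap K Qb (σ₀ x) :=
    fun x => AlgEquiv.liftNormal_commutes σ₀ Qb x
  have hchδ : chv p δ = (cy hz σ₀ : ZMod p) := chv_eq_cy hz δ σ₀ hδ
  have hδ1 : chv p δ ≠ 1 := by
    intro h
    apply cy_gen_ne hp hz hσ₀
    rw [← hchδ, h]; ring
  have hδk : ∀ (k : ℕ) (x : K), (δ ^ k : GQ) (algebraMap K Qb x) = algebraMap K Qb ((σ₀ ^ k : Gal(K/ℚ)) x) := by
    intro k
    induction k with
    | zero => intro x; simp
    | succ k ih => intro x; rw [pow_succ, pow_succ, AlgEquiv.mul_apply, AlgEquiv.mul_apply, hδ, ih]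
  have hgen : ∀ g : GQ, ∃ k : ℕ, chv p g = chv p (δ ^ k) := by
    intro g
    have hgK : ∀ x : K, g (algebraMap K Qb x) = algebraMap K Qb (g.restrictNormal K x) :=
      fun x => (AlgEquiv.restrictNormal_commutes g K x).symm
    obtain ⟨k, hk⟩ := (mem_powers_iff_mem_zpowers.mpr (hσ₀ (g.restrictNormal K)))
    simp only at hk
    refine ⟨k, ?_⟩
    rw [chv_eq_cy hz g _ hgK, chv_eq_cy hz (δ ^ k) (σ₀ ^ k) (hδk k), hk]
  obtain ⟨b, hbmul, hbδ, ⟨g₁, hg₁, hbg₁⟩, hopen, hin, hdec⟩ := ext_data C hadm hns δ hδ1 hgen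
  -- the Kummer generator
  have hN : ∀ g : GQ, g ∈ (imF K).fixingSubgroup ↔ chv p g = 1 := by
    intro g; rw [fixing_iff, fix_iff hz]
  have hb : ∀ g ∈ (imF K).fixingSubgroup, ∀ h ∈ (imF K).fixingSubgroup, b (g * h) = b g + b h := by
    intro g hg h hh
    rw [hbmul, (hN h).mp hh, one_mul]
  have hopen' : IsOpen {g : GQ | g ∈ (imF K).fixingSubgroup ∧ b g = 0} := by
    have : {g : GQ | g ∈ (imF K).fixingSubgroup ∧ b g = 0} = {g : GQ | chv p g = 1 ∧ b g = 0} := by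
      ext g
      simp only [Set.mem_setOf_eq, hN]
    rw [this]; exact hopen
  obtain ⟨θ₀, hθ₀, hθ₀g⟩ := exists_theta (imF K) ζ hζ (mem_imF.mpr ⟨_, rfl⟩) b hb hopen'
    ⟨g₁, (hN g₁).mpr hg₁, hbg₁⟩
  obtain ⟨n, hn0, hn⟩ : ∃ n : ℤ, n ≠ 0 ∧ IsIntegral ℤ (n • θ₀) :=
    (isAlgebraic_int_Qbar θ₀).exists_integral_multiple
  set θ : Qb := n • θ₀ with hθdef
  have hθ0 : θ ≠ 0 := by
    rw [hθdef]; exact smul_ne_zero hn0 hθ₀
  have hθg : ∀ g : GQ, chv p g = 1 → g θ = ζ ^ (b g).val * θ := by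
    intro g hg
    rw [hθdef, map_zsmul, hθ₀g g ((hN g).mpr hg), mul_smul_comm]
  have hθfix : ∀ g : GQ, chv p g = 1 → b g = 0 → g θ = θ := by
    intro g hg hbg
    rw [hθg g hg, hbg, ZMod.val_zero, pow_zero, one_mul]
  have hgζ : ∀ g : GQ, chv p g = 1 → g ζ = ζ := fun g hg => (fix_iff hz g).mpr hg _
  -- α
  obtain ⟨α₀, hα₀⟩ : ∃ y : K, algebraMap K Qb y = θ ^ p := by
    apply mem_of_fixed
    intro g hg
    have hg' := (fix_iff hz g).mp hg
    rw [map_pow, hθg g hg', mul_pow, ← pow_mul, mul_comm, mul_comm _ p, pow_mul, hζ.pow_eq_one, one_pow,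
      mul_one]
  obtain ⟨α, hα⟩ := exists_int_of (L := K) (hn.pow p) hα₀
  -- y₀
  obtain ⟨y₀, hy₀⟩ : ∃ y : K, algebraMap K Qb y = δ θ / θ ^ (cc hz σ₀) := by
    apply mem_of_fixed
    intro g hg
    have hg' := (fix_iff hz g).mp hg
    -- conjugate
    set n' : GQ := δ⁻¹ * g * δ with hn'
    have hchn : chv p n' = 1 := by
      rw [hn', chv_mul, chv_mul, hg', mul_one, ← chv_mul, inv_mul_cancel, chv_one]
    have hbn : b n' = chv p δ * b g := by
      have e1 := hbmul δ n'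
      have e2 := hbmul g δ
      have e3 : δ * n' = g * δ := by rw [hn', ← mul_assoc, ← mul_assoc, mul_inv_cancel, one_mul]
      rw [e3, e2, hbδ, mul_zero, zero_add, add_zero] at e1
      exact e1.symm
    have h1 : g (δ θ) = δ (n' θ) := by
      have e3 : δ * n' = g * δ := by rw [hn', ← mul_assoc, ← mul_assoc, mul_inv_cancel, one_mul]
      have := congrArg (fun h : GQ => h θ) e3
      simp only [AlgEquiv.mul_apply] at this
      exact this.symm
    have hδζ : δ ζ = ζ ^ (cy hz σ₀) := by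
      rw [hζdef, hδ, ← map_pow]
      congr 1
      exact congrArg (algebraMap (𝓞 K) K) (cy_spec hz σ₀)
    have h2 : g (δ θ) = ζ ^ (cy hz σ₀ * (b n').val) * δ θ := by
      rw [h1, hθg n' hchn, map_mul, map_pow, hδζ, ← pow_mul]
    have h3 : g (θ ^ (cc hz σ₀)) = ζ ^ ((b g).val * cc hz σ₀) * θ ^ (cc hz σ₀) := by
      rw [map_pow, hθg g hg', mul_pow, ← pow_mul]
    have h4 : ζ ^ (cy hz σ₀ * (b n').val) = ζ ^ ((b g).val * cc hz σ₀) := by
      apply zpow_eq_of_cast hζ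
      rw [cc]
      push_cast
      rw [ZMod.natCast_val, ZMod.cast_id, ZMod.natCast_val, ZMod.cast_id, hbn, hchδ]
      ring
    rw [map_div₀, h2, h3, h4, mul_div_mul_left _ _ (pow_ne_zero _ (hζ.ne_zero hpP.ne_zero))]
  have hδθ : δ θ = θ ^ (cc hz σ₀) * algebraMap K Qb y₀ := by
    rw [hy₀, mul_div_cancel₀]
    exact pow_ne_zero _ hθ0
  obtain ⟨x, hx⟩ := theta_mem hp hz hσ₀ δ hδ θ hθ0 hn α (by rw [hα, hα₀]) y₀ hδθ
    (fun ℓ hℓ hℓp V hV ρ hρ hfix => hθfix ρ ((fix_iff hz ρ).mp hfix) (hin ℓ hℓ hℓp V hV ρ hρ))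
    (fun V hV ρ hρ hfix => hθfix ρ ((fix_iff hz ρ).mp hfix)
      (hdec V hV ρ hρ ((fix_iff hz ρ).mp hfix)))
  -- contradiction
  have h1 := hθg g₁ hg₁
  rw [← hx, (fix_iff hz g₁).mpr hg₁] at h1
  have h2 : ζ ^ (b g₁).val = 1 := by
    have h3 : algebraMap K Qb x ≠ 0 := by rw [hx]; exact hθ0
    exact mul_right_cancel₀ h3 (h1.symm.trans (one_mul _).symm)
  have h3 := (hζ.pow_eq_one_iff_dvd _).mp h2
  have h4 := Nat.eq_zero_of_dvd_of_lt h3 (ZMod.val_lt _)
  exact hbg₁ ((ZMod.val_eq_zero _).mp h4)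

end Fermat.Agent.ExtVan
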