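import Fermat.Agent.ExtVan.Gal1

set_option autoImplicit false
set_option linter.all false

open NumberField IsDedekindDomain
open scoped Pointwise

namespace Fermat.Agent.ExtVan

open Fermat.Agent.GaloisBasics Fermat.Agent.Inertia

local notation "Qb" => AlgebraicClosure ℚ
local notation "Zb" => integralClosure ℤ (AlgebraicClosure ℚ)
local notation "GQ" => (AlgebraicClosure ℚ ≃ₐ[ℚ] AlgebraicClosure ℚ)

section val

variable {L : Type} [Field L] [NumberField L] [Algebra L Qb]

/-- `𝓞 L → Q̄` -/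
noncomputable def iot (L : Type) [Field L] [NumberField L] [Algebra L Qb] : 𝓞 L →+* Qb :=
  (algebraMap L Qb).comp (algebraMap (𝓞 L) L)

theorem iot_apply (x : 𝓞 L) : iot L x = algebraMap L Qb (x : L) := rfl

theorem iot_int (x : 𝓞 L) : IsIntegral ℤ (iot L x) := by
  rw [iot_apply]
  exact (RingOfIntegers.isIntegral_coe x).algebraMap

theorem exists_int_of {x : Qb} (hx : IsIntegral ℤ x) {y : L} (hy : algebraMap L Qb y = x) :
    ∃ z : 𝓞 L, (z : L) = y := by
  rw [← hy] at hx
  exact ⟨⟨y, (isIntegral_algebraMap_iff (algebraMap L Qb).injective).mp hx⟩, rfl⟩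

theorem exists_V (P : HeightOneSpectrum (𝓞 L)) :
    ∃ V : ValuationSubring Qb, ∀ x : 𝓞 L, iot L x ∈ V.nonunits ↔ x ∈ P.asIdeal := by
  let I : Ideal (iot L).range := P.asIdeal.map (iot L).rangeRestrict
  have hinj : Function.Injective (iot L) :=
    (algebraMap L Qb).injective.comp (FaithfulSMul.algebraMap_injective (𝓞 L) L)
  have hmem : ∀ y ∈ I, ∃ x ∈ P.asIdeal, (iot L).rangeRestrict x = y := by
    intro y hy
    exact (Ideal.mem_map_iff_of_surjective _ (iot L).rangeRestrict_surjective).mp hy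
  have hI : I ≠ ⊤ := by
    rw [Ne, Ideal.eq_top_iff_one]
    intro h
    obtain ⟨x, hx, hx1⟩ := hmem 1 h
    have h2 : iot L x = iot L 1 := by rw [map_one]; exact congrArg Subtype.val hx1
    rw [hinj h2] at hx
    exact P.isPrime.ne_top ((Ideal.eq_top_iff_one _).mpr hx)
  obtain ⟨V, hV1, hV2⟩ := Ideal.image_subset_nonunits_valuationSubring I hI
  refine ⟨V, fun x => ?_⟩
  have key : ∀ x ∈ P.asIdeal, iot L x ∈ V.nonunits := by
    intro x hx
    apply hV2
    exact ⟨(iot L).rangeRestrict x, Ideal.mem_map_of_mem _ hx, rfl⟩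
  constructor
  · intro h
    by_contra hx
    haveI := P.isMaximal
    obtain ⟨y, hy⟩ := Ideal.IsMaximal.exists_inv ‹P.asIdeal.IsMaximal› hx
    obtain ⟨i, hi, hyi⟩ := hy
    have h1 : iot L (y * x + i) ∈ V.nonunits := by
      rw [map_add, map_mul]
      have h3 := mem_idealOf (V := V) (x := ⟨iot L x, iot_int x⟩)
      have h4 : (⟨iot L y, iot_int y⟩ * ⟨iot L x, iot_int x⟩ + ⟨iot L i, iot_int i⟩ : Zb) ∈ idealOf V := by
        apply (idealOf V).add_mem
        · exact (idealOf V).mul_mem_left _ (mem_idealOf.mpr h)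
        · exact mem_idealOf.mpr (key i hi)
      exact mem_idealOf.mp h4
    rw [hyi, map_one] at h1
    have h2 : V.valuation (1 : Qb) < 1 := h1
    simp at h2
  · exact key x

end val

end Fermat.Agent.ExtVan
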