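import Fermat.Agent.ExtVan.ThaineMain

set_option autoImplicit false
set_option linter.all false

open NumberField Polynomial IsDedekindDomain WithZero
open scoped Pointwise

namespace Fermat.Agent.ExtVan

section hom

variable {R : Type*} [CommRing R] [IsDedekindDomain R]

theorem count_eq_nv (v : HeightOneSpectrum R) {x : R} (hx : x ≠ 0) :
    (Associates.mk v.asIdeal).count (Associates.mk (Ideal.span {x})).factors = nv v x := by
  classical
  have h1 := v.intValuation_if_neg hx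
  rw [intVal_eq v hx, exp_inj, neg_inj] at h1
  exact_mod_cast h1.symm

theorem hom_ideal_prod (Ψ : Ideal R →* ℂ) {x : R} (hx : x ≠ 0) (S : Finset (HeightOneSpectrum R))
    (hS : ∀ v, v ∉ S → Ψ v.asIdeal ^ (nv v x) = 1) :
    Ψ (Ideal.span {x}) = ∏ v ∈ S, Ψ v.asIdeal ^ (nv v x) := by
  classical
  have hx' : Ideal.span {x} ≠ 0 := by simpa using hx
  conv_lhs => rw [← Ideal.finprod_heightOneSpectrum_factorization hx']
  rw [MonoidHom.map_finprod Ψ (Ideal.hasFiniteMulSupport hx')]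
  have h1 : ∀ v : HeightOneSpectrum R, Ψ (v.maxPowDividing (Ideal.span {x})) = Ψ v.asIdeal ^ (nv v x) := by
    intro v
    rw [HeightOneSpectrum.maxPowDividing, map_pow, count_eq_nv v hx]
  rw [finprod_congr h1]
  apply finprod_eq_prod_of_mulSupport_subset
  intro v hv
  by_contra hvS
  exact hv (hS v hvS)

end hom

variable {K : Type} [Field K] [NumberField K]

/-- Galois action on the primes. -/
noncomputable def gact (σ : Gal(K/ℚ)) (v : HeightOneSpectrum (𝓞 K)) : HeightOneSpectrum (𝓞 K) where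
  asIdeal := σ • v.asIdeal
  isPrime := by
    haveI := v.isPrime
    infer_instance
  ne_bot := by
    intro h
    have h1 : v.asIdeal = σ⁻¹ • (⊥ : Ideal (𝓞 K)) := by rw [← h, inv_smul_smul]
    apply v.ne_bot
    rw [h1, Ideal.smul_bot]

theorem gact_mem (σ : Gal(K/ℚ)) (v : HeightOneSpectrum (𝓞 K)) {x : 𝓞 K} (h : x ∈ (gact σ v).asIdeal) :
    σ⁻¹ • x ∈ v.asIdeal := Ideal.mem_pointwise_smul_iff_inv_smul_mem.mp h

section

variable (p ℓ : ℕ) [Fact p.Prime] [Fact ℓ.Prime] [IsCyclotomicExtension {p} ℚ K]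

theorem gact_trans [IsGalois ℚ K] (v w : HeightOneSpectrum (𝓞 K)) (hv : (ℓ : 𝓞 K) ∈ v.asIdeal)
    (hw : (ℓ : 𝓞 K) ∈ w.asIdeal) : ∃ σ : Gal(K/ℚ), gact σ v = w := by
  have hℓP : ℓ.Prime := Fact.out
  haveI := v.isPrime
  haveI := w.isPrime
  haveI h1 : v.asIdeal.LiesOver (Ideal.span {(ℓ : ℤ)}) := liesOver_of_mem hℓP hv
  haveI h2 : w.asIdeal.LiesOver (Ideal.span {(ℓ : ℤ)}) := liesOver_of_mem hℓP hw
  haveI hm : (Ideal.span {(ℓ : ℤ)}).IsMaximal := by
    apply PrincipalIdealRing.isMaximal_of_irreducible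
    exact (Nat.prime_iff_prime_int.mp hℓP).irreducible
  obtain ⟨σ, hσ⟩ := Ideal.exists_smul_eq_of_isGaloisGroup (Ideal.span {(ℓ : ℤ)}) v.asIdeal w.asIdeal
    (Gal(K/ℚ))
  exact ⟨σ, HeightOneSpectrum.ext hσ⟩

theorem gact_inj [IsGalois ℚ K] (v : HeightOneSpectrum (𝓞 K)) (hv : (ℓ : 𝓞 K) ∈ v.asIdeal)
    (hℓ : p ∣ ℓ - 1) : Function.Injective (fun σ : Gal(K/ℚ) => gact σ v) := by
  have hℓP : ℓ.Prime := Fact.out
  have hpP : p.Prime := Fact.out
  haveI : NeZero p := ⟨hpP.ne_zero⟩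
  haveI := v.isPrime
  haveI h1 : v.asIdeal.LiesOver (Ideal.span {(ℓ : ℤ)}) := liesOver_of_mem hℓP hv
  haveI hm : (Ideal.span {(ℓ : ℤ)}).IsMaximal := by
    apply PrincipalIdealRing.isMaximal_of_irreducible
    exact (Nat.prime_iff_prime_int.mp hℓP).irreducible
  have hnb : (Ideal.span {(ℓ : ℤ)}) ≠ ⊥ := by simpa using hℓP.ne_zero
  haveI : Finite (ℤ ⧸ Ideal.span {(ℓ : ℤ)}) := Ideal.finiteQuotientOfFreeOfNeBot _ hnb
  haveI : Finite (Ideal.span {(ℓ : ℤ)}).ResidueField :=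
    Finite.of_surjective _ (Ideal.bijective_algebraMap_quotient_residueField _).surjective
  have hpl : ¬ ℓ ∣ p := by
    rw [Nat.prime_dvd_prime_iff_eq hℓP hpP]
    intro h
    rw [h] at hℓ
    have := Nat.le_of_dvd (by have := hpP.two_le; omega) hℓ
    have := hpP.two_le
    omega
  have h2 := Ideal.card_stabilizer_eq (G := Gal(K/ℚ)) (Ideal.span {(ℓ : ℤ)}) v.asIdeal
  rw [IsCyclotomicExtension.Rat.ramificationIdxIn_eq_of_not_dvd ℓ K (m := p) hpl,
    IsCyclotomicExtension.Rat.inertiaDegIn_eq_of_not_dvd ℓ K (m := p) hpl] at h2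
  have h3 : ((ℓ : ℕ) : ZMod p) = 1 := by
    obtain ⟨k, hk⟩ := hℓ
    have : ℓ = p * k + 1 := by have := hℓP.two_le; omega
    rw [this]; push_cast; simp
  rw [h3, orderOf_one, one_mul] at h2
  have h4 : MulAction.stabilizer (Gal(K/ℚ)) v.asIdeal = ⊥ := Subgroup.card_eq_one.mp h2
  intro σ τ hστ
  have h5 : σ • v.asIdeal = τ • v.asIdeal := congrArg HeightOneSpectrum.asIdeal hστ
  have h6 : τ⁻¹ * σ ∈ MulAction.stabilizer (Gal(K/ℚ)) v.asIdeal := by
    rw [MulAction.mem_stabilizer_iff, mul_smul, h5, inv_smul_smul]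
  rw [h4, Subgroup.mem_bot, inv_mul_eq_one] at h6
  exact h6.symm

end

end Fermat.Agent.ExtVan
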