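import Fermat.Agent.ExtVan.Gal3
import Fermat.Agent.ExtVan.ThaineE2

set_option autoImplicit false
set_option linter.all false

open NumberField IsDedekindDomain
open scoped Pointwise

namespace Fermat.Agent.ExtVan

open Fermat.Agent.GaloisBasics Fermat.Agent.Inertia

local notation "Qb" => AlgebraicClosure ℚ
local notation "Zb" => integralClosure ℤ (AlgebraicClosure ℚ)
local notation "GQ" => (AlgebraicClosure ℚ ≃ₐ[ℚ] AlgebraicClosure ℚ)

variable {K L : Type} [Field K] [NumberField K] [Field L] [NumberField L] [Algebra K L]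
  [Algebra L Qb] [Algebra K Qb] [IsScalarTower K L Qb]

theorem exists_lift (σ : Gal(L/K)) : ∃ τ : GQ, ∀ x : L, τ (algebraMap L Qb x) = algebraMap L Qb (σ x) :=
  ⟨AlgEquiv.liftNormal (σ.restrictScalars ℚ) Qb, fun x =>
    AlgEquiv.liftNormal_commutes (σ.restrictScalars ℚ) Qb x⟩

/-- the image of `L` -/
noncomputable def imF (L : Type) [Field L] [NumberField L] [Algebra L Qb] : IntermediateField ℚ Qb :=
  (IsScalarTower.toAlgHom ℚ L Qb).fieldRange

theorem mem_imF {x : Qb} : x ∈ imF L ↔ ∃ y : L, algebraMap L Qb y = x := Iff.rfl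

theorem exists_rho_inertia (hstab : ∀ (g : GQ) (y : L), ∃ y' : L, g (algebraMap L Qb y) = algebraMap L Qb y')
    (P : HeightOneSpectrum (𝓞 L)) (V : ValuationSubring Qb)
    (hV : ∀ x : 𝓞 L, iot L x ∈ V.nonunits ↔ x ∈ P.asIdeal) (σ : Gal(L/K))
    (hσ : ∀ x : 𝓞 L, σ • x - x ∈ P.asIdeal) :
    ∃ ρ ∈ V.inertiaSubgroupIn ℚ, ∀ y : L, ρ (algebraMap L Qb y) = algebraMap L Qb (σ y) := by
  obtain ⟨τ, hτ⟩ := exists_lift (K := K) σ
  obtain ⟨ρ, hρ, hρ2⟩ := exists_inertia_lift (imF L) (by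
    rintro g x ⟨y, rfl⟩
    obtain ⟨y', hy'⟩ := hstab g y
    exact ⟨y', hy'.symm⟩) V τ (by
    rintro x ⟨y, hy⟩
    have hy2 : algebraMap L Qb y = (x : Qb) := hy
    obtain ⟨z, hz⟩ := exists_int_of (L := L) x.2 hy2
    have h1 := (hV (σ • z - z)).mpr (hσ z)
    rw [mem_idealOf]
    have h2 : ((τ • x - x : Zb) : Qb) = iot L (σ • z - z) := by
      have e1 : ((τ • x - x : Zb) : Qb) = τ (x : Qb) - (x : Qb) := rfl
      have e2 : iot L (σ • z - z) = algebraMap L Qb (σ (z : L)) - algebraMap L Qb (z : L) := by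
        rw [map_sub]; rfl
      rw [e1, e2, hz, ← hτ, hy2]
    rw [h2]
    exact h1)
  exact ⟨ρ, hρ, fun y => (hρ2 _ ⟨y, rfl⟩).trans (hτ y)⟩

theorem exists_rho_decomp (hstab : ∀ (g : GQ) (y : L), ∃ y' : L, g (algebraMap L Qb y) = algebraMap L Qb y')
    (P : HeightOneSpectrum (𝓞 L)) (V : ValuationSubring Qb)
    (hV : ∀ x : 𝓞 L, iot L x ∈ V.nonunits ↔ x ∈ P.asIdeal) (σ : Gal(L/K))
    (hσ : σ • P.asIdeal = P.asIdeal) :
    ∃ ρ ∈ V.decompositionSubgroup ℚ, ∀ y : L, ρ (algebraMap L Qb y) = algebraMap L Qb (σ y) := by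
  obtain ⟨τ, hτ⟩ := exists_lift (K := K) σ
  have hσ' : ∀ x : 𝓞 L, σ • x ∈ P.asIdeal ↔ x ∈ P.asIdeal := by
    intro x
    conv_lhs => rw [← hσ]
    exact Ideal.smul_mem_pointwise_smul_iff
  obtain ⟨ρ, hρ, hρ2⟩ := exists_decomposition_lift (imF L) (by
    rintro g x ⟨y, rfl⟩
    obtain ⟨y', hy'⟩ := hstab g y
    exact ⟨y', hy'.symm⟩) V τ (by
    rintro x ⟨y, hy⟩
    have hy2 : algebraMap L Qb y = (x : Qb) := hy
    obtain ⟨z, hz⟩ := exists_int_of (L := L) x.2 hy2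
    rw [mem_idealOf, mem_idealOf]
    have e1 : ((τ • x : Zb) : Qb) = iot L (σ • z) := by
      have e0 : ((τ • x : Zb) : Qb) = τ (x : Qb) := rfl
      have e2 : iot L (σ • z) = algebraMap L Qb (σ (z : L)) := rfl
      rw [e0, e2, hz, ← hτ, hy2]
    have e3 : (x : Qb) = iot L z := by rw [iot_apply, hz, hy2]
    rw [e1, e3, hV, hV]
    exact hσ' z)
  exact ⟨ρ, hρ, fun y => (hρ2 _ ⟨y, rfl⟩).trans (hτ y)⟩

end Fermat.Agent.ExtVan
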