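import Fermat.Agent.ExtVan.Split2

set_option autoImplicit false
set_option linter.all false

open NumberField IsDedekindDomain WithZero
open scoped Pointwise

namespace Fermat.Agent.ExtVan

variable {K L : Type} [Field K] [NumberField K] [Field L] [NumberField L] [Algebra K L]

theorem ram_one [IsGalois K L] (v : HeightOneSpectrum (𝓞 K)) (P : HeightOneSpectrum (𝓞 L))
    [P.asIdeal.LiesOver v.asIdeal]
    (hI : ∀ σ : Gal(L/K), (∀ x : 𝓞 L, σ • x - x ∈ P.asIdeal) → σ = 1) :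
    P.asIdeal.ramificationIdx (𝓞 K) = 1 := by
  haveI := v.isPrime
  haveI := P.isPrime
  haveI : v.asIdeal.IsMaximal := v.isMaximal
  haveI : Finite (𝓞 K ⧸ v.asIdeal) := Ideal.finiteQuotientOfFreeOfNeBot _ v.ne_bot
  haveI : Finite v.asIdeal.ResidueField :=
    Finite.of_surjective _ (Ideal.bijective_algebraMap_quotient_residueField v.asIdeal).surjective
  have h1 : Nat.card (P.asIdeal.inertia Gal(L/K)) = v.asIdeal.ramificationIdxIn (𝓞 L) :=
    Ideal.card_inertia_eq_ramificationIdxIn v.asIdeal P.asIdeal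
  have h2 : P.asIdeal.inertia Gal(L/K) = ⊥ := by
    rw [Subgroup.eq_bot_iff_forall]
    intro σ hσ
    exact hI σ hσ
  rw [h2, Subgroup.card_bot, Ideal.ramificationIdxIn_eq_ramificationIdx v.asIdeal P.asIdeal Gal(L/K)] at h1
  exact h1.symm

theorem intVal_above (v : HeightOneSpectrum (𝓞 K)) (P : HeightOneSpectrum (𝓞 L))
    [P.asIdeal.LiesOver v.asIdeal] (he : P.asIdeal.ramificationIdx (𝓞 K) = 1) (x : 𝓞 K) :
    P.intValuation (algebraMap (𝓞 K) (𝓞 L) x) = v.intValuation x := by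
  haveI := v.isPrime
  haveI := P.isPrime
  rw [← HeightOneSpectrum.intValuation_liesOver (A := 𝓞 K) (B := 𝓞 L) v P x,
    Ideal.ramificationIdx'_eq_ramificationIdx v.asIdeal P.asIdeal v.ne_bot, he, pow_one]

theorem dvd_nv [IsGalois K L] {p : ℕ} (hp : p ≠ 0) (α : 𝓞 K) (hα : α ≠ 0) (θ : 𝓞 L)
    (hθ : θ ^ p = algebraMap (𝓞 K) (𝓞 L) α)
    (hI : ∀ (P : HeightOneSpectrum (𝓞 L)) (σ : Gal(L/K)), (∀ x : 𝓞 L, σ • x - x ∈ P.asIdeal) → σ = 1)
    (v : HeightOneSpectrum (𝓞 K)) : p ∣ nv v α := by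
  obtain ⟨P, hP⟩ := exists_above (F := L) v
  have he := ram_one v P (hI P)
  have h1 := intVal_above v P he α
  have hθ0 : θ ≠ 0 := by
    rintro rfl
    rw [zero_pow hp] at hθ
    exact hα (FaithfulSMul.algebraMap_injective (𝓞 K) (𝓞 L) (by rw [← hθ, map_zero]))
  rw [← hθ, map_pow, intVal_eq P hθ0, intVal_eq v hα, ← exp_nsmul, exp_inj] at h1
  have h2 : p * nv P θ = nv v α := by
    have h3 : (p : ℤ) * nv P θ = nv v α := by
      simp only [nsmul_eq_mul, mul_neg, neg_inj] at h1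
      exact h1
    exact_mod_cast h3
  exact ⟨_, h2.symm⟩

theorem ideal_pth {R : Type*} [CommRing R] [IsDedekindDomain R] {p : ℕ} (hp : p ≠ 0) {x : R} (hx : x ≠ 0)
    (h : ∀ v : HeightOneSpectrum R, p ∣ nv v x) : ∃ I : Ideal R, Ideal.span {x} = I ^ p := by
  classical
  choose k hk using h
  have hx' : Ideal.span {x} ≠ 0 := by simpa using hx
  refine ⟨∏ᶠ v : HeightOneSpectrum R, v.asIdeal ^ (k v), ?_⟩
  have hfin : (Function.mulSupport (fun v : HeightOneSpectrum R => v.asIdeal ^ (k v))).Finite := by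
    apply (Ideal.finite_factors hx').subset
    intro v hv
    simp only [Set.mem_setOf_eq]
    rw [Function.mem_mulSupport] at hv
    have hk0 : k v ≠ 0 := by
      intro h0; rw [h0, pow_zero] at hv; exact hv rfl
    have h1 : nv v x ≠ 0 := by rw [hk]; exact mul_ne_zero hp hk0
    rw [Ideal.dvd_span_singleton]
    by_contra hnot
    apply h1
    have h2 := intVal_eq v hx
    rw [HeightOneSpectrum.intValuation_eq_one_iff.mpr hnot, ← exp_zero, exp_inj] at h2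
    have : (nv v x : ℤ) = 0 := by linarith
    exact_mod_cast this
  rw [finprod_pow hfin]
  conv_lhs => rw [← Ideal.finprod_heightOneSpectrum_factorization hx']
  apply finprod_congr
  intro v
  rw [HeightOneSpectrum.maxPowDividing, count_eq_nv v hx, hk v, mul_comm, pow_mul]

theorem local_pth [IsGalois K L] {p : ℕ} (u : 𝓞 K) (θ : 𝓞 L)
    (hθ : θ ^ p = algebraMap (𝓞 K) (𝓞 L) u) (v : HeightOneSpectrum (𝓞 K))
    (hD : ∀ (P : HeightOneSpectrum (𝓞 L)), P.asIdeal.LiesOver v.asIdeal →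
      ∀ (σ : Gal(L/K)), σ • P.asIdeal = P.asIdeal → σ = 1) :
    ∃ x : 𝓞 K, u - x ^ p ∈ v.asIdeal ^ 3 := by
  obtain ⟨P, hP⟩ := exists_above (F := L) v
  haveI := v.isPrime
  haveI := P.isPrime
  haveI : v.asIdeal.IsMaximal := v.isMaximal
  haveI : Finite (𝓞 K ⧸ v.asIdeal) := Ideal.finiteQuotientOfFreeOfNeBot _ v.ne_bot
  haveI : Finite v.asIdeal.ResidueField :=
    Finite.of_surjective _ (Ideal.bijective_algebraMap_quotient_residueField v.asIdeal).surjective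
  have h2 := Ideal.card_stabilizer_eq (G := Gal(L/K)) v.asIdeal P.asIdeal
  have h3 : MulAction.stabilizer (Gal(L/K)) P.asIdeal = ⊥ := by
    rw [Subgroup.eq_bot_iff_forall]
    intro τ hτ
    exact hD P hP τ hτ
  rw [h3, Subgroup.card_bot] at h2
  have hf : v.asIdeal.inertiaDegIn (𝓞 L) = 1 := Nat.eq_one_of_mul_eq_one_left h2.symm
  have he : v.asIdeal.ramificationIdxIn (𝓞 L) = 1 := Nat.eq_one_of_mul_eq_one_right h2.symm
  rw [Ideal.inertiaDegIn_eq_inertiaDeg v.asIdeal P.asIdeal Gal(L/K)] at hf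
  rw [Ideal.ramificationIdxIn_eq_ramificationIdx v.asIdeal P.asIdeal Gal(L/K)] at he
  have hN := Ideal.absNorm_pow_inertiaDeg v.asIdeal P.asIdeal
  rw [hf, pow_one] at hN
  -- membership in cubes
  have hmem : ∀ x : 𝓞 K, algebraMap (𝓞 K) (𝓞 L) x ∈ P.asIdeal ^ 3 ↔ x ∈ v.asIdeal ^ 3 := by
    intro x
    rw [← HeightOneSpectrum.intValuation_le_pow_iff_mem, ← HeightOneSpectrum.intValuation_le_pow_iff_mem,
      intVal_above v P he]
  -- surjectivity
  let f : (𝓞 K ⧸ v.asIdeal ^ 3) →+* (𝓞 L ⧸ P.asIdeal ^ 3) :=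
    Ideal.quotientMap (P.asIdeal ^ 3) (algebraMap (𝓞 K) (𝓞 L)) (fun x hx => (hmem x).mpr hx)
  have hinj : Function.Injective f :=
    Ideal.quotientMap_injective' (fun x hx => (hmem x).mp hx)
  have hv3 : v.asIdeal ^ 3 ≠ ⊥ := pow_ne_zero 3 v.ne_bot
  have hP3 : P.asIdeal ^ 3 ≠ ⊥ := pow_ne_zero 3 P.ne_bot
  haveI : Finite (𝓞 K ⧸ v.asIdeal ^ 3) := Ideal.finiteQuotientOfFreeOfNeBot _ hv3
  haveI : Finite (𝓞 L ⧸ P.asIdeal ^ 3) := Ideal.finiteQuotientOfFreeOfNeBot _ hP3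
  have hcard : Nat.card (𝓞 K ⧸ v.asIdeal ^ 3) = Nat.card (𝓞 L ⧸ P.asIdeal ^ 3) := by
    have e1 : Ideal.absNorm (v.asIdeal ^ 3) = Nat.card (𝓞 K ⧸ v.asIdeal ^ 3) := rfl
    have e2 : Ideal.absNorm (P.asIdeal ^ 3) = Nat.card (𝓞 L ⧸ P.asIdeal ^ 3) := rfl
    rw [← e1, ← e2, map_pow, map_pow, hN]
  have hsurj : Function.Surjective f :=
    ((Nat.bijective_iff_injective_and_card f).mpr ⟨hinj, hcard⟩).surjective
  obtain ⟨y, hy⟩ := hsurj (Ideal.Quotient.mk _ θ)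
  obtain ⟨x, rfl⟩ := Ideal.Quotient.mk_surjective y
  refine ⟨x, ?_⟩
  rw [← hmem, map_sub, map_pow, ← hθ]
  rw [Ideal.quotientMap_mk, Ideal.Quotient.eq] at hy
  have h5 : θ - algebraMap (𝓞 K) (𝓞 L) x ∈ P.asIdeal ^ 3 := by
    rw [← neg_sub]; exact (P.asIdeal ^ 3).neg_mem hy
  obtain ⟨q, hq⟩ := sub_dvd_pow_sub_pow θ (algebraMap (𝓞 K) (𝓞 L) x) p
  rw [hq]
  exact (P.asIdeal ^ 3).mul_mem_right _ h5

end Fermat.Agent.ExtVan
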