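import Fermat.Agent.ExtVan.UnitMain

set_option autoImplicit false
set_option linter.all false
set_option maxSynthPendingDepth 3

open Polynomial NumberField NumberField.Units
open scoped Pointwise

namespace Fermat.Agent.ExtVan

variable {K : Type} [Field K] [NumberField K] 
variable {p : ℕ} [Fact p.Prime] [IsCyclotomicExtension {p} ℚ K]

theorem one_add_isUnit (hp : 3 ≤ p) {z : 𝓞 K} (hz : IsPrimitiveRoot z p) : IsUnit (1 + z) := by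
  have hpP : p.Prime := Fact.out
  have h := hz.geom_sum_isUnit (j := 2) hpP.two_le
    ((Nat.coprime_primes Nat.prime_two hpP).mpr (by omega))
  simpa [Finset.sum_range_succ] using h

/-- `1 + ζ` as a unit -/
noncomputable def u1 (hp : 3 ≤ p) {z : 𝓞 K} (hz : IsPrimitiveRoot z p) : (𝓞 K)ˣ :=
  (one_add_isUnit hp hz).unit

/-- `E₂` as a unit -/
noncomputable def uE (hp : 3 ≤ p) {z : 𝓞 K} (hz : IsPrimitiveRoot z p) : (𝓞 K)ˣ :=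
  ∏ σ : Gal(K/ℚ), (uact σ⁻¹ (u1 hp hz)) ^ (cc hz σ)

theorem uE_coe (hp : 3 ≤ p) {z : 𝓞 K} (hz : IsPrimitiveRoot z p) :
    ((uE hp hz : (𝓞 K)ˣ) : 𝓞 K) = E2 (cc hz) z := by
  rw [uE, E2, Units.coe_prod]
  rfl

theorem cc_mul {z : 𝓞 K} (hz : IsPrimitiveRoot z p) (σ τ : Gal(K/ℚ)) :
    (cc hz (σ * τ) : ZMod p) = cc hz σ * cc hz τ := by
  rw [cc, cc, cc]
  push_cast
  rw [cy_mul]; ring

/-- coordinates mod p of a unit -/
noncomputable def rr {ι : Type*} (b : Module.Basis ι ℤ (MM K)) (p : ℕ) (u : (𝓞 K)ˣ) : ι → ZMod p :=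
  red b p (cl u)

theorem rr_mul {ι : Type*} (b : Module.Basis ι ℤ (MM K)) (p : ℕ) (u v : (𝓞 K)ˣ) :
    rr b p (u * v) = rr b p u + rr b p v := by
  rw [rr, rr, rr, cl_mul, map_add]

theorem rr_one {ι : Type*} (b : Module.Basis ι ℤ (MM K)) (p : ℕ) :
    rr b p (1 : (𝓞 K)ˣ) = 0 := by
  have : cl (1 : (𝓞 K)ˣ) = 0 := (cl_eq_zero 1).mpr (one_mem _)
  rw [rr, this, map_zero]

theorem rr_pow {ι : Type*} (b : Module.Basis ι ℤ (MM K)) (p : ℕ) (u : (𝓞 K)ˣ) (n : ℕ) :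
    rr b p (u ^ n) = (n : ZMod p) • rr b p u := by
  induction n with
  | zero => rw [pow_zero, rr_one]; simp
  | succ n ih => rw [pow_succ, rr_mul, ih]; push_cast; rw [add_smul, one_smul]

theorem rr_prod {ι α : Type*} (b : Module.Basis ι ℤ (MM K)) (p : ℕ) (s : Finset α)
    (f : α → (𝓞 K)ˣ) : rr b p (∏ i ∈ s, f i) = ∑ i ∈ s, rr b p (f i) := by
  classical
  induction s using Finset.induction_on with
  | empty => simp [rr_one]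
  | insert a s ha ih => rw [Finset.prod_insert ha, Finset.sum_insert ha, rr_mul, ih]

theorem rr_eigen {ι : Type*} (b : Module.Basis ι ℤ (MM K)) (hp : 3 ≤ p) {z : 𝓞 K}
    (hz : IsPrimitiveRoot z p) (σ₀ : Gal(K/ℚ)) :
    rr b p (uact σ₀ (uE hp hz)) = (cc hz σ₀ : ZMod p) • rr b p (uE hp hz) := by
  have h1 : uact σ₀ (uE hp hz) = ∏ τ : Gal(K/ℚ), (uact τ⁻¹ (u1 hp hz)) ^ (cc hz (τ * σ₀)) := by
    rw [uE, map_prod, ← Equiv.prod_comp (Equiv.mulRight σ₀)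
      (fun σ => (uact σ₀) ((uact σ⁻¹ (u1 hp hz)) ^ (cc hz σ)))]
    apply Finset.prod_congr rfl
    intro τ _
    rw [map_pow, Equiv.coe_mulRight, ← uact_mul]
    congr 2
    rw [mul_inv_rev, mul_inv_cancel_left]
  rw [h1, rr_prod, uE, rr_prod, Finset.smul_sum]
  apply Finset.sum_congr rfl
  intro τ _
  rw [rr_pow, rr_pow, cc_mul, smul_smul, mul_comm]

theorem l2_torsion (hp : 5 ≤ p) {z : 𝓞 K} (hz : IsPrimitiveRoot z p) (ρ : 𝓞 K →+* T3 (ZMod p))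
    (h1 : ρ z = T3.ex) (t : (𝓞 K)ˣ) (ht : t ∈ torsion K) : T3.l2 (ρ (t : 𝓞 K)) = 0 := by
  have hne2 : (2 : ZMod p) ≠ 0 := two_ne_zero_zmod p (by omega)
  have hex : T3.l2 (T3.ex : T3 (ZMod p)) = 0 := by
    simp only [T3.l2, T3.ex]
    rw [mul_inv_cancel₀ hne2]; norm_num
  have hexa : (T3.ex : T3 (ZMod p)).a ≠ 0 := one_ne_zero
  obtain ⟨r, hr⟩ := torsion_form (by omega : 3 ≤ p) hz t ht
  rcases hr with h | h
  · rw [h, map_pow, h1, T3.l2_pow _ hexa, hex, mul_zero]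
  · have h2 : ρ (t : 𝓞 K) = (-1) * T3.ex ^ r := by rw [h, map_neg, map_pow, h1, neg_one_mul]
    have h3 : (-1 : T3 (ZMod p)).a ≠ 0 := by
      rw [T3.neg_a, T3.one_a]; exact neg_ne_zero.mpr one_ne_zero
    have h4 : ((T3.ex : T3 (ZMod p)) ^ r).a ≠ 0 := by
      rw [← T3.aHom_apply, map_pow, T3.aHom_apply]; exact pow_ne_zero _ hexa
    rw [h2, T3.l2_mul _ _ h3 h4, T3.l2_pow _ hexa, hex, mul_zero, add_zero]
    simp [T3.l2]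

theorem rr_zero {ι : Type*} [Fintype ι] (b : Module.Basis ι ℤ (MM K)) (u : (𝓞 K)ˣ) (h : rr b p u = 0) :
    ∃ y t : (𝓞 K)ˣ, t ∈ torsion K ∧ u = y ^ p * t := by
  obtain ⟨y, hy⟩ := (red_eq_zero_iff b p (cl u)).mp h
  obtain ⟨y, rfl⟩ := cl_surj y
  refine ⟨y, (y ^ p)⁻¹ * u, ?_, by rw [mul_inv_cancel_left]⟩
  rw [← cl_eq_zero]
  have h1 : cl ((y ^ p)⁻¹ * u) = - (p • cl y) + cl u := rfl
  rw [h1, hy, neg_add_cancel]

/-- The unit theorem. -/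
theorem unit_pth (hp : 5 ≤ p) {z : 𝓞 K} (hz : IsPrimitiveRoot z p) {σ₀ : Gal(K/ℚ)}
    (hσ₀ : ∀ σ : Gal(K/ℚ), σ ∈ Subgroup.zpowers σ₀) (ρ : 𝓞 K →+* T3 (ZMod p))
    (h1 : ρ z = T3.ex)
    (h2 : ∀ (σ : Gal(K/ℚ)) (x : 𝓞 K), ρ (σ • x) = T3.psi (cy hz σ : ZMod p) (ρ x))
    (u w : (𝓞 K)ˣ) (h : uact σ₀ u = u ^ (cc hz σ₀) * w ^ p)
    (hl : T3.l2 (ρ (u : 𝓞 K)) = 0) : ∃ s : (𝓞 K)ˣ, u = s ^ p := by
  have hpP : p.Prime := Fact.out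
  have hp3 : 3 ≤ p := by omega
  have hodd : Odd p := hpP.odd_of_ne_two (by omega)
  set b := basisModTorsion K
  have hch := TT_charpoly hp3 hz hσ₀
  obtain ⟨hEa, hEl⟩ := l2_E2 hp hz ρ h1 h2
  rw [← uE_coe hp3 hz] at hEa hEl
  have hunit : ∀ v : (𝓞 K)ˣ, (ρ (v : 𝓞 K)).a ≠ 0 := fun v => rho_unit ρ v.isUnit
  have hl2mul : ∀ v v' : (𝓞 K)ˣ, T3.l2 (ρ ((v * v' : (𝓞 K)ˣ) : 𝓞 K)) =
      T3.l2 (ρ (v : 𝓞 K)) + T3.l2 (ρ (v' : 𝓞 K)) := by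
    intro v v'
    rw [Units.val_mul, map_mul, T3.l2_mul _ _ (hunit v) (hunit v')]
  have hl2pow : ∀ (v : (𝓞 K)ˣ) (n : ℕ), T3.l2 (ρ ((v ^ n : (𝓞 K)ˣ) : 𝓞 K)) =
      n * T3.l2 (ρ (v : 𝓞 K)) := by
    intro v n
    rw [Units.val_pow_eq_pow_val, map_pow, T3.l2_pow _ (hunit v)]
  have hl2pp : ∀ (v : (𝓞 K)ˣ), T3.l2 (ρ ((v ^ p : (𝓞 K)ˣ) : 𝓞 K)) = 0 := by
    intro v
    rw [hl2pow, CharP.cast_eq_zero, zero_mul]
  -- the class of `uE` is nonzero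
  have hE0 : rr b p (uE hp3 hz) ≠ 0 := by
    intro h0
    obtain ⟨y, t, ht, hyt⟩ := rr_zero b _ h0
    apply hEl
    rw [hyt, hl2mul, hl2pp, l2_torsion hp hz ρ h1 t ht, add_zero]
  have hTu : red b p (TT σ₀ (cl u)) = (cc hz σ₀ : ZMod p) • red b p (cl u) := by
    rw [TT_cl]
    show rr b p (uact σ₀ u) = (cc hz σ₀ : ZMod p) • rr b p u
    rw [h, rr_mul, rr_pow, rr_pow, CharP.cast_eq_zero (ZMod p) p, zero_smul, add_zero]
  have hn : ¬ p ∣ (p - 1) / 2 := by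
    intro hd
    have := Nat.le_of_dvd (by omega) hd
    omega
  obtain ⟨k, hk⟩ := eigen_unique b p ((p - 1) / 2) hn (TT σ₀) hch (cc hz σ₀) (cl (uE hp3 hz)) (cl u)
    (rr_eigen b hp3 hz σ₀) hTu hE0
  have hk' : rr b p u = (k : ZMod p) • rr b p (uE hp3 hz) := hk
  -- u = E^k y^p t
  have h3 : rr b p (((uE hp3 hz) ^ k)⁻¹ * u) = 0 := by
    have h4 : rr b p ((uE hp3 hz) ^ k * (((uE hp3 hz) ^ k)⁻¹ * u)) = rr b p u := by
      rw [mul_inv_cancel_left]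
    rw [rr_mul, rr_pow, hk'] at h4
    exact add_eq_left.mp h4
  obtain ⟨y, t, ht, hyt⟩ := rr_zero b _ h3
  have h4 : u = (uE hp3 hz) ^ k * (y ^ p * t) := by rw [← hyt, mul_inv_cancel_left]
  have h5 : (k : ZMod p) = 0 := by
    have h6 := hl
    rw [h4, hl2mul, hl2mul, hl2pp, l2_torsion hp hz ρ h1 t ht, hl2pow, add_zero, add_zero] at h6
    exact (mul_eq_zero.mp h6).resolve_right hEl
  have h0u : rr b p u = 0 := by rw [hk', h5, zero_smul]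
  obtain ⟨y, t, ht, hyt⟩ := rr_zero b u h0u
  -- now the torsion part
  have h6 : uact σ₀ t = t ^ (cc hz σ₀) * (y ^ (cc hz σ₀) * w * (uact σ₀ y)⁻¹) ^ p := by
    have h7 : t = (y ^ p)⁻¹ * u := by rw [hyt, inv_mul_cancel_left]
    rw [h7, map_mul, h, map_inv, map_pow]
    rw [mul_pow, mul_pow, mul_pow, inv_pow, inv_pow, ← pow_mul, ← pow_mul, mul_comm p (cc hz σ₀)]
    have : ((y ^ (cc hz σ₀ * p))⁻¹ * u ^ cc hz σ₀ * (y ^ (cc hz σ₀ * p) * w ^ p * ((uact σ₀) y ^ p)⁻¹)) =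
      (y ^ (cc hz σ₀ * p))⁻¹ * y ^ (cc hz σ₀ * p) * (u ^ cc hz σ₀ * w ^ p * ((uact σ₀) y ^ p)⁻¹) := by
      ac_rfl
    rw [this, inv_mul_cancel, one_mul, mul_comm]
  obtain ⟨s, hs⟩ := torsion_pth hp3 hz hσ₀ t _ ht h6
  exact ⟨y * s, by rw [hyt, hs, mul_pow]⟩

end Fermat.Agent.ExtVan
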