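import Fermat.Agent.ExtVan.Gal5
import Fermat.Agent.ExtVan.UnitFinal

set_option autoImplicit false
set_option linter.all false
set_option maxSynthPendingDepth 3

open NumberField IsDedekindDomain WithZero NumberField.Units
open scoped Pointwise nonZeroDivisors

namespace Fermat.Agent.ExtVan

variable {K : Type} [Field K] [NumberField K] {p : ℕ} [Fact p.Prime]
  [IsCyclotomicExtension {p} ℚ K]

theorem ideal_pow_inj {R : Type*} [CommRing R] [IsDedekindDomain R] {n : ℕ} (hn : n ≠ 0)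
    {I J : Ideal R} (h : I ^ n = J ^ n) : I = J := by
  have h1 : I ∣ J := (UniqueFactorizationMonoid.pow_dvd_pow_iff_dvd hn).mp (dvd_of_eq h)
  have h2 : J ∣ I := (UniqueFactorizationMonoid.pow_dvd_pow_iff_dvd hn).mp (dvd_of_eq h.symm)
  exact dvd_antisymm h1 h2

theorem extract_unit {z : 𝓞 K} (hz : IsPrimitiveRoot z p) {σ₀ : Gal(K/ℚ)} (m : ℕ)
    (hcl : ∀ a : ClassGroup (𝓞 K), a ^ p = 1 → clsAct σ₀ a = a ^ m → a = 1)
    (α : 𝓞 K) (hα : α ≠ 0) (y : K) (hy : σ₀ (α : K) = (α : K) ^ m * y ^ p)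
    (hdvd : ∀ v : HeightOneSpectrum (𝓞 K), p ∣ nv v α) :
    ∃ (u w : (𝓞 K)ˣ) (y₁ : 𝓞 K), y₁ ≠ 0 ∧ α = u * y₁ ^ p ∧ uact σ₀ u = u ^ m * w ^ p := by
  have hpP : p.Prime := Fact.out
  obtain ⟨I, hI⟩ := ideal_pth hpP.ne_zero hα hdvd
  have hI0 : I ≠ 0 := by
    rintro rfl
    rw [zero_pow hpP.ne_zero] at hI
    exact hα (by simpa using hI)
  have hImem : I ∈ (Ideal (𝓞 K))⁰ := mem_nonZeroDivisors_of_ne_zero hI0
  have hy0 : y ≠ 0 := by
    rintro rfl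
    rw [zero_pow hpP.ne_zero, mul_zero] at hy
    have : (α : K) = 0 := (map_eq_zero σ₀).mp hy
    exact hα (RingOfIntegers.ext this)
  -- the class of I
  have ha1 : (ClassGroup.mk0 ⟨I, hImem⟩) ^ p = 1 := by
    rw [← map_pow]
    have h0 : (⟨I, hImem⟩ : (Ideal (𝓞 K))⁰) ^ p = ⟨Ideal.span {α}, by
        rw [hI]; exact pow_mem hImem p⟩ := Subtype.ext hI.symm
    rw [h0, ClassGroup.mk0_eq_one_iff]
    exact ⟨⟨α, rfl⟩⟩
  obtain ⟨c, d, hd0, hcd⟩ := IsFractionRing.div_surjective (A := 𝓞 K) y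
  have hd : d ≠ 0 := nonZeroDivisors.ne_zero hd0
  have hdK : (d : K) ≠ 0 := by
    intro h; exact hd (RingOfIntegers.ext h)
  have hc : c ≠ 0 := by
    rintro rfl
    rw [map_zero, zero_div] at hcd
    exact hy0 hcd.symm
  have hrel : d ^ p * (σ₀ • α) = α ^ m * c ^ p := by
    apply RingOfIntegers.ext
    show (d : K) ^ p * σ₀ (α : K) = (α : K) ^ m * (c : K) ^ p
    rw [hy, ← hcd, div_pow]
    have : (algebraMap (𝓞 K) K) d ≠ 0 := hdK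
    field_simp
  have ha2 : clsAct σ₀ (ClassGroup.mk0 ⟨I, hImem⟩) = (ClassGroup.mk0 ⟨I, hImem⟩) ^ m := by
    rw [clsAct_mk0, ← map_pow, ClassGroup.mk0_eq_mk0_iff]
    refine ⟨d, c, hd, hc, ?_⟩
    show Ideal.span {d} * σ₀ • I = Ideal.span {c} * I ^ m
    apply ideal_pow_inj hpP.ne_zero
    rw [mul_pow, mul_pow, ← smul_pow', ← hI, smul_span, Ideal.span_singleton_pow,
      Ideal.span_singleton_pow, Ideal.span_singleton_mul_span_singleton, ← pow_mul, mul_comm m p,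
      pow_mul, ← hI, Ideal.span_singleton_pow, Ideal.span_singleton_mul_span_singleton, hrel, mul_comm]
  have ha := hcl _ ha1 ha2
  rw [ClassGroup.mk0_eq_one_iff] at ha
  obtain ⟨⟨y₁, hy₁⟩⟩ := ha
  have hy₁' : I = Ideal.span {y₁} := hy₁
  have hy₁0 : y₁ ≠ 0 := by
    rintro rfl
    apply hI0
    rw [hy₁']; simp
  rw [hy₁', Ideal.span_singleton_pow, Ideal.span_singleton_eq_span_singleton] at hI
  obtain ⟨u, hu⟩ := hI.symm
  have hαu : α = u * y₁ ^ p := by rw [← hu, mul_comm]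
  -- the unit w
  set w₀ : K := (y₁ : K) ^ m * y / σ₀ (y₁ : K) with hw₀
  have hσy₁ : σ₀ (y₁ : K) ≠ 0 := by
    intro h
    exact hy₁0 (RingOfIntegers.ext ((map_eq_zero σ₀).mp h))
  have huK : ((u : 𝓞 K) : K) ≠ 0 := NumberField.Units.coe_ne_zero u
  have hwp : w₀ ^ p * ((u : 𝓞 K) : K) ^ m = σ₀ ((u : 𝓞 K) : K) := by
    have h1 : σ₀ (α : K) = σ₀ ((u : 𝓞 K) : K) * (σ₀ (y₁ : K)) ^ p := by
      rw [← map_pow, ← map_mul, hαu]; rfl
    have h2 : (α : K) = ((u : 𝓞 K) : K) * (y₁ : K) ^ p := by rw [hαu]; rfl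
    rw [h1, h2] at hy
    rw [hw₀, div_pow, mul_pow]
    field_simp
    linear_combination -hy
  have hwint : IsIntegral ℤ w₀ := by
    apply IsIntegral.of_pow hpP.pos
    have h1 : w₀ ^ p = (((uact σ₀ u * (u ^ m)⁻¹ : (𝓞 K)ˣ) : 𝓞 K) : K) := by
      have h2 : (((uact σ₀ u * (u ^ m)⁻¹ : (𝓞 K)ˣ) : 𝓞 K) : K) * ((u : 𝓞 K) : K) ^ m = σ₀ ((u : 𝓞 K) : K) := by
        have h3 : (uact σ₀ u * (u ^ m)⁻¹) * u ^ m = uact σ₀ u := by group
        exact congrArg (fun v : (𝓞 K)ˣ => ((v : 𝓞 K) : K)) h3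
      exact mul_right_cancel₀ (pow_ne_zero m huK) (hwp.trans h2.symm)
    rw [h1]
    exact RingOfIntegers.isIntegral_coe _
  set w₁ : 𝓞 K := ⟨w₀, hwint⟩
  have hw₁p : w₁ ^ p = ((uact σ₀ u * (u ^ m)⁻¹ : (𝓞 K)ˣ) : 𝓞 K) := by
    apply RingOfIntegers.ext
    show w₀ ^ p = _
    have h2 : (((uact σ₀ u * (u ^ m)⁻¹ : (𝓞 K)ˣ) : 𝓞 K) : K) * ((u : 𝓞 K) : K) ^ m = σ₀ ((u : 𝓞 K) : K) := by
      have h3 : (uact σ₀ u * (u ^ m)⁻¹) * u ^ m = uact σ₀ u := by group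
      exact congrArg (fun v : (𝓞 K)ˣ => ((v : 𝓞 K) : K)) h3
    exact mul_right_cancel₀ (pow_ne_zero m huK) (hwp.trans h2.symm)
  have hw₁u : IsUnit w₁ := by
    have : IsUnit (w₁ ^ p) := by rw [hw₁p]; exact Units.isUnit _
    exact (isUnit_pow_iff hpP.ne_zero).mp this
  refine ⟨u, hw₁u.unit, y₁, hy₁0, hαu, ?_⟩
  have h4 : hw₁u.unit ^ p = uact σ₀ u * (u ^ m)⁻¹ := by
    apply Units.ext
    rw [Units.val_pow_eq_pow_val, IsUnit.unit_spec]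
    exact hw₁p
  rw [h4]
  have : u ^ m * (uact σ₀ u * (u ^ m)⁻¹) = u ^ m * (u ^ m)⁻¹ * uact σ₀ u := by ac_rfl
  rw [this, mul_inv_cancel, one_mul]

end Fermat.Agent.ExtVan
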