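import Fermat.Agent.ExtVan.Gal6
import Fermat.Agent.ExtVan.Gal4

set_option autoImplicit false
set_option linter.all false
set_option maxSynthPendingDepth 3

open NumberField IsDedekindDomain WithZero NumberField.Units
open scoped Pointwise nonZeroDivisors

namespace Fermat.Agent.ExtVan

section final

variable {K : Type} [Field K] [NumberField K] {p : ℕ} [Fact p.Prime]
  [IsCyclotomicExtension {p} ℚ K]

theorem three_or_five (hp : 3 ≤ p) : p = 3 ∨ 5 ≤ p := by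
  have hpP : p.Prime := Fact.out
  by_cases h : 5 ≤ p
  · exact Or.inr h
  · left
    have : p ≠ 4 := by rintro rfl; revert hpP; decide
    omega

theorem final_unit (hp : 3 ≤ p) {z : 𝓞 K} (hz : IsPrimitiveRoot z p) {σ₀ : Gal(K/ℚ)}
    (hσ₀ : ∀ σ : Gal(K/ℚ), σ ∈ Subgroup.zpowers σ₀)
    (u w : (𝓞 K)ˣ) (h : uact σ₀ u = u ^ (cc hz σ₀) * w ^ p)
    (hloc : ∃ x : 𝓞 K, (u : 𝓞 K) - x ^ p ∈ Ideal.span {z - 1} ^ 3) :
    ∃ s : (𝓞 K)ˣ, u = s ^ p := by
  rcases three_or_five hp with h3 | h5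
  · -- all units are torsion
    have h0 : Module.finrank ℤ (MM K) = 0 := by rw [rank_eq hp, h3]
    haveI : Subsingleton (MM K) := Module.finrank_zero_iff.mp h0
    have ht : u ∈ torsion K := (cl_eq_zero u).mp (Subsingleton.elim _ _)
    exact torsion_pth hp hz hσ₀ u w ht h
  · obtain ⟨ρ, h1, h2⟩ := exists_rho p h5 hz
    obtain ⟨x, hx⟩ := hloc
    have h3 := rho_kill ρ h1 hx
    rw [map_sub, map_pow, sub_eq_zero] at h3
    exact unit_pth h5 hz hσ₀ ρ h1 h2 u w h (l2_pth ρ _ x h3 (rho_unit ρ u.isUnit))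

theorem final_cls (hp : 3 ≤ p) {z : 𝓞 K} (hz : IsPrimitiveRoot z p) {σ₀ : Gal(K/ℚ)}
    (hσ₀ : ∀ σ : Gal(K/ℚ), σ ∈ Subgroup.zpowers σ₀) (a : ClassGroup (𝓞 K)) (ha : a ^ p = 1)
    (hσa : clsAct σ₀ a = a ^ (cc hz σ₀)) : a = 1 := by
  rcases three_or_five hp with h3 | h5
  · subst h3
    haveI : IsPrincipalIdealRing (𝓞 K) := IsCyclotomicExtension.Rat.three_pid K
    obtain ⟨I, rfl⟩ := ClassGroup.mk0_surjective a
    rw [ClassGroup.mk0_eq_one_iff]
    exact IsPrincipalIdealRing.principal _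
  · apply cls_trivial p hp hz (cc hz) (fun b => E2_not_pth h5 hz b) σ₀ hσ₀ _ a ha hσa
    intro k
    rw [← ZMod.natCast_eq_natCast_iff]
    rw [cc, cc]
    push_cast
    rw [cy_pow, ← pow_mul, ← pow_mul, mul_comm]

/-- The prime above `p`. -/
theorem exists_vp {z : 𝓞 K} (hz : IsPrimitiveRoot z p) :
    ∃ v : HeightOneSpectrum (𝓞 K), v.asIdeal = Ideal.span {z - 1} ∧ (p : 𝓞 K) ∈ v.asIdeal := by
  have hpP : p.Prime := Fact.out
  haveI : NeZero p := ⟨hpP.ne_zero⟩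
  have hz' : IsPrimitiveRoot (z : K) p := hz.map_of_injective (FaithfulSMul.algebraMap_injective _ _)
  have h1 := hz'.zeta_sub_one_prime'
  have h2 : hz'.toInteger = z := RingOfIntegers.ext rfl
  rw [h2] at h1
  refine ⟨⟨Ideal.span {z - 1}, (Ideal.span_singleton_prime h1.ne_zero).mpr h1, by simpa using h1.ne_zero⟩,
    rfl, ?_⟩
  have h3 := prime_mem_of_root hpP hz.pow_eq_one (hz.ne_one hpP.one_lt) (Ideal.span {z - 1})
    (Ideal.mem_span_singleton_self _)
  exact h3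

end final

end Fermat.Agent.ExtVan
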