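import Fermat.Agent.ExtVan.Gal7

set_option autoImplicit false
set_option linter.all false
set_option maxSynthPendingDepth 3

open NumberField IsDedekindDomain WithZero NumberField.Units
open scoped Pointwise nonZeroDivisors

namespace Fermat.Agent.ExtVan

open Fermat.Agent.GaloisBasics Fermat.Agent.Inertia

local notation "Qb" => AlgebraicClosure ℚ
local notation "Zb" => integralClosure ℤ (AlgebraicClosure ℚ)
local notation "GQ" => (AlgebraicClosure ℚ ≃ₐ[ℚ] AlgebraicClosure ℚ)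

variable {K : Type} [Field K] [NumberField K] [Algebra K Qb]

theorem mapsto_adjoin (g : GQ) (hg : ∀ x : K, ∃ x' : K, g (algebraMap K Qb x) = algebraMap K Qb x')
    (θ : Qb) (hθ : g θ ∈ IntermediateField.adjoin K {θ}) :
    ∀ y ∈ IntermediateField.adjoin K {θ}, g y ∈ IntermediateField.adjoin K {θ} := by
  intro y hy
  induction hy using IntermediateField.adjoin_induction with
  | mem x hx =>
    rw [Set.mem_singleton_iff] at hx
    rw [hx]; exact hθ
  | algebraMap x =>
    obtain ⟨x', hx'⟩ := hg x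
    rw [hx']
    exact IntermediateField.algebraMap_mem _ x'
  | add x y hx hy h1 h2 => rw [map_add]; exact add_mem h1 h2
  | inv x hx h1 => rw [map_inv₀]; exact inv_mem h1
  | mul x y hx hy h1 h2 => rw [map_mul]; exact mul_mem h1 h2

variable {p : ℕ} [Fact p.Prime]

theorem root_of_pow_eq {z : 𝓞 K} (hz : IsPrimitiveRoot z p) {x y : Qb} (hy : y ≠ 0)
    (h : x ^ p = y ^ p) : ∃ j : ℕ, x = algebraMap K Qb ((z : K) ^ j) * y := by
  have hpP : p.Prime := Fact.out
  haveI : NeZero p := ⟨hpP.ne_zero⟩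
  have hz1 : IsPrimitiveRoot (z : K) p := hz.map_of_injective (FaithfulSMul.algebraMap_injective _ _)
  have hz2 : IsPrimitiveRoot (algebraMap K Qb (z : K)) p :=
    hz1.map_of_injective (algebraMap K Qb).injective
  have h1 : (x / y) ^ p = 1 := by
    rw [div_pow, h, div_self (pow_ne_zero _ hy)]
  obtain ⟨j, -, hj⟩ := hz2.eq_pow_of_pow_eq_one h1
  exact ⟨j, by rw [map_pow, hj, div_mul_cancel₀ _ hy]⟩

theorem adjoin_normal {z : 𝓞 K} (hz : IsPrimitiveRoot z p) (θ : Qb) (hθ0 : θ ≠ 0) (α : K)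
    (hα : θ ^ p = algebraMap K Qb α) : Normal K (IntermediateField.adjoin K {θ}) := by
  haveI : Normal K Qb := Normal.tower_top_of_normal ℚ K Qb
  rw [IntermediateField.normal_iff_forall_map_le (L := Qb)]
  intro σ
  rw [IntermediateField.adjoin_map, IntermediateField.adjoin_le_iff]
  rintro _ ⟨x, hx, rfl⟩
  rw [Set.mem_singleton_iff] at hx
  subst hx
  have h1 : (σ x) ^ p = x ^ p := by
    rw [← map_pow, hα]
    exact σ.commutes α
  obtain ⟨j, hj⟩ := root_of_pow_eq hz hθ0 h1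
  show σ x ∈ IntermediateField.adjoin K {x}
  rw [hj]
  exact mul_mem (IntermediateField.algebraMap_mem _ _) (IntermediateField.mem_adjoin_simple_self K x)

theorem stab_L [IsCyclotomicExtension {p} ℚ K] {z : 𝓞 K} (hz : IsPrimitiveRoot z p) {σ₀ : Gal(K/ℚ)}
    (hσ₀ : ∀ σ : Gal(K/ℚ), σ ∈ Subgroup.zpowers σ₀) (δ : GQ)
    (hδ : ∀ x : K, δ (algebraMap K Qb x) = algebraMap K Qb (σ₀ x))
    (θ : Qb) (hθ0 : θ ≠ 0) (α : K) (hα : θ ^ p = algebraMap K Qb α) (m : ℕ) (y₀ : K)
    (hδθ : δ θ = θ ^ m * algebraMap K Qb y₀) (g : GQ) :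
    ∀ y ∈ IntermediateField.adjoin K {θ}, g y ∈ IntermediateField.adjoin K {θ} := by
  have hpP : p.Prime := Fact.out
  haveI : NeZero p := ⟨hpP.ne_zero⟩
  haveI : IsGalois ℚ K := IsCyclotomicExtension.isGalois {p} ℚ K
  have hθmem := IntermediateField.mem_adjoin_simple_self K θ
  have h1 : ∀ y ∈ IntermediateField.adjoin K {θ}, δ y ∈ IntermediateField.adjoin K {θ} := by
    apply mapsto_adjoin δ (fun x => ⟨_, hδ x⟩)
    rw [hδθ]
    exact mul_mem (pow_mem hθmem m) (IntermediateField.algebraMap_mem _ _)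
  have h2 : ∀ k : ℕ, ∀ y ∈ IntermediateField.adjoin K {θ}, (δ ^ k : GQ) y ∈ IntermediateField.adjoin K {θ} := by
    intro k
    induction k with
    | zero => intro y hy; simpa using hy
    | succ k ih =>
      intro y hy
      rw [pow_succ, AlgEquiv.mul_apply]
      exact ih _ (h1 y hy)
  have hδk : ∀ (k : ℕ) (x : K), (δ ^ k : GQ) (algebraMap K Qb x) = algebraMap K Qb ((σ₀ ^ k : Gal(K/ℚ)) x) := by
    intro k
    induction k with
    | zero => intro x; simp
    | succ k ih => intro x; rw [pow_succ, pow_succ, AlgEquiv.mul_apply, AlgEquiv.mul_apply, hδ, ih]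
  have hgK : ∀ x : K, g (algebraMap K Qb x) = algebraMap K Qb (g.restrictNormal K x) :=
    fun x => (AlgEquiv.restrictNormal_commutes g K x).symm
  obtain ⟨k, hk⟩ := (mem_powers_iff_mem_zpowers.mpr (hσ₀ (g.restrictNormal K)))
  simp only at hk
  set n : GQ := (δ ^ k)⁻¹ * g with hn
  have hgn : g = δ ^ k * n := by rw [hn, mul_inv_cancel_left]
  have hnK : ∀ x : K, n (algebraMap K Qb x) = algebraMap K Qb x := by
    intro x
    rw [hn, AlgEquiv.mul_apply, hgK, ← hk, ← hδk]
    exact AlgEquiv.symm_apply_apply (δ ^ k) _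
  have h3 : ∀ y ∈ IntermediateField.adjoin K {θ}, n y ∈ IntermediateField.adjoin K {θ} := by
    apply mapsto_adjoin n (fun x => ⟨x, hnK x⟩)
    have h4 : (n θ) ^ p = θ ^ p := by rw [← map_pow, hα, hnK]
    obtain ⟨j, hj⟩ := root_of_pow_eq hz hθ0 h4
    rw [hj]
    exact mul_mem (IntermediateField.algebraMap_mem _ _) hθmem
  intro y hy
  rw [hgn, AlgEquiv.mul_apply]
  exact h2 k _ (h3 y hy)

end Fermat.Agent.ExtVan
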