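import Fermat.Agent.ExtVan.Gal8

set_option autoImplicit false
set_option linter.all false
set_option maxSynthPendingDepth 3

open NumberField IsDedekindDomain WithZero NumberField.Units
open scoped Pointwise nonZeroDivisors

namespace Fermat.Agent.ExtVan

open Fermat.Agent.GaloisBasics Fermat.Agent.Inertia

local notation "Qb" => AlgebraicClosure ℚ
local notation "Zb" => integralClosure ℤ (AlgebraicClosure ℚ)
local notation "GQ" => (AlgebraicClosure ℚ ≃ₐ[ℚ] AlgebraicClosure ℚ)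

/-- Triviality of the inertia groups and of the decomposition groups above `p`. -/
theorem groups_trivial {K L : Type} [Field K] [NumberField K] [Algebra K Qb] [Field L] [NumberField L]
    [Algebra K L] [Algebra L Qb] [IsScalarTower K L Qb]
    {p : ℕ} (hp : p.Prime) (θ : Qb) (θL : L) (hθL : algebraMap L Qb θL = θ)
    (hgen : ∀ σ : Gal(L/K), σ θL = θL → σ = 1)
    (hstab : ∀ (g : GQ) (y : L), ∃ y' : L, g (algebraMap L Qb y) = algebraMap L Qb y')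
    (hI : ∀ ℓ : ℕ, ℓ.Prime → ℓ ≠ p → ∀ V : ValuationSubring Qb, V.LiesOverPrime ℓ →
      ∀ ρ ∈ V.inertiaSubgroupIn ℚ, (∀ x : K, ρ (algebraMap K Qb x) = algebraMap K Qb x) → ρ θ = θ)
    (hD : ∀ V : ValuationSubring Qb, V.LiesOverPrime p →
      ∀ ρ ∈ V.decompositionSubgroup ℚ, (∀ x : K, ρ (algebraMap K Qb x) = algebraMap K Qb x) → ρ θ = θ) :
    (∀ (P : HeightOneSpectrum (𝓞 L)) (σ : Gal(L/K)), (∀ x : 𝓞 L, σ • x - x ∈ P.asIdeal) → σ = 1) ∧
    (∀ (P : HeightOneSpectrum (𝓞 L)), (p : 𝓞 L) ∈ P.asIdeal →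
      ∀ (σ : Gal(L/K)), σ • P.asIdeal = P.asIdeal → σ = 1) := by
  have hfin : ∀ (σ : Gal(L/K)) (ρ : GQ), (∀ y : L, ρ (algebraMap L Qb y) = algebraMap L Qb (σ y)) →
      ((∀ x : K, ρ (algebraMap K Qb x) = algebraMap K Qb x) → ρ θ = θ) → σ = 1 := by
    intro σ ρ hρ h
    apply hgen
    apply (algebraMap L Qb).injective
    rw [← hρ, hθL]
    apply h
    intro x
    rw [IsScalarTower.algebraMap_apply K L Qb, hρ, σ.commutes]
  have hVp : ∀ (P : HeightOneSpectrum (𝓞 L)) (V : ValuationSubring Qb),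
      (∀ x : 𝓞 L, iot L x ∈ V.nonunits ↔ x ∈ P.asIdeal) → ∀ q : ℕ, (q : 𝓞 L) ∈ P.asIdeal →
      V.LiesOverPrime q := by
    intro P V hV q hq
    have h1 := (hV (q : 𝓞 L)).mpr hq
    rw [map_natCast] at h1
    exact h1
  have hD' : ∀ (P : HeightOneSpectrum (𝓞 L)), (p : 𝓞 L) ∈ P.asIdeal →
      ∀ (σ : Gal(L/K)), σ • P.asIdeal = P.asIdeal → σ = 1 := by
    intro P hP σ hσ
    obtain ⟨V, hV⟩ := exists_V (L := L) P
    obtain ⟨ρ, hρ, hρ2⟩ := exists_rho_decomp (K := K) hstab P V hV σ hσ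
    exact hfin σ ρ hρ2 (hD V (hVp P V hV p hP) ρ hρ)
  refine ⟨?_, hD'⟩
  intro P σ hσ
  obtain ⟨f, -, -, hmem⟩ := rp_spec P
  by_cases hq : rp P = p
  · apply hD' P (by rw [← hq]; exact hmem) σ
    have h1 : σ ∈ P.asIdeal.inertia (Gal(L/K)) := hσ
    exact Ideal.inertia_le_stabilizer P.asIdeal h1
  · obtain ⟨V, hV⟩ := exists_V (L := L) P
    obtain ⟨ρ, hρ, hρ2⟩ := exists_rho_inertia (K := K) hstab P V hV σ hσ
    exact hfin σ ρ hρ2 (hI (rp P) (rp_prime P) hq V (hVp P V hV _ hmem) ρ hρ)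

theorem theta_mem {K : Type} [Field K] [NumberField K] [Algebra K Qb] {p : ℕ} [Fact p.Prime]
    [IsCyclotomicExtension {p} ℚ K] (hp : 3 ≤ p)
    {z : 𝓞 K} (hz : IsPrimitiveRoot z p) {σ₀ : Gal(K/ℚ)}
    (hσ₀ : ∀ σ : Gal(K/ℚ), σ ∈ Subgroup.zpowers σ₀) (δ : GQ)
    (hδ : ∀ x : K, δ (algebraMap K Qb x) = algebraMap K Qb (σ₀ x))
    (θ : Qb) (hθ0 : θ ≠ 0) (hθint : IsIntegral ℤ θ) (α : 𝓞 K) (hα : θ ^ p = algebraMap K Qb α) 
    (y₀ : K) (hδθ : δ θ = θ ^ (cc hz σ₀) * algebraMap K Qb y₀)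
    (hI : ∀ ℓ : ℕ, ℓ.Prime → ℓ ≠ p → ∀ V : ValuationSubring Qb, V.LiesOverPrime ℓ →
      ∀ ρ ∈ V.inertiaSubgroupIn ℚ, (∀ x : K, ρ (algebraMap K Qb x) = algebraMap K Qb x) → ρ θ = θ)
    (hD : ∀ V : ValuationSubring Qb, V.LiesOverPrime p →
      ∀ ρ ∈ V.decompositionSubgroup ℚ, (∀ x : K, ρ (algebraMap K Qb x) = algebraMap K Qb x) → ρ θ = θ) :
    ∃ x : K, algebraMap K Qb x = θ := by
  have hpP : p.Prime := Fact.out
  haveI : NeZero p := ⟨hpP.ne_zero⟩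
  set L := IntermediateField.adjoin K {θ} with hL
  have hθintK : IsIntegral K θ := hθint.tower_top
  haveI : FiniteDimensional K L := IntermediateField.adjoin.finiteDimensional hθintK
  haveI : NumberField L := NumberField.of_module_finite K L
  haveI : Normal K L := adjoin_normal hz θ hθ0 α hα
  haveI : IsGalois K L := {}
  set θL : L := ⟨θ, IntermediateField.mem_adjoin_simple_self K θ⟩ with hθL
  have hθL' : algebraMap L Qb θL = θ := rfl
  have hgen : ∀ σ : Gal(L/K), σ θL = θL → σ = 1 := by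
    intro σ hσ
    apply AlgEquiv.coe_algHom_injective
    apply IntermediateField.algHom_ext_of_eq_adjoin K (hL)
    intro x hx
    have hx' := Set.mem_singleton_iff.mp hx
    subst hx'
    exact hσ
  have hstab : ∀ (g : GQ) (y : L), ∃ y' : L, g (algebraMap L Qb y) = algebraMap L Qb y' := by
    intro g y
    exact ⟨⟨g (y : Qb), stab_L hz hσ₀ δ hδ θ hθ0 α hα _ y₀ hδθ g y y.2⟩, rfl⟩
  obtain ⟨hI', hD'⟩ := groups_trivial (K := K) (L := L) hpP θ θL hθL' hgen hstab hI hD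
  -- integral version of θ
  obtain ⟨θ', hθ'⟩ := exists_int_of (L := L) hθint hθL'
  have hθ'p : θ' ^ p = algebraMap (𝓞 K) (𝓞 L) α := by
    apply RingOfIntegers.ext
    apply (algebraMap L Qb).injective
    have e1 : algebraMap L Qb ((θ' ^ p : 𝓞 L) : L) = θ ^ p := by
      have e2 : ((θ' ^ p : 𝓞 L) : L) = (θ' : L) ^ p := rfl
      rw [e2, hθ', map_pow, hθL']
    rw [e1, hα]
    have e3 : ((algebraMap (𝓞 K) (𝓞 L) α : 𝓞 L) : L) = algebraMap K L (α : K) := rfl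
    rw [e3, ← IsScalarTower.algebraMap_apply K L Qb]
  have hα0 : α ≠ 0 := by
    rintro rfl
    have : θ ^ p = 0 := by rw [hα]; exact map_zero (algebraMap K Qb)
    exact hθ0 (pow_eq_zero_iff hpP.ne_zero |>.mp this)
  have hdvd : ∀ v : HeightOneSpectrum (𝓞 K), p ∣ nv v α :=
    dvd_nv hpP.ne_zero α hα0 θ' hθ'p hI'
  have hσα : σ₀ (α : K) = (α : K) ^ (cc hz σ₀) * y₀ ^ p := by
    apply (algebraMap K Qb).injective
    rw [← hδ, ← hα, map_pow, hδθ, map_mul, map_pow, map_pow, ← hα]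
    ring
  obtain ⟨u, w, y₁, hy₁, hαu, huw⟩ := extract_unit hz (cc hz σ₀) (final_cls hp hz hσ₀) α hα0 y₀ hσα hdvd
  -- local condition
  have hy₁Q : algebraMap K Qb (y₁ : K) ≠ 0 := by
    rw [Ne, map_eq_zero]
    intro h; exact hy₁ (RingOfIntegers.ext h)
  set θ₁ : Qb := θ / algebraMap K Qb (y₁ : K) with hθ₁
  have hθ₁p : θ₁ ^ p = algebraMap K Qb ((u : 𝓞 K) : K) := by
    rw [hθ₁, div_pow, hα, hαu]
    have : (((u : 𝓞 K) * y₁ ^ p : 𝓞 K) : K) = ((u : 𝓞 K) : K) * (y₁ : K) ^ p := rfl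
    rw [this, map_mul, map_pow, mul_div_cancel_right₀ _ (pow_ne_zero _ hy₁Q)]
  have hθ₁int : IsIntegral ℤ θ₁ := by
    apply IsIntegral.of_pow hpP.pos
    rw [hθ₁p]
    exact (RingOfIntegers.isIntegral_coe _).algebraMap
  have hθ₁L : ∃ t : L, algebraMap L Qb t = θ₁ := by
    refine ⟨θL / algebraMap K L (y₁ : K), ?_⟩
    rw [map_div₀, hθL', ← IsScalarTower.algebraMap_apply K L Qb]
  obtain ⟨t, ht⟩ := hθ₁L
  obtain ⟨t', ht'⟩ := exists_int_of (L := L) hθ₁int ht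
  have ht'p : t' ^ p = algebraMap (𝓞 K) (𝓞 L) (u : 𝓞 K) := by
    apply RingOfIntegers.ext
    apply (algebraMap L Qb).injective
    have e1 : algebraMap L Qb ((t' ^ p : 𝓞 L) : L) = θ₁ ^ p := by
      have e2 : ((t' ^ p : 𝓞 L) : L) = (t' : L) ^ p := rfl
      rw [e2, ht', map_pow, ht]
    rw [e1, hθ₁p]
    have e3 : ((algebraMap (𝓞 K) (𝓞 L) (u : 𝓞 K) : 𝓞 L) : L) = algebraMap K L ((u : 𝓞 K) : K) := rfl
    rw [e3, ← IsScalarTower.algebraMap_apply K L Qb]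
  obtain ⟨v, hv, hpv⟩ := exists_vp hz
  have hloc : ∃ x : 𝓞 K, (u : 𝓞 K) - x ^ p ∈ Ideal.span {z - 1} ^ 3 := by
    rw [← hv]
    apply local_pth (L := L) (u : 𝓞 K) t' ht'p v
    intro P hP σ hσ
    apply hD' P _ σ hσ
    have h1 : (p : 𝓞 K) ∈ P.asIdeal.under (𝓞 K) := by rw [← hP.over]; exact hpv
    simpa [Ideal.under_def, Ideal.mem_comap] using h1
  obtain ⟨s, hs⟩ := final_unit hp hz hσ₀ u w huw hloc
  -- conclusion
  have h5 : θ₁ ^ p = (algebraMap K Qb ((s : 𝓞 K) : K)) ^ p := by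
    rw [hθ₁p, hs, ← map_pow]; rfl
  have hs0 : algebraMap K Qb ((s : 𝓞 K) : K) ≠ 0 := by
    rw [Ne, map_eq_zero]; exact NumberField.Units.coe_ne_zero s
  obtain ⟨j, hj⟩ := root_of_pow_eq hz hs0 h5
  refine ⟨(z : K) ^ j * ((s : 𝓞 K) : K) * (y₁ : K), ?_⟩
  rw [map_mul, map_mul, ← hj, hθ₁, div_mul_cancel₀ _ hy₁Q]

end Fermat.Agent.ExtVan
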