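import Mathlib

set_option autoImplicit false
set_option linter.all false

open Polynomial

namespace Fermat.Agent.ExtVan

/-- The ring `F[x]/(x^3)` in coordinates. -/
@[ext] structure T3 (F : Type*) where
  a : F
  b : F
  c : F

namespace T3

variable {F : Type*} [Field F]

instance : Zero (T3 F) := ⟨⟨0, 0, 0⟩⟩
instance : One (T3 F) := ⟨⟨1, 0, 0⟩⟩
instance : Add (T3 F) := ⟨fun x y => ⟨x.a + y.a, x.b + y.b, x.c + y.c⟩⟩
instance : Neg (T3 F) := ⟨fun x => ⟨-x.a, -x.b, -x.c⟩⟩
instance : Mul (T3 F) := ⟨fun x y => ⟨x.a * y.a, x.a * y.b + x.b * y.a,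
  x.a * y.c + x.b * y.b + x.c * y.a⟩⟩

@[simp] theorem zero_a : (0 : T3 F).a = 0 := rfl
@[simp] theorem zero_b : (0 : T3 F).b = 0 := rfl
@[simp] theorem zero_c : (0 : T3 F).c = 0 := rfl
@[simp] theorem one_a : (1 : T3 F).a = 1 := rfl
@[simp] theorem one_b : (1 : T3 F).b = 0 := rfl
@[simp] theorem one_c : (1 : T3 F).c = 0 := rfl
@[simp] theorem add_a (x y : T3 F) : (x + y).a = x.a + y.a := rfl
@[simp] theorem add_b (x y : T3 F) : (x + y).b = x.b + y.b := rfl
@[simp] theorem add_c (x y : T3 F) : (x + y).c = x.c + y.c := rfl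
@[simp] theorem neg_a (x : T3 F) : (-x).a = -x.a := rfl
@[simp] theorem neg_b (x : T3 F) : (-x).b = -x.b := rfl
@[simp] theorem neg_c (x : T3 F) : (-x).c = -x.c := rfl
@[simp] theorem mul_a (x y : T3 F) : (x * y).a = x.a * y.a := rfl
@[simp] theorem mul_b (x y : T3 F) : (x * y).b = x.a * y.b + x.b * y.a := rfl
@[simp] theorem mul_c (x y : T3 F) : (x * y).c = x.a * y.c + x.b * y.b + x.c * y.a := rfl

noncomputable instance : CommRing (T3 F) where
  add_assoc x y z := by ext <;> simp [add_assoc]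
  zero_add x := by ext <;> simp
  add_zero x := by ext <;> simp
  add_comm x y := by ext <;> simp [add_comm]
  neg_add_cancel x := by ext <;> simp
  nsmul := nsmulRec
  zsmul := zsmulRec
  left_distrib x y z := by ext <;> simp <;> ring
  right_distrib x y z := by ext <;> simp <;> ring
  zero_mul x := by ext <;> simp
  mul_zero x := by ext <;> simp
  mul_assoc x y z := by ext <;> simp <;> ring
  one_mul x := by ext <;> simp
  mul_one x := by ext <;> simp
  mul_comm x y := by ext <;> simp <;> ring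

@[simp] theorem sub_a (x y : T3 F) : (x - y).a = x.a - y.a := by rw [sub_eq_add_neg, add_a, neg_a, sub_eq_add_neg]
@[simp] theorem sub_b (x y : T3 F) : (x - y).b = x.b - y.b := by rw [sub_eq_add_neg, add_b, neg_b, sub_eq_add_neg]
@[simp] theorem sub_c (x y : T3 F) : (x - y).c = x.c - y.c := by rw [sub_eq_add_neg, add_c, neg_c, sub_eq_add_neg]

theorem natCast_eq (n : ℕ) : (n : T3 F) = ⟨n, 0, 0⟩ := by
  induction n with
  | zero => rw [Nat.cast_zero]; ext <;> simp
  | succ n ih => rw [Nat.cast_succ, ih]; ext <;> simp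

/-- the first coordinate as a ring hom -/
def aHom : T3 F →+* F where
  toFun := a
  map_zero' := rfl
  map_one' := rfl
  map_add' _ _ := rfl
  map_mul' _ _ := rfl

theorem aHom_apply (x : T3 F) : aHom x = x.a := rfl

/-- The twist `x ↦ m x`. -/
def psi (m : F) : T3 F →+* T3 F where
  toFun t := ⟨t.a, m * t.b, m ^ 2 * t.c⟩
  map_zero' := by ext <;> simp
  map_one' := by ext <;> simp
  map_add' x y := by ext <;> simp <;> ring
  map_mul' x y := by ext <;> simp <;> ring

/-- the second logarithmic coefficient -/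
noncomputable def l2 (t : T3 F) : F := 2 * t.c / t.a - (t.b / t.a) ^ 2

theorem l2_mul (s t : T3 F) (hs : s.a ≠ 0) (ht : t.a ≠ 0) : l2 (s * t) = l2 s + l2 t := by
  simp only [l2, mul_a, mul_b, mul_c]
  field_simp
  ring

theorem l2_one : l2 (1 : T3 F) = 0 := by simp [l2]

theorem l2_pow (t : T3 F) (ht : t.a ≠ 0) (n : ℕ) : l2 (t ^ n) = n * l2 t := by
  induction n with
  | zero => simp [l2_one]
  | succ n ih =>
    rw [pow_succ, l2_mul _ _ (by rw [← aHom_apply, map_pow]; exact pow_ne_zero _ ht) ht, ih]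
    push_cast; ring

theorem l2_prod {ι : Type*} (s : Finset ι) (f : ι → T3 F) (hf : ∀ i ∈ s, (f i).a ≠ 0) :
    l2 (∏ i ∈ s, f i) = ∑ i ∈ s, l2 (f i) := by
  classical
  induction s using Finset.induction_on with
  | empty => simp [l2_one]
  | insert i s hi ih =>
    rw [Finset.prod_insert hi, Finset.sum_insert hi, l2_mul _ _ (hf i (Finset.mem_insert_self _ _)),
      ih (fun j hj => hf j (Finset.mem_insert_of_mem hj))]
    rw [← aHom_apply, map_prod]
    exact Finset.prod_ne_zero_iff.mpr (fun j hj => hf j (Finset.mem_insert_of_mem hj))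

theorem l2_psi (m : F) (t : T3 F) : l2 (psi m t) = m ^ 2 * l2 t := by
  simp only [l2, psi, RingHom.coe_mk, MonoidHom.coe_mk, OneHom.coe_mk]
  ring

theorem nil_cube (t : T3 F) (h : t.a = 0) : t ^ 3 = 0 := by
  have : t ^ 3 = t * t * t := by ring
  rw [this]
  ext <;> simp [h]

instance charP (p : ℕ) [CharP F p] : CharP (T3 F) p where
  cast_eq_zero_iff x := by
    rw [natCast_eq, ← CharP.cast_eq_zero_iff F p x]
    constructor
    · intro h; exact congrArg a h
    · intro h; rw [h]; rfl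

/-- `exp(x)` truncated -/
noncomputable def ex : T3 F := ⟨1, 1, 2⁻¹⟩

theorem ex_pow (h2 : (2 : F) ≠ 0) (n : ℕ) : (ex : T3 F) ^ n = ⟨1, n, n ^ 2 / 2⟩ := by
  induction n with
  | zero => ext <;> simp
  | succ n ih =>
    rw [pow_succ, ih]
    ext
    · simp [ex]
    · simp [ex]; ring
    · simp [ex]; field_simp; ring

theorem l2_one_add_ex (h2 : (2 : F) ≠ 0) : l2 (1 + ex : T3 F) = 1 / 4 := by
  have h4 : (4 : F) ≠ 0 := by
    have : (4 : F) = 2 * 2 := by norm_num
    rw [this]; exact mul_ne_zero h2 h2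
  simp only [l2, ex, add_a, add_b, add_c, one_a, one_b, one_c]
  have h5 : (1 : F) + 1 = 2 := by norm_num
  rw [h5, zero_add, zero_add]
  field_simp
  norm_num

theorem aeval_cyc (p : ℕ) [Fact p.Prime] (hp : 5 ≤ p) [CharP F p] :
    aeval (ex : T3 F) (cyclotomic p ℤ) = 0 := by
  have hpP : p.Prime := Fact.out
  rw [aeval_def, eval₂_eq_eval_map, map_cyclotomic]
  have h1 := cyclotomic_mul_prime_eq_pow_of_not_dvd (T3 F) (p := p) (n := 1)
    (fun h => by have := Nat.le_of_dvd one_pos h; omega)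
  rw [one_mul, cyclotomic_one] at h1
  rw [h1, eval_pow, eval_sub, eval_X, eval_one]
  have h2 : p - 1 = 3 + (p - 4) := by omega
  rw [h2, pow_add, nil_cube _ (by simp [ex]), zero_mul]

end T3

end Fermat.Agent.ExtVan
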