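import Fermat.Agent.ExtVan.LocalLog
import Fermat.Agent.ExtVan.ClassPart

set_option autoImplicit false
set_option linter.all false

open Polynomial NumberField
open scoped Pointwise

namespace Fermat.Agent.ExtVan

variable {K : Type} [Field K] [NumberField K]

section cy

variable {p : ℕ} [Fact p.Prime] {z : 𝓞 K} (hz : IsPrimitiveRoot z p)

include hz in
theorem exists_cy (σ : Gal(K/ℚ)) : ∃ m : ℕ, σ • z = z ^ m := by
  have hpP : p.Prime := Fact.out
  haveI : NeZero p := ⟨hpP.ne_zero⟩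
  have : (σ • z) ^ p = 1 := by rw [← smul_pow', hz.pow_eq_one, smul_one]
  obtain ⟨i, -, hi⟩ := hz.eq_pow_of_pow_eq_one this
  exact ⟨i, hi.symm⟩

/-- the cyclotomic character, as a natural number. -/
noncomputable def cy (σ : Gal(K/ℚ)) : ℕ := (exists_cy hz σ).choose

theorem cy_spec (σ : Gal(K/ℚ)) : σ • z = z ^ (cy hz σ) := (exists_cy hz σ).choose_spec

theorem zpow_mod {R : Type*} [CommRing R] {p : ℕ} {z : R} (hz : IsPrimitiveRoot z p) (m : ℕ) :
    z ^ m = z ^ (m % p) := by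
  conv_lhs => rw [← Nat.div_add_mod m p, pow_add, pow_mul, hz.pow_eq_one, one_pow, one_mul]

theorem cast_eq_of_pow_eq {m n : ℕ} (h : z ^ m = z ^ n) (hz : IsPrimitiveRoot z p) :
    (m : ZMod p) = n := by
  have hpP : p.Prime := Fact.out
  rw [zpow_mod hz m, zpow_mod hz n] at h
  have h1 : m % p = n % p := hz.pow_inj (Nat.mod_lt _ hpP.pos) (Nat.mod_lt _ hpP.pos) h
  exact (ZMod.natCast_eq_natCast_iff _ _ _).mpr h1

theorem pow_eq_of_cast_eq {m n : ℕ} (h : (m : ZMod p) = n) (hz : IsPrimitiveRoot z p) :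
    z ^ m = z ^ n := by
  rw [zpow_mod hz m, zpow_mod hz n]
  congr 1
  exact (ZMod.natCast_eq_natCast_iff _ _ _).mp h

theorem cy_mul (σ τ : Gal(K/ℚ)) : (cy hz (σ * τ) : ZMod p) = cy hz σ * cy hz τ := by
  have h1 : z ^ (cy hz (σ * τ)) = z ^ (cy hz σ * cy hz τ) := by
    rw [← cy_spec, mul_smul, cy_spec hz τ, smul_pow', cy_spec hz σ, ← pow_mul]
  have := cast_eq_of_pow_eq h1 hz
  push_cast at this
  exact this

theorem cy_one : (cy hz 1 : ZMod p) = 1 := by
  have h1 : z ^ (cy hz 1) = z ^ 1 := by rw [← cy_spec, one_smul, pow_one]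
  have := cast_eq_of_pow_eq h1 hz
  push_cast at this
  exact this

theorem cy_inv_mul (σ : Gal(K/ℚ)) : (cy hz σ⁻¹ : ZMod p) * cy hz σ = 1 := by
  rw [← cy_mul, inv_mul_cancel, cy_one]

theorem cy_pow (σ : Gal(K/ℚ)) (k : ℕ) : (cy hz (σ ^ k) : ZMod p) = (cy hz σ) ^ k := by
  induction k with
  | zero => rw [pow_zero, pow_zero, cy_one]
  | succ k ih => rw [pow_succ, cy_mul, ih, pow_succ]

theorem cy_inj [IsCyclotomicExtension {p} ℚ K] {σ τ : Gal(K/ℚ)}
    (h : (cy hz σ : ZMod p) = cy hz τ) : σ = τ := by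
  have hpP : p.Prime := Fact.out
  haveI : NeZero p := ⟨hpP.ne_zero⟩
  have h1 : z ^ (cy hz σ) = z ^ (cy hz τ) := pow_eq_of_cast_eq h hz
  rw [← cy_spec, ← cy_spec] at h1
  have hz' : IsPrimitiveRoot (z : K) p := hz.map_of_injective (FaithfulSMul.algebraMap_injective _ _)
  have h2 : σ (z : K) = τ (z : K) := congrArg (algebraMap (𝓞 K) K) h1
  apply AlgEquiv.coe_algHom_injective
  apply hz'.powerBasis ℚ |>.algHom_ext
  rw [IsPrimitiveRoot.powerBasis_gen]
  exact h2

end cy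


end Fermat.Agent.ExtVan
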