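import Fermat.Agent.ExtVan.LocalLog2

set_option autoImplicit false
set_option linter.all false

open Polynomial NumberField
open scoped Pointwise

namespace Fermat.Agent.ExtVan

variable {K : Type} [Field K] [NumberField K]

theorem exists_rho (p : ℕ) [Fact p.Prime] [IsCyclotomicExtension {p} ℚ K] (hp : 5 ≤ p)
    {z : 𝓞 K} (hz : IsPrimitiveRoot z p) :
    ∃ ρ : 𝓞 K →+* T3 (ZMod p), ρ z = T3.ex ∧
      ∀ (σ : Gal(K/ℚ)) (x : 𝓞 K), ρ (σ • x) = T3.psi (cy hz σ : ZMod p) (ρ x) := by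
  have hpP : p.Prime := Fact.out
  haveI : NeZero p := ⟨hpP.ne_zero⟩
  have h2 : (2 : ZMod p) ≠ 0 := by
    intro h
    have : ((2 : ℕ) : ZMod p) = 0 := by exact_mod_cast h
    rw [ZMod.natCast_eq_zero_iff] at this
    have := Nat.le_of_dvd (by norm_num) this
    omega
  have hz' : IsPrimitiveRoot (z : K) p := hz.map_of_injective (FaithfulSMul.algebraMap_injective _ _)
  have hgen : hz'.integralPowerBasis.gen = z := by
    rw [IsPrimitiveRoot.integralPowerBasis_gen]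
    exact RingOfIntegers.ext rfl
  have hmin : minpoly ℤ hz'.integralPowerBasis.gen = cyclotomic p ℤ := by
    rw [hgen, ← RingOfIntegers.minpoly_coe, cyclotomic_eq_minpoly hz' hpP.pos]
  let f : 𝓞 K →ₐ[ℤ] T3 (ZMod p) := hz'.integralPowerBasis.lift T3.ex (by
    rw [hmin]; exact T3.aeval_cyc p hp)
  have hf : f z = T3.ex := by
    conv_lhs => rw [← hgen]
    exact PowerBasis.lift_gen _ _ _
  refine ⟨f, hf, ?_⟩
  intro σ x
  let g1 : 𝓞 K →ₐ[ℤ] T3 (ZMod p) :=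
    ((f : 𝓞 K →+* T3 (ZMod p)).comp (MulSemiringAction.toRingHom (Gal(K/ℚ)) (𝓞 K) σ)).toIntAlgHom
  let g2 : 𝓞 K →ₐ[ℤ] T3 (ZMod p) :=
    ((T3.psi (cy hz σ : ZMod p)).comp (f : 𝓞 K →+* T3 (ZMod p))).toIntAlgHom
  have hg : g1 = g2 := by
    apply hz'.integralPowerBasis.algHom_ext
    rw [hgen]
    show f (σ • z) = T3.psi (cy hz σ : ZMod p) (f z)
    rw [cy_spec hz σ, map_pow, hf, T3.ex_pow h2]
    simp only [T3.psi, RingHom.coe_mk, MonoidHom.coe_mk, OneHom.coe_mk, T3.ex]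
    ext
    · rfl
    · simp
    · simp [div_eq_mul_inv]
  exact DFunLike.congr_fun hg x

theorem two_ne_zero_zmod (p : ℕ) [Fact p.Prime] (hp : 3 ≤ p) : (2 : ZMod p) ≠ 0 := by
  intro h
  have : ((2 : ℕ) : ZMod p) = 0 := by exact_mod_cast h
  rw [ZMod.natCast_eq_zero_iff] at this
  have := Nat.le_of_dvd (by norm_num) this
  omega

/-- The twist exponents. -/
noncomputable def cc {p : ℕ} [Fact p.Prime] {z : 𝓞 K} (hz : IsPrimitiveRoot z p)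
    (σ : Gal(K/ℚ)) : ℕ := (cy hz σ) ^ 2

theorem card_gal (p : ℕ) [Fact p.Prime] [IsCyclotomicExtension {p} ℚ K] :
    Nat.card (Gal(K/ℚ)) = p - 1 := by
  have hpP : p.Prime := Fact.out
  haveI : NeZero p := ⟨hpP.ne_zero⟩
  haveI : IsGalois ℚ K := IsCyclotomicExtension.isGalois {p} ℚ K
  rw [IsGalois.card_aut_eq_finrank, IsCyclotomicExtension.Rat.finrank p K, Nat.totient_prime hpP]

theorem l2_E2 {p : ℕ} [Fact p.Prime] [IsCyclotomicExtension {p} ℚ K] (hp : 5 ≤ p)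
    {z : 𝓞 K} (hz : IsPrimitiveRoot z p) (ρ : 𝓞 K →+* T3 (ZMod p)) (h1 : ρ z = T3.ex)
    (h2 : ∀ (σ : Gal(K/ℚ)) (x : 𝓞 K), ρ (σ • x) = T3.psi (cy hz σ : ZMod p) (ρ x)) :
    (ρ (E2 (cc hz) z)).a ≠ 0 ∧ T3.l2 (ρ (E2 (cc hz) z)) ≠ 0 := by
  have hpP : p.Prime := Fact.out
  have hne2 : (2 : ZMod p) ≠ 0 := two_ne_zero_zmod p (by omega)
  have hterm : ∀ σ : Gal(K/ℚ), ρ (σ⁻¹ • (1 + z)) = T3.psi (cy hz σ⁻¹ : ZMod p) (1 + T3.ex) := by
    intro σ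
    rw [h2, map_add, map_one, h1]
  have hterma : ∀ σ : Gal(K/ℚ), (ρ (σ⁻¹ • (1 + z))).a ≠ 0 := by
    intro σ
    rw [hterm]
    show (1 : ZMod p) + 1 ≠ 0
    rw [one_add_one_eq_two]
    exact hne2
  have hpow : ∀ σ : Gal(K/ℚ), ((ρ (σ⁻¹ • (1 + z))) ^ (cc hz σ)).a ≠ 0 := by
    intro σ
    rw [← T3.aHom_apply, map_pow, T3.aHom_apply]
    exact pow_ne_zero _ (hterma σ)
  have hE : ρ (E2 (cc hz) z) = ∏ σ : Gal(K/ℚ), (ρ (σ⁻¹ • (1 + z))) ^ (cc hz σ) := by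
    rw [E2, map_prod]
    exact Finset.prod_congr rfl (fun σ _ => map_pow _ _ _)
  constructor
  · rw [hE, ← T3.aHom_apply, map_prod, Finset.prod_ne_zero_iff]
    intro σ _
    exact hpow σ
  · rw [hE, T3.l2_prod _ _ (fun σ _ => hpow σ)]
    have hl : ∀ σ : Gal(K/ℚ), T3.l2 ((ρ (σ⁻¹ • (1 + z))) ^ (cc hz σ)) = 1 / 4 := by
      intro σ
      rw [T3.l2_pow _ (hterma σ), hterm, T3.l2_psi, T3.l2_one_add_ex hne2, cc]
      have h3 := cy_inv_mul hz σ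
      push_cast
      have : ((cy hz σ : ZMod p)) ^ 2 * ((cy hz σ⁻¹ : ZMod p) ^ 2 * (1 / 4)) =
        ((cy hz σ⁻¹ : ZMod p) * cy hz σ) ^ 2 * (1 / 4) := by ring
      rw [this, h3, one_pow, one_mul]
    rw [Finset.sum_congr rfl (fun σ _ => hl σ), Finset.sum_const, Finset.card_univ,
      ← Nat.card_eq_fintype_card, card_gal (K := K) p, nsmul_eq_mul]
    have h4 : ((p - 1 : ℕ) : ZMod p) = -1 := by
      rw [Nat.cast_sub hpP.one_le]
      simp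
    rw [h4]
    have h5 : (4 : ZMod p) ≠ 0 := by
      have : (4 : ZMod p) = 2 * 2 := by norm_num
      rw [this]; exact mul_ne_zero hne2 hne2
    intro h
    have : (-1 : ZMod p) = 0 := by
      have h6 : (-1 : ZMod p) * (1 / 4) * 4 = 0 := by rw [h, zero_mul]
      rw [mul_assoc, one_div, inv_mul_cancel₀ h5, mul_one] at h6
      exact h6
    exact one_ne_zero (neg_eq_zero.mp this)

theorem l2_pth {p : ℕ} [Fact p.Prime] (ρ : 𝓞 K →+* T3 (ZMod p)) (x y : 𝓞 K)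
    (hxy : ρ x = ρ y ^ p) (hx : (ρ x).a ≠ 0) : T3.l2 (ρ x) = 0 := by
  have hpP : p.Prime := Fact.out
  have hy : (ρ y).a ≠ 0 := by
    intro h
    apply hx
    rw [hxy, ← T3.aHom_apply, map_pow, T3.aHom_apply, h, zero_pow hpP.ne_zero]
  rw [hxy, T3.l2_pow _ hy, CharP.cast_eq_zero, zero_mul]

theorem E2_not_pth {p : ℕ} [Fact p.Prime] [IsCyclotomicExtension {p} ℚ K] (hp : 5 ≤ p)
    {z : 𝓞 K} (hz : IsPrimitiveRoot z p) (b : K) : b ^ p ≠ (E2 (cc hz) z : K) := by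
  have hpP : p.Prime := Fact.out
  intro hb
  obtain ⟨ρ, h1, h2⟩ := exists_rho p hp hz
  obtain ⟨ha, hl⟩ := l2_E2 hp hz ρ h1 h2
  have hint : IsIntegral ℤ b := by
    apply IsIntegral.of_pow hpP.pos
    rw [hb]; exact RingOfIntegers.isIntegral_coe _
  set b' : 𝓞 K := ⟨b, hint⟩
  have hb' : b' ^ p = E2 (cc hz) z := RingOfIntegers.ext hb
  exact hl (l2_pth ρ _ b' (by rw [← hb', map_pow]) ha)

theorem rho_kill {p : ℕ} [Fact p.Prime] {z : 𝓞 K}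
    (ρ : 𝓞 K →+* T3 (ZMod p)) (h1 : ρ z = T3.ex) {x : 𝓞 K} (hx : x ∈ Ideal.span {z - 1} ^ 3) :
    ρ x = 0 := by
  rw [Ideal.span_singleton_pow, Ideal.mem_span_singleton] at hx
  obtain ⟨y, rfl⟩ := hx
  rw [map_mul, map_pow, map_sub, h1, map_one, T3.nil_cube _ (by simp [T3.ex]), zero_mul]

theorem rho_unit {p : ℕ} [Fact p.Prime] (ρ : 𝓞 K →+* T3 (ZMod p)) {x : 𝓞 K} (hx : IsUnit x) :
    (ρ x).a ≠ 0 := by
  have h := (hx.map ρ).map (T3.aHom (F := ZMod p))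
  exact h.ne_zero

end Fermat.Agent.ExtVan
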