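import Fermat.Agent.ExtVan.ThaineFinal

set_option autoImplicit false
set_option linter.all false

open NumberField Polynomial IsDedekindDomain WithZero
open scoped Pointwise

namespace Fermat.Agent.ExtVan

/-- Group action on the primes. -/
noncomputable def gactG {R G : Type*} [CommRing R] [Group G] [MulSemiringAction G R] (σ : G)
    (v : HeightOneSpectrum R) : HeightOneSpectrum R where
  asIdeal := σ • v.asIdeal
  isPrime := by
    haveI := v.isPrime
    infer_instance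
  ne_bot := by
    intro h
    have h1 : v.asIdeal = σ⁻¹ • (⊥ : Ideal R) := by rw [← h, inv_smul_smul]
    apply v.ne_bot
    rw [h1, Ideal.smul_bot]

variable {K L : Type} [Field K] [NumberField K] [Field L] [NumberField L] [Algebra K L]

theorem prime_mem_of_root {R : Type*} [CommRing R] [IsDomain R] {p : ℕ} (hp : p.Prime) {μ : R}
    (hμ : μ ^ p = 1) (hμ1 : μ ≠ 1) (I : Ideal R) (h : μ - 1 ∈ I) : (p : R) ∈ I := by
  have hprim : IsPrimitiveRoot μ p := by
    rw [IsPrimitiveRoot.iff_orderOf]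
    haveI : Fact p.Prime := ⟨hp⟩
    exact orderOf_eq_prime hμ hμ1
  have h1 := assoc_prime hp hprim
  have h2 : (μ - 1) ^ (p - 1) ∈ I := I.pow_mem_of_mem h _ (by have := hp.two_le; omega)
  obtain ⟨u, hu⟩ := h1
  rw [← hu]
  exact I.mul_mem_right _ h2

theorem smul_algMap (σ : Gal(L/K)) (x : 𝓞 K) :
    σ • algebraMap (𝓞 K) (𝓞 L) x = algebraMap (𝓞 K) (𝓞 L) x :=
  RingOfIntegers.ext (σ.commutes (x : K))

theorem stab_trivial (p : ℕ) [Fact p.Prime] {z : 𝓞 K} (hz : IsPrimitiveRoot z p) (e : 𝓞 K)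
    (he : ∀ b : K, b ^ p ≠ (e : K)) [IsSplittingField K L (X ^ p - C (e : K))]
    (w : HeightOneSpectrum (𝓞 L))
    (hpv : (p : 𝓞 L) ∉ w.asIdeal) (hev : algebraMap (𝓞 K) (𝓞 L) e ∉ w.asIdeal)
    (t : 𝓞 K) (ht : algebraMap (𝓞 K) (𝓞 L) (e * t ^ p - 1) ∈ w.asIdeal)
    (σ : Gal(L/K)) (hσ : σ • w.asIdeal = w.asIdeal) : σ = 1 := by
  have hpP : p.Prime := Fact.out
  haveI : NeZero p := ⟨hpP.ne_zero⟩
  haveI := w.isPrime
  have hirr : Irreducible (X ^ p - C (e : K)) := X_pow_sub_C_irreducible_of_prime hpP he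
  have hz' : IsPrimitiveRoot (z : K) p := hz.map_of_injective (FaithfulSMul.algebraMap_injective _ _)
  have hne : (primitiveRoots p K).Nonempty := ⟨z, (mem_primitiveRoots hpP.pos).mpr hz'⟩
  have hα := rootOfSplitsXPowSubC_pow (n := p) (e : K) L
  set α := rootOfSplitsXPowSubC (NeZero.pos p) (e : K) L
  have hint : IsIntegral ℤ α := by
    apply IsIntegral.of_pow hpP.pos
    rw [hα]
    exact (RingOfIntegers.isIntegral_coe e).algebraMap
  set θ : 𝓞 L := ⟨α, hint⟩ with hθdef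
  have hθ : θ ^ p = algebraMap (𝓞 K) (𝓞 L) e := RingOfIntegers.ext (by
    show α ^ p = algebraMap K L e
    exact hα)
  set T : 𝓞 L := algebraMap (𝓞 K) (𝓞 L) t with hT
  have h1 : (θ * T) ^ p - 1 ^ p ∈ w.asIdeal := by
    rw [mul_pow, hθ, one_pow, hT, ← map_pow, ← map_mul, ← map_one (algebraMap (𝓞 K) (𝓞 L)), ← map_sub]
    exact ht
  have hzL : IsPrimitiveRoot (algebraMap (𝓞 K) (𝓞 L) z) p :=
    hz.map_of_injective (FaithfulSMul.algebraMap_injective _ _)
  rw [hzL.pow_sub_pow_eq_prod_sub_mul _ _ hpP.pos] at h1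
  obtain ⟨μ, hμ, hμ2⟩ := (Ideal.IsPrime.prod_mem_iff (s := nthRootsFinset p (1 : 𝓞 L))
    (x := fun ζ => θ * T - ζ * 1)).mp h1
  have hμ1 : μ ^ p = 1 := by
    rw [Polynomial.mem_nthRootsFinset hpP.pos] at hμ
    exact hμ
  obtain ⟨i, hi, hiμ⟩ := hzL.eq_pow_of_pow_eq_one hμ1
  have hσμ : σ • μ = μ := by
    rw [← hiμ, ← map_pow, smul_algMap]
  have hσT : σ • T = T := by rw [hT, smul_algMap]
  have hσmem : ∀ x ∈ w.asIdeal, σ • x ∈ w.asIdeal := by
    intro x hx
    have := Ideal.smul_mem_pointwise_smul σ x w.asIdeal hx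
    rwa [hσ] at this
  have h2 := hσmem _ hμ2
  rw [mul_one, smul_sub, smul_mul', hσμ, hσT] at h2
  rw [mul_one] at hμ2
  have h3 := w.asIdeal.sub_mem h2 hμ2
  -- σ θ = η θ
  set η : rootsOfUnity p K := autEquivRootsOfUnity hne hirr L σ with hηdef
  have hη := autEquivRootsOfUnity_smul hne hirr L hα σ
  have hηint : IsIntegral ℤ (((η : Kˣ) : K)) := by
    apply IsIntegral.of_pow hpP.pos
    have : ((η : Kˣ) : K) ^ p = 1 := (mem_rootsOfUnity' _ _).mp η.2
    rw [this]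
    exact isIntegral_one
  set η' : 𝓞 K := ⟨((η : Kˣ) : K), hηint⟩ with hη'def
  have hη'p : η' ^ p = 1 := RingOfIntegers.ext (by
    show ((η : Kˣ) : K) ^ p = 1
    exact (mem_rootsOfUnity' _ _).mp η.2)
  have hσθ : σ • θ = algebraMap (𝓞 K) (𝓞 L) η' * θ := RingOfIntegers.ext (by
    show σ α = algebraMap K L ((η : Kˣ) : K) * α
    rw [← hη, ← Algebra.smul_def]
    rfl)
  have h4 : (algebraMap (𝓞 K) (𝓞 L) η' - 1) * (θ * T) ∈ w.asIdeal := by
    have : (algebraMap (𝓞 K) (𝓞 L) η' - 1) * (θ * T) = σ • θ * T - μ - (θ * T - μ) := by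
      rw [hσθ]; ring
    rw [this]
    exact h3
  have hθT : θ * T ∉ w.asIdeal := by
    intro h
    have h5 : (θ * T) ^ p ∈ w.asIdeal := w.asIdeal.pow_mem_of_mem h _ hpP.pos
    rw [mul_pow, hθ, hT, ← map_pow, ← map_mul] at h5
    have h6 := w.asIdeal.sub_mem h5 ht
    rw [← map_sub, sub_sub_cancel, map_one] at h6
    exact w.isPrime.ne_top ((Ideal.eq_top_iff_one _).mpr h6)
  have h7 : algebraMap (𝓞 K) (𝓞 L) η' - 1 ∈ w.asIdeal :=
    (w.isPrime.mem_or_mem h4).resolve_right hθT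
  have h8 : algebraMap (𝓞 K) (𝓞 L) η' = 1 := by
    by_contra hne1
    exact hpv (prime_mem_of_root hpP (by rw [← map_pow, hη'p, map_one]) hne1 _ h7)
  have h9 : η' = 1 := FaithfulSMul.algebraMap_injective (𝓞 K) (𝓞 L) (by rw [h8, map_one])
  have h10 : η = 1 := by
    apply Subtype.ext
    apply Units.ext
    exact congrArg (algebraMap (𝓞 K) K) h9
  rw [hηdef] at h10
  exact (MulEquiv.map_eq_one_iff _).mp h10

end Fermat.Agent.ExtVan
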