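import Fermat.Agent.ExtVan.Split

set_option autoImplicit false
set_option linter.all false

open NumberField Polynomial IsDedekindDomain WithZero
open scoped Pointwise

namespace Fermat.Agent.ExtVan

variable {K L : Type} [Field K] [NumberField K] [Field L] [NumberField L] [Algebra K L]

theorem split_primes (p : ℕ) [Fact p.Prime] {z : 𝓞 K} (hz : IsPrimitiveRoot z p) (e : 𝓞 K)
    (he : ∀ b : K, b ^ p ≠ (e : K)) [IsSplittingField K L (X ^ p - C (e : K))]
    (v : HeightOneSpectrum (𝓞 K))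
    (hpv : (p : 𝓞 K) ∉ v.asIdeal) (hev : e ∉ v.asIdeal)
    (t : 𝓞 K) (ht : e * t ^ p - 1 ∈ v.asIdeal) :
    ∃ T : Finset (HeightOneSpectrum (𝓞 L)), T.card = p ∧ ∀ w ∈ T,
      Ideal.absNorm w.asIdeal = Ideal.absNorm v.asIdeal ∧
      w.asIdeal.comap (algebraMap (𝓞 K) (𝓞 L)) = v.asIdeal := by
  classical
  have hpP : p.Prime := Fact.out
  haveI : NeZero p := ⟨hpP.ne_zero⟩
  have hirr : Irreducible (X ^ p - C (e : K)) := X_pow_sub_C_irreducible_of_prime hpP he
  have hz' : IsPrimitiveRoot (z : K) p := hz.map_of_injective (FaithfulSMul.algebraMap_injective _ _)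
  have hne : (primitiveRoots p K).Nonempty := ⟨z, (mem_primitiveRoots hpP.pos).mpr hz'⟩
  haveI : IsGalois K L := isGalois_of_isSplittingField_X_pow_sub_C hne hirr L
  obtain ⟨w, hw⟩ := exists_above (F := L) v
  have hmem : ∀ (w' : HeightOneSpectrum (𝓞 L)), w'.asIdeal.LiesOver v.asIdeal →
      ∀ x : 𝓞 K, algebraMap (𝓞 K) (𝓞 L) x ∈ w'.asIdeal ↔ x ∈ v.asIdeal := by
    intro w' hw' x
    constructor
    · intro h
      rw [hw'.over]
      exact h
    · intro h
      rw [hw'.over] at h
      exact h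
  have hstab : ∀ (w' : HeightOneSpectrum (𝓞 L)), w'.asIdeal.LiesOver v.asIdeal →
      ∀ σ : Gal(L/K), σ • w'.asIdeal = w'.asIdeal → σ = 1 := by
    intro w' hw' σ hσ
    exact stab_trivial p hz e he w'
      (by rw [← map_natCast (algebraMap (𝓞 K) (𝓞 L)) p, hmem w' hw']; exact hpv)
      (by rw [hmem w' hw']; exact hev) t (by rw [hmem w' hw']; exact ht) σ hσ
  haveI := v.isPrime
  haveI : v.asIdeal.IsMaximal := v.isMaximal
  haveI : Finite (𝓞 K ⧸ v.asIdeal) := Ideal.finiteQuotientOfFreeOfNeBot _ v.ne_bot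
  haveI : Finite v.asIdeal.ResidueField :=
    Finite.of_surjective _ (Ideal.bijective_algebraMap_quotient_residueField v.asIdeal).surjective
  refine ⟨Finset.univ.image (fun σ : Gal(L/K) => gactG σ w), ?_, ?_⟩
  · rw [Finset.card_image_of_injective, Finset.card_univ, ← Nat.card_eq_fintype_card,
      IsGalois.card_aut_eq_finrank, finrank_of_isSplittingField_X_pow_sub_C hne hirr L]
    intro σ τ hστ
    have h5 : σ • w.asIdeal = τ • w.asIdeal := congrArg HeightOneSpectrum.asIdeal hστ
    have h6 : (τ⁻¹ * σ) • w.asIdeal = w.asIdeal := by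
      rw [mul_smul, h5, inv_smul_smul]
    have h7 := hstab w hw _ h6
    rw [inv_mul_eq_one] at h7
    exact h7.symm
  · intro w' hw'
    obtain ⟨σ, -, rfl⟩ := Finset.mem_image.mp hw'
    have hover : (gactG σ w).asIdeal.LiesOver v.asIdeal := by
      constructor
      show v.asIdeal = (σ • w.asIdeal).under (𝓞 K)
      ext x
      rw [Ideal.under_def, Ideal.mem_comap, Ideal.mem_pointwise_smul_iff_inv_smul_mem, smul_algMap]
      exact (hmem w hw x).symm
    refine ⟨?_, hover.over.symm⟩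
    haveI := (gactG σ w).isPrime
    have h2 := Ideal.card_stabilizer_eq (G := Gal(L/K)) v.asIdeal (gactG σ w).asIdeal
    have h3 : MulAction.stabilizer (Gal(L/K)) (gactG σ w).asIdeal = ⊥ := by
      rw [Subgroup.eq_bot_iff_forall]
      intro τ hτ
      exact hstab _ hover τ hτ
    rw [h3, Nat.card_unique] at h2
    have h4 : v.asIdeal.inertiaDegIn (𝓞 L) = 1 := Nat.eq_one_of_mul_eq_one_left h2.symm
    rw [Ideal.inertiaDegIn_eq_inertiaDeg v.asIdeal (gactG σ w).asIdeal Gal(L/K)] at h4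
    have h5 := Ideal.absNorm_pow_inertiaDeg v.asIdeal (gactG σ w).asIdeal
    rw [h4, pow_one] at h5
    exact h5.symm

end Fermat.Agent.ExtVan
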