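import Fermat.Agent.ExtVan.ThaineE2

set_option autoImplicit false
set_option linter.all false

open NumberField Polynomial IsDedekindDomain WithZero
open scoped Pointwise

namespace Fermat.Agent.ExtVan

variable {K : Type} [Field K] [NumberField K]

theorem thaine_relation (p ℓ : ℕ) [Fact p.Prime] [Fact ℓ.Prime] [IsCyclotomicExtension {p} ℚ K]
    (hp : 3 ≤ p) (hℓ : p ∣ ℓ - 1) {z : 𝓞 K} (hz : IsPrimitiveRoot z p) :
    ∃ (x : 𝓞 K) (s : ℕ), x ≠ 0 ∧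
      (∀ v : HeightOneSpectrum (𝓞 K), (ℓ : 𝓞 K) ∉ v.asIdeal → p ∣ nv v x) ∧
      (∀ v : HeightOneSpectrum (𝓞 K), (ℓ : 𝓞 K) ∈ v.asIdeal →
        (1 + z) * (s : 𝓞 K) ^ (nv v x) - 1 ∈ v.asIdeal) := by
  have hℓP : ℓ.Prime := Fact.out
  haveI : NeZero ℓ := ⟨hℓP.ne_zero⟩
  exact thaine_relation_aux (F := CyclotomicField ℓ K) p ℓ hp hℓ hz

/-- the second twisted cyclotomic unit, for exponents `c σ`. -/
noncomputable def E2 (c : Gal(K/ℚ) → ℕ) (z : 𝓞 K) : 𝓞 K :=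
  ∏ σ : Gal(K/ℚ), (σ⁻¹ • (1 + z)) ^ (c σ)

theorem E2_congr (p ℓ : ℕ) [Fact p.Prime] [Fact ℓ.Prime] [IsCyclotomicExtension {p} ℚ K]
    [IsGalois ℚ K]
    (hp : 3 ≤ p) (hℓ : p ∣ ℓ - 1) {z : 𝓞 K} (hz : IsPrimitiveRoot z p)
    (c : Gal(K/ℚ) → ℕ) (φ : ClassGroup (𝓞 K) →* ℂ) (hφp : ∀ a, φ a ^ p = 1)
    (hφc : ∀ (σ : Gal(K/ℚ)) (I : Ideal (𝓞 K)), I ≠ 0 → clsVal K φ (σ • I) = clsVal K φ I ^ (c σ))
    (v : HeightOneSpectrum (𝓞 K)) (hv : (ℓ : 𝓞 K) ∈ v.asIdeal)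
    (hφv : clsVal K φ v.asIdeal ≠ 1) :
    ∃ t : ℕ, E2 c z * (t : 𝓞 K) ^ p - 1 ∈ v.asIdeal := by
  classical
  have hpP : p.Prime := Fact.out
  obtain ⟨x, s, hx0, hx1, hx2⟩ := thaine_relation p ℓ hp hℓ hz
  set Ψ : Ideal (𝓞 K) →* ℂ := 
    { toFun := clsVal K φ, map_one' := clsVal_one φ, map_mul' := clsVal_mul φ } with hΨ
  have hΨp : ∀ w : HeightOneSpectrum (𝓞 K), Ψ w.asIdeal ^ p = 1 := by
    intro w
    show clsVal K φ w.asIdeal ^ p = 1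
    have hw0 : w.asIdeal ≠ 0 := w.ne_bot
    rw [clsVal, dif_neg hw0]
    exact hφp _
  have hspan : Ψ (Ideal.span {x}) = 1 := by
    show clsVal K φ (Ideal.span {x}) = 1
    have h0 : Ideal.span {x} ≠ 0 := by simpa using hx0
    rw [clsVal, dif_neg h0]
    have : ClassGroup.mk0 ⟨Ideal.span {x}, mem_nonZeroDivisors_of_ne_zero h0⟩ = 1 := by
      rw [ClassGroup.mk0_eq_one_iff]
      exact ⟨⟨x, rfl⟩⟩
    rw [this, map_one]
  have h1 := hom_ideal_prod Ψ hx0 (Finset.univ.image (fun σ : Gal(K/ℚ) => gact σ v)) (by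
    intro w hw
    by_cases hwl : (ℓ : 𝓞 K) ∈ w.asIdeal
    · obtain ⟨σ, hσ⟩ := gact_trans ℓ v w hv hwl
      exact absurd (Finset.mem_image.mpr ⟨σ, Finset.mem_univ _, hσ⟩) hw
    · obtain ⟨k, hk⟩ := hx1 w hwl
      rw [hk, pow_mul, hΨp, one_pow])
  rw [Finset.prod_image (fun a _ b _ h => gact_inj p ℓ v hv hℓ h), hspan] at h1
  have h2 : ∏ σ : Gal(K/ℚ), Ψ (gact σ v).asIdeal ^ (nv (gact σ v) x) =
      Ψ v.asIdeal ^ (∑ σ : Gal(K/ℚ), c σ * nv (gact σ v) x) := by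
    rw [← Finset.prod_pow_eq_pow_sum]
    apply Finset.prod_congr rfl
    intro σ _
    rw [pow_mul]
    congr 1
    exact hφc σ v.asIdeal v.ne_bot
  rw [h2] at h1
  -- p divides the exponent
  have h3 : p ∣ ∑ σ : Gal(K/ℚ), c σ * nv (gact σ v) x := by
    have h4 : IsPrimitiveRoot (Ψ v.asIdeal) p := by
      rw [IsPrimitiveRoot.iff_orderOf]
      exact orderOf_eq_prime (hΨp v) hφv
    exact h4.dvd_of_pow_eq_one _ h1.symm
  obtain ⟨m, hm⟩ := h3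
  refine ⟨s ^ m, ?_⟩
  rw [← Ideal.Quotient.eq_zero_iff_mem]
  set q := Ideal.Quotient.mk v.asIdeal
  have h5 : ∀ σ : Gal(K/ℚ), q (σ⁻¹ • (1 + z)) * (s : 𝓞 K ⧸ v.asIdeal) ^ (nv (gact σ v) x) = 1 := by
    intro σ
    have h6 : (ℓ : 𝓞 K) ∈ (gact σ v).asIdeal := by
      show (ℓ : 𝓞 K) ∈ σ • v.asIdeal
      rw [Ideal.mem_pointwise_smul_iff_inv_smul_mem]
      have : σ⁻¹ • (ℓ : 𝓞 K) = ℓ := by
        rw [← nsmul_one, smul_comm, smul_one]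
      rw [this]
      exact hv
    have h7 := gact_mem σ v (hx2 (gact σ v) h6)
    rw [← Ideal.Quotient.eq_zero_iff_mem] at h7
    have h8 : σ⁻¹ • ((1 + z) * (s : 𝓞 K) ^ (nv (gact σ v) x) - 1) =
        (σ⁻¹ • (1 + z)) * (s : 𝓞 K) ^ (nv (gact σ v) x) - 1 := by
      rw [smul_sub, smul_one, smul_mul', smul_pow']
      congr 3
      rw [← nsmul_one, smul_comm, smul_one]
    rw [h8] at h7
    rw [map_sub, map_one, map_mul, map_pow, map_natCast, sub_eq_zero] at h7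
    exact h7
  have h9 : q (E2 c z) * (s : 𝓞 K ⧸ v.asIdeal) ^ (∑ σ : Gal(K/ℚ), c σ * nv (gact σ v) x) = 1 := by
    rw [E2, map_prod, ← Finset.prod_pow_eq_pow_sum, ← Finset.prod_mul_distrib]
    apply Finset.prod_eq_one
    intro σ _
    rw [map_pow, mul_comm (c σ), pow_mul, ← mul_pow, h5, one_pow]
  rw [map_sub, map_one, map_mul, map_pow, Nat.cast_pow, map_pow, map_natCast, ← pow_mul,
    mul_comm m p, ← hm, h9, sub_self]

end Fermat.Agent.ExtVan
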