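import Fermat.Agent.ExtVan.ThaineVal

set_option autoImplicit false
set_option linter.all false

open NumberField Polynomial IsDedekindDomain WithZero

namespace Fermat.Agent.ExtVan

variable {K F : Type} [Field K] [Field F] [NumberField K] [NumberField F] [Algebra K F]

section H90

variable (p ℓ : ℕ) [Fact p.Prime] [Fact ℓ.Prime]
    [IsCyclotomicExtension {p} ℚ K] [IsCyclotomicExtension {ℓ} K F]

theorem cyclic_gal (hpl : p ≠ ℓ) : IsCyclic (Gal(F/K)) := by
  have hpP : p.Prime := Fact.out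
  have hℓP : ℓ.Prime := Fact.out
  haveI : NeZero p := ⟨hpP.ne_zero⟩
  haveI : NeZero ℓ := ⟨hℓP.ne_zero⟩
  have hcop : p.Coprime ℓ := (Nat.coprime_primes hpP hℓP).mpr hpl
  have hirr := cyclotomic_irreducible_of_coprime (K := K) (F := F) p ℓ hcop
  exact isCyclic_of_surjective (IsCyclotomicExtension.autEquivPow F hirr).symm
    (IsCyclotomicExtension.autEquivPow F hirr).symm.surjective

theorem coe_smul_int [IsGalois K F] (σ : Gal(F/K)) (x : 𝓞 F) : ((σ • x : 𝓞 F) : F) = σ (x : F) := rfl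

theorem exists_h90 (hp : 3 ≤ p) (hℓ : p ∣ ℓ - 1) [IsGalois K F]
    {z : 𝓞 K} (hz : IsPrimitiveRoot z p) {y : 𝓞 F} (hy : IsPrimitiveRoot y ℓ) :
    ∃ (τ : Gal(F/K)) (β : 𝓞 F), (∀ σ : Gal(F/K), σ ∈ Subgroup.zpowers τ) ∧ β ≠ 0 ∧
      (1 + algebraMap (𝓞 K) (𝓞 F) z * y) * (τ • β) = β := by
  have hpP : p.Prime := Fact.out
  have hℓP : ℓ.Prime := Fact.out
  have hpℓ : p ≠ ℓ := by
    have := Nat.le_of_dvd (by have := hℓP.two_le; omega) hℓ
    have := hℓP.two_le
    omega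
  haveI := cyclic_gal (K := K) (F := F) p ℓ hpℓ
  obtain ⟨τ, hτ⟩ := IsCyclic.exists_generator (α := Gal(F/K))
  have hz' : IsPrimitiveRoot (algebraMap (𝓞 K) K z) p :=
    hz.map_of_injective (FaithfulSMul.algebraMap_injective _ _)
  have hy' : IsPrimitiveRoot (algebraMap (𝓞 F) F y) ℓ :=
    hy.map_of_injective (FaithfulSMul.algebraMap_injective _ _)
  have hn := norm_one_add (K := K) (F := F) p ℓ hp hℓ hz' hy'
  have hn' : Algebra.norm K (algebraMap (𝓞 F) F (1 + algebraMap (𝓞 K) (𝓞 F) z * y)) = 1 := by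
    rw [← hn]
    congr 1
  obtain ⟨β, hβ0, hβ⟩ := groupCohomology.exists_mul_galRestrict_of_norm_eq_one (A := 𝓞 K) (B := 𝓞 F)
    hτ hn'
  refine ⟨τ, β, hτ, hβ0, ?_⟩
  have : galRestrict (𝓞 K) K F (𝓞 F) τ β = τ • β := by
    apply RingOfIntegers.ext
    rw [coe_smul_int]
    exact algebraMap_galRestrict_apply (𝓞 K) τ β
  rw [← this]
  exact hβ

theorem assoc_smul [IsGalois K F] {τ : Gal(F/K)} (hτ : ∀ σ : Gal(F/K), σ ∈ Subgroup.zpowers τ)
    {β : 𝓞 F} (h : Associated (τ • β) β) (σ : Gal(F/K)) : Associated (σ • β) β := by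
  have h1 : ∀ (σ : Gal(F/K)) (x y : 𝓞 F), Associated x y → Associated (σ • x) (σ • y) := by
    intro σ x y hxy
    exact hxy.map (MulSemiringAction.toRingHom (Gal(F/K)) (𝓞 F) σ)
  have h2 : ∀ n : ℕ, Associated ((τ ^ n) • β) β := by
    intro n
    induction n with
    | zero => simp
    | succ n ih =>
      rw [pow_succ, mul_smul]
      exact (h1 _ _ _ h).trans ih
  obtain ⟨n, hn⟩ := (mem_powers_iff_mem_zpowers.mpr (hτ σ))
  simp only at hn
  rw [← hn]
  exact h2 n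

theorem intVal_norm [IsGalois K F] {β : 𝓞 F} (hβ : ∀ σ : Gal(F/K), Associated (σ • β) β)
    (w : HeightOneSpectrum (𝓞 F)) :
    w.intValuation (algebraMap (𝓞 K) (𝓞 F) (RingOfIntegers.norm K β)) =
      w.intValuation β ^ (Module.finrank K F) := by
  have h1 : algebraMap (𝓞 K) (𝓞 F) (RingOfIntegers.norm K β) = ∏ σ : Gal(F/K), σ • β := by
    apply RingOfIntegers.ext
    have h2 : ((∏ σ : Gal(F/K), σ • β : 𝓞 F) : F) = ∏ σ : Gal(F/K), σ (β : F) := by
      exact map_prod (algebraMap (𝓞 F) F) (fun σ : Gal(F/K) => σ • β) Finset.univ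
    rw [h2, ← Algebra.norm_eq_prod_automorphisms]
    rfl
  rw [h1, map_prod]
  rw [Finset.prod_congr rfl (fun σ _ => intVal_assoc w (hβ σ)), Finset.prod_const, Finset.card_univ,
    ← Nat.card_eq_fintype_card, IsGalois.card_aut_eq_finrank]

end H90

end Fermat.Agent.ExtVan
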