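import Fermat.Agent.ExtVan.ThaineRel

set_option autoImplicit false
set_option linter.all false

open NumberField Polynomial IsDedekindDomain WithZero

namespace Fermat.Agent.ExtVan

/-- The pure algebra at a totally ramified place. -/
theorem tame_congr {R G : Type*} [CommRing R] [IsDomain R] [Group G] [MulSemiringAction G R]
    (W : Ideal R) [hW : W.IsPrime] (τ : G) (hτ : ∀ x : R, τ • x - x ∈ W)
    (y a b β η : R) (s n : ℕ) (hy : τ • y = y ^ s) (hy1 : y - 1 ∈ W) (hy0 : y - 1 ≠ 0)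
    (hβ : β ≠ 0) (hη : η * (τ • β) = β) (ha : a ∉ W) (hb : b ∉ W)
    (hab : a * β = b * (y - 1) ^ n) :
    η * (s : R) ^ n - 1 ∈ W := by
  set c : R := ∑ i ∈ Finset.range s, y ^ i with hc
  have h1 : τ • (y - 1) = (y - 1) * c := by
    rw [smul_sub, smul_one, hy, hc, mul_geom_sum]
  have h2 : (τ • a) * (τ • β) = (τ • b) * ((y - 1) * c) ^ n := by
    rw [← h1, ← smul_pow', ← smul_mul', ← smul_mul', hab]
  have hτβ : τ • β ≠ 0 := by
    intro h0
    rw [h0, mul_zero] at hη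
    exact hβ hη.symm
  have h3 : (a * η * (τ • b) * c ^ n) * ((y - 1) ^ n * (τ • β)) =
      (b * (τ • a)) * ((y - 1) ^ n * (τ • β)) := by
    have e1 : (a * η * (τ • b) * c ^ n) * ((y - 1) ^ n * (τ • β)) =
      a * (η * (τ • β)) * ((τ • b) * ((y - 1) * c) ^ n) := by rw [mul_pow]; ring
    rw [e1, hη, hab, ← h2]; ring
  have h4 : a * η * (τ • b) * c ^ n = b * (τ • a) :=
    mul_right_cancel₀ (mul_ne_zero (pow_ne_zero _ hy0) hτβ) h3
  -- now pass to the quotient
  rw [← Ideal.Quotient.eq_zero_iff_mem]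
  set q := Ideal.Quotient.mk W
  have q1 : ∀ x, q (τ • x) = q x := fun x => by
    rw [← sub_eq_zero, ← map_sub]; exact Ideal.Quotient.eq_zero_iff_mem.mpr (hτ x)
  have q2 : q y = 1 := by
    rw [← map_one q, ← sub_eq_zero, ← map_sub]; exact Ideal.Quotient.eq_zero_iff_mem.mpr hy1
  have q3 : q c = (s : R ⧸ W) := by
    rw [hc, map_sum]
    simp [q2]
  have qa : q a ≠ 0 := fun h => ha (Ideal.Quotient.eq_zero_iff_mem.mp h)
  have qb : q b ≠ 0 := fun h => hb (Ideal.Quotient.eq_zero_iff_mem.mp h)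
  have h5 := congrArg q h4
  rw [map_mul, map_mul, map_mul, map_mul, map_pow, q1, q1, q3] at h5
  have h6 : (q a * q b) * (q η * (s : R ⧸ W) ^ n) = (q a * q b) * 1 := by
    rw [mul_one]; linear_combination h5
  have h7 := mul_left_cancel₀ (mul_ne_zero qa qb) h6
  rw [map_sub, map_mul, map_one, map_pow, map_natCast, h7, sub_self]

variable {K F : Type} [Field K] [Field F] [NumberField K] [NumberField F] [Algebra K F]

theorem exists_above (v : HeightOneSpectrum (𝓞 K)) :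
    ∃ w : HeightOneSpectrum (𝓞 F), w.asIdeal.LiesOver v.asIdeal := by
  haveI := v.isPrime
  haveI : v.asIdeal.IsMaximal := v.isMaximal
  obtain ⟨Q, hQ, hQ2⟩ := Ideal.exists_maximal_ideal_liesOver_of_isIntegral (S := 𝓞 F) v.asIdeal
  exact ⟨⟨Q, hQ.isPrime, Ideal.ne_bot_of_liesOver_of_ne_bot v.ne_bot Q⟩, hQ2⟩

section

variable (p ℓ : ℕ) [Fact p.Prime] [Fact ℓ.Prime]
    [IsCyclotomicExtension {p} ℚ K]

theorem thaine_relation_aux (hp : 3 ≤ p) (hℓ : p ∣ ℓ - 1) {z : 𝓞 K} (hz : IsPrimitiveRoot z p)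
    [IsCyclotomicExtension {ℓ} K F] :
    ∃ (x : 𝓞 K) (s : ℕ), x ≠ 0 ∧
      (∀ v : HeightOneSpectrum (𝓞 K), (ℓ : 𝓞 K) ∉ v.asIdeal → p ∣ nv v x) ∧
      (∀ v : HeightOneSpectrum (𝓞 K), (ℓ : 𝓞 K) ∈ v.asIdeal →
        (1 + z) * (s : 𝓞 K) ^ (nv v x) - 1 ∈ v.asIdeal) := by
  have hpP : p.Prime := Fact.out
  have hℓP : ℓ.Prime := Fact.out
  haveI : NeZero p := ⟨hpP.ne_zero⟩
  haveI : NeZero ℓ := ⟨hℓP.ne_zero⟩
  have hpl : p ≠ ℓ := by
    have := Nat.le_of_dvd (by have := hℓP.two_le; omega) hℓ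
    have := hℓP.two_le
    omega
  have hcop : p.Coprime ℓ := (Nat.coprime_primes hpP hℓP).mpr hpl
  haveI : IsGalois K F := IsCyclotomicExtension.isGalois {ℓ} K F
  have hyK := IsCyclotomicExtension.zeta_spec ℓ K F
  set y : 𝓞 F := hyK.toInteger with hydef
  have hy : IsPrimitiveRoot y ℓ := hyK.toInteger_isPrimitiveRoot
  obtain ⟨τ, β, hτ, hβ0, hβ⟩ := exists_h90 (K := K) (F := F) p ℓ hp hℓ hz hy
  set η := 1 + algebraMap (𝓞 K) (𝓞 F) z * y with hηdef
  have hfin : Module.finrank K F = ℓ - 1 := by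
    rw [finrank_cyc (K := K) (F := F) p ℓ hcop, Nat.totient_prime hℓP]
  have hℓ1 : 0 < ℓ - 1 := by have := hℓP.two_le; omega
  -- η is a unit
  have hηu : IsUnit η := by
    have h1 : Algebra.norm K (algebraMap (𝓞 F) F η) = 1 := by
      have hz' : IsPrimitiveRoot (algebraMap (𝓞 K) K z) p :=
        hz.map_of_injective (FaithfulSMul.algebraMap_injective _ _)
      have hy' : IsPrimitiveRoot (algebraMap (𝓞 F) F y) ℓ :=
        hy.map_of_injective (FaithfulSMul.algebraMap_injective _ _)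
      rw [← norm_one_add (K := K) (F := F) p ℓ hp hℓ hz' hy']
      congr 1
    have h2 : RingOfIntegers.norm K η = 1 := by
      apply RingOfIntegers.ext
      rw [RingOfIntegers.coe_norm]
      exact h1.trans (map_one (algebraMap (𝓞 K) K)).symm
    have h3 : IsUnit (RingOfIntegers.norm K η) := by rw [h2]; exact isUnit_one
    exact (RingOfIntegers.isUnit_norm_of_isGalois K).mp h3
  have hassoc : Associated (τ • β) β := by
    obtain ⟨u, hu⟩ := hηu
    exact ⟨u, by rw [hu, mul_comm]; exact hβ⟩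
  have hassoc' : ∀ σ : Gal(F/K), Associated (σ • β) β := assoc_smul hτ hassoc
  set x := RingOfIntegers.norm K β with hxdef
  have hx0 : x ≠ 0 := by
    intro h
    have h1 : (x : K) = 0 := by rw [h]; rfl
    rw [hxdef, RingOfIntegers.coe_norm, Algebra.norm_eq_zero_iff] at h1
    exact hβ0 (RingOfIntegers.ext h1)
  have hmain : ∀ (v : HeightOneSpectrum (𝓞 K)) (w : HeightOneSpectrum (𝓞 F))
      [w.asIdeal.LiesOver v.asIdeal],
      (w.asIdeal.ramificationIdx (𝓞 K)) * nv v x = (ℓ - 1) * nv w β := by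
    intro v w hw
    haveI := v.isPrime
    haveI := w.isPrime
    have h1 := intVal_norm hassoc' w
    have h2 := HeightOneSpectrum.intValuation_liesOver (A := 𝓞 K) (B := 𝓞 F) v w x
    rw [← h2, hfin, intVal_eq v hx0, intVal_eq w hβ0, ← exp_nsmul, ← exp_nsmul, exp_inj,
      Ideal.ramificationIdx'_eq_ramificationIdx v.asIdeal w.asIdeal v.ne_bot] at h1
    simp only [nsmul_eq_mul, mul_neg, neg_inj] at h1
    exact_mod_cast h1
  refine ⟨x, (hyK.autToPow K τ : ZMod ℓ).val, hx0, ?_, ?_⟩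
  · intro v hv
    obtain ⟨w, hw⟩ := exists_above (F := F) v
    have h1 := hmain v w
    rw [ram_away p ℓ hpl v w hv, one_mul] at h1
    rw [h1]
    exact Dvd.dvd.mul_right hℓ _
  · intro v hv
    obtain ⟨w, hw⟩ := exists_above (F := F) v
    haveI := v.isPrime
    haveI := w.isPrime
    have h1 := hmain v w
    rw [ram_above p ℓ hpl v w hv] at h1
    have h2 := Nat.eq_of_mul_eq_mul_left hℓ1 h1
    have hμ := intVal_mu p ℓ hpl v w hv hy
    have hy1 : y - 1 ∈ w.asIdeal := by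
      rw [← w.intValuation_lt_one_iff_mem, hμ, ← exp_zero, exp_lt_exp]; norm_num
    have hy0 : y - 1 ≠ 0 := by
      intro h
      rw [h, map_zero] at hμ
      exact exp_ne_zero hμ.symm
    obtain ⟨a, b, ha, hb, hab⟩ := local_rep w hβ0 hμ
    have hτy : τ • y = y ^ (hyK.autToPow K τ : ZMod ℓ).val := by
      apply RingOfIntegers.ext
      rw [coe_smul_int]
      have h4 := hyK.autToPow_spec K τ
      have h5 : ((y ^ (hyK.autToPow K τ : ZMod ℓ).val : 𝓞 F) : F) =
        (y : F) ^ (hyK.autToPow K τ : ZMod ℓ).val := rfl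
      rw [h5]
      exact h4.symm
    have h3 := tame_congr w.asIdeal τ (inertia_all p ℓ hpl v w hv τ) y a b β η _ (nv w β) hτy hy1
      hy0 hβ0 hβ ha hb hab
    rw [← h2] at h3
    have h4 : algebraMap (𝓞 K) (𝓞 F) ((1 + z) * ((hyK.autToPow K τ : ZMod ℓ).val : 𝓞 K) ^ (nv v x) - 1)
        ∈ w.asIdeal := by
      have h5 : algebraMap (𝓞 K) (𝓞 F)
          ((1 + z) * ((hyK.autToPow K τ : ZMod ℓ).val : 𝓞 K) ^ (nv v x) - 1) =
          (η * ((hyK.autToPow K τ : ZMod ℓ).val : 𝓞 F) ^ (nv v x) - 1) -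
          (y - 1) * (algebraMap (𝓞 K) (𝓞 F) z * ((hyK.autToPow K τ : ZMod ℓ).val : 𝓞 F) ^ (nv v x)) := by
        rw [hηdef, map_sub, map_mul, map_add, map_one, map_pow, map_natCast]; ring
      rw [h5]
      exact w.asIdeal.sub_mem h3 (w.asIdeal.mul_mem_right _ hy1)
    rw [hw.over]
    exact h4

end

end Fermat.Agent.ExtVan
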