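import Fermat.Agent.ExtVan.CycField

set_option autoImplicit false
set_option linter.all false

open NumberField Polynomial

namespace Fermat.Agent.ExtVan

theorem prod_one_add_primitiveRoots {C : Type*} [Field C] {ℓ : ℕ} (hℓ : ℓ.Prime) (hodd : Odd ℓ)
    {μ : C} (hμ : IsPrimitiveRoot μ ℓ) {z : C} (hz : z ^ ℓ = z) (hz1 : 1 + z ≠ 0) :
    ∏ ν ∈ primitiveRoots ℓ C, (1 + z * ν) = 1 := by
  classical
  have h1 := hμ.pow_add_pow_eq_prod_add_mul 1 z hodd
  rw [nthRootsFinset_eq_of_prime hℓ, Finset.prod_union, Finset.prod_singleton, hz] at h1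
  · simp only [one_pow, one_mul] at h1
    have h2 : (∏ ν ∈ primitiveRoots ℓ C, (1 + z * ν)) = ∏ ν ∈ primitiveRoots ℓ C, (1 + ν * z) :=
      Finset.prod_congr rfl (fun ν _ => by rw [mul_comm])
    rw [h2]
    have h3 : (∏ ν ∈ primitiveRoots ℓ C, (1 + ν * z)) * (1 + z) = 1 * (1 + z) := by
      rw [one_mul]; exact h1.symm
    exact mul_right_cancel₀ hz1 h3
  · rw [Finset.disjoint_singleton_right, mem_primitiveRoots hℓ.pos]
    intro h
    exact hℓ.one_lt.ne' (h.unique IsPrimitiveRoot.one)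

variable {K F : Type*} [Field K] [Field F] [NumberField K] [NumberField F] [Algebra K F]

theorem norm_one_add (p ℓ : ℕ) [Fact p.Prime] [Fact ℓ.Prime] (hp : 3 ≤ p) (hℓ : p ∣ ℓ - 1)
    [IsCyclotomicExtension {p} ℚ K] [IsCyclotomicExtension {ℓ} K F]
    {z : K} (hz : IsPrimitiveRoot z p) {y : F} (hy : IsPrimitiveRoot y ℓ) :
    Algebra.norm K (1 + algebraMap K F z * y) = 1 := by
  have hpP : p.Prime := Fact.out
  have hℓP : ℓ.Prime := Fact.out
  have hpℓ : p < ℓ := by
    have := Nat.le_of_dvd (by have := hℓP.two_le; omega) hℓ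
    have := hℓP.two_le
    omega
  have hcop : p.Coprime ℓ := (Nat.coprime_primes hpP hℓP).mpr hpℓ.ne
  haveI : NeZero p := ⟨hpP.ne_zero⟩
  haveI : NeZero ℓ := ⟨hℓP.ne_zero⟩
  have hirr := cyclotomic_irreducible_of_coprime (K := K) (F := F) p ℓ hcop
  have hodd : Odd ℓ := hℓP.odd_of_ne_two (by omega)
  haveI : FiniteDimensional K F := IsCyclotomicExtension.finiteDimensional {ℓ} K F
  apply FaithfulSMul.algebraMap_injective K (AlgebraicClosure F)
  rw [Algebra.norm_eq_prod_embeddings K (AlgebraicClosure F), map_one]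
  have h1 : ∀ σ : F →ₐ[K] AlgebraicClosure F, σ (1 + algebraMap K F z * y)
      = 1 + algebraMap K (AlgebraicClosure F) z * (hy.embeddingsEquivPrimitiveRoots (AlgebraicClosure F) hirr σ : AlgebraicClosure F) := by
    intro σ
    rw [map_add, map_one, map_mul, AlgHom.commutes,
      IsPrimitiveRoot.embeddingsEquivPrimitiveRoots_apply_coe]
  rw [Finset.prod_congr rfl (fun σ _ => h1 σ)]
  rw [Equiv.prod_comp (hy.embeddingsEquivPrimitiveRoots (AlgebraicClosure F) hirr)
    (fun ν => 1 + algebraMap K (AlgebraicClosure F) z * (ν : AlgebraicClosure F))]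
  rw [Finset.prod_coe_sort (primitiveRoots ℓ (AlgebraicClosure F)) (fun ν => 1 + algebraMap K (AlgebraicClosure F) z * ν)]
  have hz' : z ^ ℓ = z := by
    obtain ⟨k, hk⟩ := hℓ
    have : ℓ = p * k + 1 := by have := hℓP.two_le; omega
    rw [this, pow_succ, pow_mul, hz.pow_eq_one, one_pow, one_mul]
  have hz1 : (1 : K) + z ≠ 0 := by
    intro h
    have h2 : z = -1 := by linear_combination h
    have h3 := hz.pow_eq_one
    have : z ^ 2 = 1 := by rw [h2]; norm_num
    have := hz.dvd_of_pow_eq_one 2 this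
    have := Nat.le_of_dvd (by norm_num) this
    omega
  apply prod_one_add_primitiveRoots hℓP hodd (hy.map_of_injective (FaithfulSMul.algebraMap_injective F (AlgebraicClosure F)))
  · rw [← map_pow, hz']
  · rw [← map_one (algebraMap K (AlgebraicClosure F)), ← map_add]
    intro h
    exact hz1 ((map_eq_zero _).mp h)

end Fermat.Agent.ExtVan
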