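import Fermat.Agent.ExtVan.ThaineNorm
import Fermat.Agent.ExtVan.PrimeExist

set_option autoImplicit false
set_option linter.all false

open NumberField Polynomial IsDedekindDomain

namespace Fermat.Agent.ExtVan

section LO

variable {R : Type*} [CommRing R] [IsDomain R] [CharZero R]

theorem liesOver_of_mem {q : ℕ} (hq : q.Prime) {P : Ideal R} [hP : P.IsPrime] (h : (q : R) ∈ P) :
    P.LiesOver (Ideal.span {(q : ℤ)}) := by
  constructor
  have hm : (Ideal.span {(q : ℤ)}).IsMaximal := by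
    apply PrincipalIdealRing.isMaximal_of_irreducible
    exact (Nat.prime_iff_prime_int.mp hq).irreducible
  apply hm.eq_of_le
  · exact (Ideal.IsPrime.under ℤ P).ne_top
  · rw [Ideal.span_singleton_le_iff_mem]
    simpa [Ideal.under_def, Ideal.mem_comap] using h

theorem mem_of_liesOver {q : ℕ} {P : Ideal R} [h : P.LiesOver (Ideal.span {(q : ℤ)})] :
    (q : R) ∈ P := by
  have h1 : ((q : ℤ)) ∈ P.under ℤ := by
    rw [← h.over]; exact Ideal.mem_span_singleton_self _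
  simpa [Ideal.under_def, Ideal.mem_comap] using h1

end LO

variable {K F : Type*} [Field K] [Field F] [NumberField K] [NumberField F] [Algebra K F]

theorem ne_of_mem_of_mem {v : HeightOneSpectrum (𝓞 K)} {a b : ℕ} (ha : a.Prime) (hb : b.Prime)
    (h1 : (a : 𝓞 K) ∈ v.asIdeal) (h2 : (b : 𝓞 K) ∈ v.asIdeal) : a = b := by
  by_contra hne
  have hcop : IsCoprime (a : ℤ) (b : ℤ) := by
    rw [Int.isCoprime_iff_gcd_eq_one]
    exact_mod_cast (Nat.coprime_primes ha hb).mpr hne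
  obtain ⟨x, y, hxy⟩ := hcop
  have : (1 : 𝓞 K) ∈ v.asIdeal := by
    have h3 : ((x * a + y * b : ℤ) : 𝓞 K) = 1 := by rw [hxy]; simp
    rw [← h3]
    push_cast
    exact v.asIdeal.add_mem (v.asIdeal.mul_mem_left _ h1) (v.asIdeal.mul_mem_left _ h2)
  exact v.isPrime.ne_top ((Ideal.eq_top_iff_one _).mpr this)

section ram

variable (p ℓ : ℕ) [Fact p.Prime] [Fact ℓ.Prime] (hpl : p ≠ ℓ)
    [IsCyclotomicExtension {p} ℚ K] [IsCyclotomicExtension {ℓ} K F]
    (v : HeightOneSpectrum (𝓞 K)) (w : HeightOneSpectrum (𝓞 F)) [hw : w.asIdeal.LiesOver v.asIdeal]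

include hpl in
theorem ram_above (hv : (ℓ : 𝓞 K) ∈ v.asIdeal) :
    w.asIdeal.ramificationIdx (𝓞 K) = ℓ - 1 := by
  have hpP : p.Prime := Fact.out
  have hℓP : ℓ.Prime := Fact.out
  haveI : NeZero p := ⟨hpP.ne_zero⟩
  haveI : NeZero ℓ := ⟨hℓP.ne_zero⟩
  have hcop : p.Coprime ℓ := (Nat.coprime_primes hpP hℓP).mpr hpl
  haveI := isCyc_mul (K := K) (F := F) p ℓ hcop
  haveI := v.isPrime
  haveI := w.isPrime
  haveI h1 : v.asIdeal.LiesOver (Ideal.span {(ℓ : ℤ)}) := liesOver_of_mem hℓP hv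
  haveI h2 : w.asIdeal.LiesOver (Ideal.span {(ℓ : ℤ)}) := Ideal.LiesOver.trans w.asIdeal v.asIdeal _
  have e1 : w.asIdeal.ramificationIdx ℤ = ℓ ^ 0 * (ℓ - 1) :=
    IsCyclotomicExtension.Rat.ramificationIdx_eq (p * ℓ) F w.asIdeal (m := p) (by ring)
      (by rw [Nat.prime_dvd_prime_iff_eq hℓP hpP]; exact fun h => hpl h.symm)
  have e2 : v.asIdeal.ramificationIdx ℤ = 1 :=
    IsCyclotomicExtension.Rat.ramificationIdx_eq_of_not_dvd ℓ K v.asIdeal (m := p)
      (by rw [Nat.prime_dvd_prime_iff_eq hℓP hpP]; exact fun h => hpl h.symm)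
  have e3 := Ideal.ramificationIdx_tower (R := ℤ) v.asIdeal w.asIdeal
  rw [e1, e2] at e3
  simpa using e3.symm

include hpl in
theorem ram_away (hv : (ℓ : 𝓞 K) ∉ v.asIdeal) :
    w.asIdeal.ramificationIdx (𝓞 K) = 1 := by
  have hpP : p.Prime := Fact.out
  have hℓP : ℓ.Prime := Fact.out
  haveI : NeZero p := ⟨hpP.ne_zero⟩
  haveI : NeZero ℓ := ⟨hℓP.ne_zero⟩
  have hcop : p.Coprime ℓ := (Nat.coprime_primes hpP hℓP).mpr hpl
  haveI := isCyc_mul (K := K) (F := F) p ℓ hcop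
  haveI : NeZero (p * ℓ) := ⟨mul_ne_zero (NeZero.ne p) (NeZero.ne ℓ)⟩
  haveI := v.isPrime
  haveI := w.isPrime
  obtain ⟨f, -, -, hmem⟩ := rp_spec v
  set q := rp v with hqdef
  have hqP : q.Prime := rp_prime v
  haveI : Fact q.Prime := ⟨hqP⟩
  have hql : q ≠ ℓ := by rintro h; rw [h] at hmem; exact hv hmem
  haveI h1 : v.asIdeal.LiesOver (Ideal.span {(q : ℤ)}) := liesOver_of_mem hqP hmem
  haveI h2 : w.asIdeal.LiesOver (Ideal.span {(q : ℤ)}) := Ideal.LiesOver.trans w.asIdeal v.asIdeal _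
  have e3 := Ideal.ramificationIdx_tower (R := ℤ) v.asIdeal w.asIdeal
  by_cases hqp : q = p
  · have e1 : w.asIdeal.ramificationIdx ℤ = q ^ 0 * (q - 1) :=
      IsCyclotomicExtension.Rat.ramificationIdx_eq (p * ℓ) F w.asIdeal (m := ℓ) (by rw [hqp]; ring)
        (by rw [Nat.prime_dvd_prime_iff_eq hqP hℓP]; exact hql)
    haveI : IsCyclotomicExtension {q} ℚ K := by rw [hqp]; infer_instance
    have e2 : v.asIdeal.ramificationIdx ℤ = q - 1 :=
      IsCyclotomicExtension.Rat.ramificationIdx_eq_of_prime q K v.asIdeal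
    rw [e1, e2] at e3
    have : 0 < q - 1 := by have := hqP.two_le; omega
    rw [pow_zero, one_mul] at e3
    exact (Nat.eq_of_mul_eq_mul_left this (by rw [mul_one]; exact e3)).symm
  · have e1 : w.asIdeal.ramificationIdx ℤ = 1 :=
      IsCyclotomicExtension.Rat.ramificationIdx_eq_of_not_dvd q F w.asIdeal (m := p * ℓ)
        (by rw [hqP.dvd_mul, Nat.prime_dvd_prime_iff_eq hqP hpP, Nat.prime_dvd_prime_iff_eq hqP hℓP]
            tauto)
    rw [e1] at e3
    exact Nat.eq_one_of_mul_eq_one_left e3.symm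

end ram

end Fermat.Agent.ExtVan
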