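import Fermat.Agent.ExtVan.ThaineH90

set_option autoImplicit false
set_option linter.all false

open NumberField Polynomial IsDedekindDomain WithZero

namespace Fermat.Agent.ExtVan

variable {K F : Type} [Field K] [Field F] [NumberField K] [NumberField F] [Algebra K F]

section

variable (p ℓ : ℕ) [Fact p.Prime] [Fact ℓ.Prime]
    [IsCyclotomicExtension {p} ℚ K] [IsCyclotomicExtension {ℓ} K F]

theorem inertia_all (hpl : p ≠ ℓ) [IsGalois K F]
    (v : HeightOneSpectrum (𝓞 K)) (w : HeightOneSpectrum (𝓞 F)) [hw : w.asIdeal.LiesOver v.asIdeal]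
    (hv : (ℓ : 𝓞 K) ∈ v.asIdeal) (σ : Gal(F/K)) (x : 𝓞 F) : σ • x - x ∈ w.asIdeal := by
  have hpP : p.Prime := Fact.out
  have hℓP : ℓ.Prime := Fact.out
  haveI : NeZero p := ⟨hpP.ne_zero⟩
  haveI : NeZero ℓ := ⟨hℓP.ne_zero⟩
  have hcop : p.Coprime ℓ := (Nat.coprime_primes hpP hℓP).mpr hpl
  haveI := v.isPrime
  haveI := w.isPrime
  haveI : v.asIdeal.IsMaximal := v.isMaximal
  haveI : Finite (𝓞 K ⧸ v.asIdeal) := Ideal.finiteQuotientOfFreeOfNeBot _ v.ne_bot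
  haveI : Finite v.asIdeal.ResidueField :=
    Finite.of_surjective _ (Ideal.bijective_algebraMap_quotient_residueField v.asIdeal).surjective
  have h1 : Nat.card (w.asIdeal.inertia Gal(F/K)) = v.asIdeal.ramificationIdxIn (𝓞 F) :=
    Ideal.card_inertia_eq_ramificationIdxIn v.asIdeal w.asIdeal
  rw [Ideal.ramificationIdxIn_eq_ramificationIdx v.asIdeal w.asIdeal Gal(F/K),
    ram_above p ℓ hpl v w hv] at h1
  have h2 : Nat.card (Gal(F/K)) = ℓ - 1 := by
    rw [IsGalois.card_aut_eq_finrank, finrank_cyc (K := K) (F := F) p ℓ hcop, Nat.totient_prime hℓP]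
  have h3 : w.asIdeal.inertia Gal(F/K) = ⊤ := by
    apply Subgroup.eq_top_of_card_eq
    rw [h1, h2]
  have h4 : σ ∈ w.asIdeal.inertia Gal(F/K) := by rw [h3]; trivial
  exact h4 x

theorem intVal_mu (hpl : p ≠ ℓ)
    (v : HeightOneSpectrum (𝓞 K)) (w : HeightOneSpectrum (𝓞 F)) [hw : w.asIdeal.LiesOver v.asIdeal]
    (hv : (ℓ : 𝓞 K) ∈ v.asIdeal) {y : 𝓞 F} (hy : IsPrimitiveRoot y ℓ) :
    w.intValuation (y - 1) = exp (-1 : ℤ) := by
  have hpP : p.Prime := Fact.out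
  have hℓP : ℓ.Prime := Fact.out
  haveI : NeZero p := ⟨hpP.ne_zero⟩
  haveI : NeZero ℓ := ⟨hℓP.ne_zero⟩
  haveI := v.isPrime
  haveI := w.isPrime
  have hwℓ : (ℓ : 𝓞 F) ∈ w.asIdeal := by
    have h1 : (ℓ : 𝓞 K) ∈ w.asIdeal.under (𝓞 K) := by rw [← hw.over]; exact hv
    simpa [Ideal.under_def, Ideal.mem_comap] using h1
  have h1 := intVal_prime hℓP w hwℓ
  have h2 := Ideal.ramificationIdx_tower (R := ℤ) v.asIdeal w.asIdeal
  haveI h3 : v.asIdeal.LiesOver (Ideal.span {(ℓ : ℤ)}) := liesOver_of_mem hℓP hv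
  have e2 : v.asIdeal.ramificationIdx ℤ = 1 :=
    IsCyclotomicExtension.Rat.ramificationIdx_eq_of_not_dvd ℓ K v.asIdeal (m := p)
      (by rw [Nat.prime_dvd_prime_iff_eq hℓP hpP]; exact fun h => hpl h.symm)
  rw [e2, one_mul, ram_above p ℓ hpl v w hv] at h2
  rw [h2, ← intVal_assoc w (assoc_prime hℓP hy), map_pow] at h1
  have h0 : ℓ - 1 ≠ 0 := by have := hℓP.two_le; omega
  exact (pow_left_inj₀ zero_le' zero_le' h0).mp h1

end

end Fermat.Agent.ExtVan
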