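import Fermat.Agent.ExtVan.ThaineRam

set_option autoImplicit false
set_option linter.all false

open NumberField Polynomial IsDedekindDomain WithZero

namespace Fermat.Agent.ExtVan

section val

variable {R : Type*} [CommRing R] [IsDedekindDomain R]

/-- the exponent of `v` in `(x)`. -/
noncomputable def nv (v : HeightOneSpectrum R) (x : R) : ℕ :=
  multiplicity v.asIdeal (Ideal.span {x})

theorem intVal_eq (v : HeightOneSpectrum R) {x : R} (hx : x ≠ 0) :
    v.intValuation x = exp (-(nv v x : ℤ)) := v.intValuation_eq_exp_neg_multiplicity hx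

theorem intVal_assoc (v : HeightOneSpectrum R) {x y : R} (h : Associated x y) :
    v.intValuation x = v.intValuation y := by
  obtain ⟨u, rfl⟩ := h
  rw [map_mul]
  have : v.intValuation (u : R) = 1 := by
    rw [HeightOneSpectrum.intValuation_eq_one_iff]
    intro hu
    exact v.isPrime.ne_top (Ideal.eq_top_of_isUnit_mem _ hu u.isUnit)
  rw [this, mul_one]

theorem local_rep (v : HeightOneSpectrum R) {β l : R} (hβ : β ≠ 0)
    (hl : v.intValuation l = exp (-1 : ℤ)) :
    ∃ a b : R, a ∉ v.asIdeal ∧ b ∉ v.asIdeal ∧ a * β = b * l ^ (nv v β) := by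
  have hne : Ideal.span {β} ≠ 0 := by simpa using hβ
  have hfin : FiniteMultiplicity v.asIdeal (Ideal.span {β}) :=
    FiniteMultiplicity.of_prime_left v.prime hne
  obtain ⟨I, hI, hnd⟩ := hfin.exists_eq_pow_mul_and_not_dvd
  have hnle : ¬ I ≤ v.asIdeal := by rwa [← Ideal.dvd_iff_le]
  obtain ⟨b, hbI, hb⟩ := SetLike.not_le_iff_exists.mp hnle
  have hlmem : l ∈ v.asIdeal := by
    rw [← v.intValuation_lt_one_iff_mem, hl, ← exp_zero, exp_lt_exp]; norm_num
  have h1 : b * l ^ (nv v β) ∈ Ideal.span {β} := by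
    rw [hI, mul_comm b]
    exact Ideal.mul_mem_mul (Ideal.pow_mem_pow hlmem _) hbI
  obtain ⟨a, ha⟩ := Ideal.mem_span_singleton'.mp h1
  refine ⟨a, b, ?_, hb, ha⟩
  have h2 : v.intValuation a * v.intValuation β = v.intValuation b * v.intValuation l ^ (nv v β) := by
    rw [← map_mul, ha, map_mul, map_pow]
  rw [HeightOneSpectrum.intValuation_eq_one_iff.mpr hb, one_mul, hl, ← exp_nsmul,
    intVal_eq v hβ] at h2
  have h3 : (nv v β) • (-1 : ℤ) = -(nv v β : ℤ) := by simp
  rw [h3] at h2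
  rw [← HeightOneSpectrum.intValuation_eq_one_iff]
  exact mul_right_cancel₀ exp_ne_zero (h2.trans (one_mul _).symm)

end val

/-- `ℓ` is associated to `(μ-1)^(ℓ-1)` in any domain containing a primitive `ℓ`-th root `μ`. -/
theorem assoc_prime {R : Type*} [CommRing R] [IsDomain R] {ℓ : ℕ} (hℓ : ℓ.Prime) {μ : R}
    (hμ : IsPrimitiveRoot μ ℓ) : Associated ((μ - 1) ^ (ℓ - 1)) (ℓ : R) := by
  have h1 : IsPrimitiveRoot μ ((ℓ - 1) + 1) := by
    rwa [Nat.sub_add_cancel hℓ.one_le]
  have h2 := h1.prod_one_sub_pow_eq_order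
  have h3 : (((ℓ - 1 : ℕ) : R) + 1) = (ℓ : R) := by
    rw [← Nat.cast_add_one, Nat.sub_add_cancel hℓ.one_le]
  rw [← h3, ← h2]
  have h4 : (μ - 1) ^ (ℓ - 1) = ∏ k ∈ Finset.range (ℓ - 1), (μ - 1) := by simp
  rw [h4]
  apply Associated.prod
  intro k hk
  have hk' := Finset.mem_range.mp hk
  have h5 := hμ.associated_sub_one_pow_sub_one_of_coprime (j := k + 1)
    (Nat.Coprime.symm ((Nat.coprime_or_dvd_of_prime hℓ (k+1)).resolve_right (fun h => by
      have := Nat.le_of_dvd (Nat.succ_pos k) h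
      omega)))
  refine h5.trans ?_
  rw [← neg_sub]
  exact (Associated.refl _).neg_left

variable {K F : Type*} [Field K] [Field F] [NumberField K] [NumberField F] [Algebra K F]

theorem intVal_prime {q : ℕ} (hq : q.Prime) (w : HeightOneSpectrum (𝓞 F))
    (hw : (q : 𝓞 F) ∈ w.asIdeal) :
    w.intValuation (q : 𝓞 F) = exp (-1 : ℤ) ^ (w.asIdeal.ramificationIdx ℤ) := by
  haveI := w.isPrime
  haveI h1 : w.asIdeal.LiesOver (Ideal.span {(q : ℤ)}) := liesOver_of_mem hq hw
  have hqp : Prime (q : ℤ) := Nat.prime_iff_prime_int.mp hq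
  let u : HeightOneSpectrum ℤ := ⟨Ideal.span {(q : ℤ)},
    (Ideal.span_singleton_prime hqp.ne_zero).mpr hqp, by simpa using hq.ne_zero⟩
  haveI : w.asIdeal.LiesOver u.asIdeal := h1
  have h2 := HeightOneSpectrum.intValuation_liesOver (A := ℤ) (B := 𝓞 F) u w (q : ℤ)
  rw [u.intValuation_singleton hqp.ne_zero rfl] at h2
  rw [Ideal.ramificationIdx'_eq_ramificationIdx u.asIdeal w.asIdeal u.ne_bot] at h2
  rw [h2]
  congr 1
  simp

end Fermat.Agent.ExtVan
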