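import Mathlib

set_option autoImplicit false
set_option linter.all false

open Polynomial Module

namespace Fermat.Agent.ExtVan

section

variable {M : Type*} [AddCommGroup M] [Module.Free ℤ M] [Module.Finite ℤ M]

/-- If `v` is a cyclic vector over `ℚ` killed by a monic polynomial `P` of degree the rank, then
`P` is the characteristic polynomial. -/
theorem charpoly_eq_of_cyclic (T : M →ₗ[ℤ] M) (v : M) (P : ℤ[X]) (hP : P.Monic)
    (hdeg : P.natDegree = finrank ℤ M) (hPv : aeval T P v = 0)
    (hind : ∀ c : ℕ → ℤ, ∑ i ∈ Finset.range (finrank ℤ M), c i • (T ^ i) v = 0 →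
      ∀ i < finrank ℤ M, c i = 0) :
    T.charpoly = P := by
  have hC : T.charpoly.Monic := T.charpoly_monic
  have hCdeg : T.charpoly.natDegree = finrank ℤ M := T.charpoly_natDegree
  rw [← sub_eq_zero]
  by_contra hne
  have hlt : (T.charpoly - P).natDegree < finrank ℤ M := by
    by_cases h0 : finrank ℤ M = 0
    · exfalso
      apply hne
      have h1 : T.charpoly = 1 := hC.natDegree_eq_zero.mp (by rw [hCdeg, h0])
      have h2 : P = 1 := hP.natDegree_eq_zero.mp (by rw [hdeg, h0])
      rw [h1, h2, sub_self]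
    · have h3 : (T.charpoly - P).degree < T.charpoly.degree := by
        apply degree_sub_lt
        · rw [degree_eq_natDegree hC.ne_zero, degree_eq_natDegree hP.ne_zero, hCdeg, hdeg]
        · exact hC.ne_zero
        · rw [hC.leadingCoeff, hP.leadingCoeff]
      rw [← hCdeg]
      exact natDegree_lt_natDegree hne h3
  have h4 : aeval T (T.charpoly - P) v = 0 := by
    rw [map_sub, LinearMap.aeval_self_charpoly, LinearMap.sub_apply, hPv, LinearMap.zero_apply,
      sub_self]
  have h5 : aeval T (T.charpoly - P) v =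
      ∑ i ∈ Finset.range (finrank ℤ M), (T.charpoly - P).coeff i • (T ^ i) v := by
    rw [aeval_eq_sum_range' hlt, LinearMap.sum_apply]
    rfl
  have h6 := hind _ (h5.symm.trans h4)
  apply hne
  ext i
  rw [coeff_zero]
  by_cases hi : i < finrank ℤ M
  · exact h6 i hi
  · exact coeff_eq_zero_of_natDegree_lt (by omega)

section red

variable {ι : Type*} (b : Basis ι ℤ M) (p : ℕ)

/-- reduction of coordinates -/
noncomputable def red : M →+ (ι → ZMod p) where
  toFun x i := ((b.repr x i : ℤ) : ZMod p)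
  map_zero' := by ext i; simp
  map_add' x y := by ext i; simp

theorem red_apply (x : M) (i : ι) : red b p x i = ((b.repr x i : ℤ) : ZMod p) := rfl

theorem red_eq_zero_iff [Fintype ι] (x : M) : red b p x = 0 ↔ ∃ y, x = p • y := by
  constructor
  · intro h
    have h1 : ∀ i, ∃ c : ℤ, b.repr x i = p * c := by
      intro i
      have := congrFun h i
      rw [red_apply, Pi.zero_apply, ZMod.intCast_zmod_eq_zero_iff_dvd] at this
      exact this
    choose c hc using h1
    refine ⟨∑ i, c i • b i, ?_⟩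
    conv_lhs => rw [← b.sum_repr x]
    rw [Finset.smul_sum]
    apply Finset.sum_congr rfl
    intro i _
    rw [hc i, mul_smul, natCast_zsmul]
  · rintro ⟨y, rfl⟩
    rw [map_nsmul]
    ext i
    simp

theorem red_map [Fintype ι] [DecidableEq ι] (T : M →ₗ[ℤ] M) (x : M) :
    red b p (T x) = ((LinearMap.toMatrix b b T).map (Int.castRingHom (ZMod p))).toLin' (red b p x) := by
  ext i
  rw [Matrix.toLin'_apply, red_apply, Matrix.mulVec, dotProduct]
  have h1 : b.repr (T x) i = ∑ j, LinearMap.toMatrix b b T i j * b.repr x j := by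
    have := LinearMap.toMatrix_mulVec_repr b b T x
    rw [← this]
    rfl
  rw [h1]
  push_cast
  apply Finset.sum_congr rfl
  intro j _
  rfl

theorem eigen_unique [Fintype ι] [Fact p.Prime] (n : ℕ) (hn : ¬ p ∣ n) (T : M →ₗ[ℤ] M)
    (hT : T.charpoly = ∑ i ∈ Finset.range n, (X : ℤ[X]) ^ i) (m : ℕ) (x y : M)
    (hx : red b p (T x) = (m : ZMod p) • red b p x) (hy : red b p (T y) = (m : ZMod p) • red b p y)
    (hx0 : red b p x ≠ 0) : ∃ k : ℕ, red b p y = (k : ZMod p) • red b p x := by
  classical
  have hpP : p.Prime := Fact.out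
  set A := (LinearMap.toMatrix b b T).map (Int.castRingHom (ZMod p)) with hA
  have hchar : A.toLin'.charpoly = ∑ i ∈ Finset.range n, (X : (ZMod p)[X]) ^ i := by
    rw [Matrix.charpoly_toLin', hA, Matrix.charpoly_map, LinearMap.charpoly_toMatrix, hT,
      Polynomial.map_sum]
    simp
  have hsep : (∑ i ∈ Finset.range n, (X : (ZMod p)[X]) ^ i).Separable := by
    have h1 : ((X : (ZMod p)[X]) ^ n - 1).Separable := by
      have h2 : ((n : ℕ) : ZMod p) ≠ 0 := by rwa [Ne, ZMod.natCast_eq_zero_iff]
      exact X_pow_sub_one_separable_iff.mpr h2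
    exact h1.of_dvd ⟨X - 1, (geom_sum_mul _ _).symm⟩
  have hmult : finrank (ZMod p) (End.eigenspace A.toLin' (m : ZMod p)) ≤ 1 := by
    refine (LinearMap.finrank_eigenspace_le _ _).trans ?_
    rw [hchar]
    exact rootMultiplicity_le_one_of_separable hsep _
  have hxm : red b p x ∈ End.eigenspace A.toLin' (m : ZMod p) := by
    rw [End.mem_eigenspace_iff, ← red_map, hx]
  have hym : red b p y ∈ End.eigenspace A.toLin' (m : ZMod p) := by
    rw [End.mem_eigenspace_iff, ← red_map, hy]
  obtain ⟨w, hw⟩ := finrank_le_one_iff.mp hmult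
  obtain ⟨c1, hc1⟩ := hw ⟨_, hxm⟩
  obtain ⟨c2, hc2⟩ := hw ⟨_, hym⟩
  have e1 : c1 • (w : ι → ZMod p) = red b p x := congrArg Subtype.val hc1
  have e2 : c2 • (w : ι → ZMod p) = red b p y := congrArg Subtype.val hc2
  have hc10 : c1 ≠ 0 := by
    rintro rfl
    rw [zero_smul] at e1
    exact hx0 e1.symm
  refine ⟨(c2 * c1⁻¹).val, ?_⟩
  rw [ZMod.natCast_val, ZMod.cast_id, ← e1, ← e2, smul_smul, mul_assoc, inv_mul_cancel₀ hc10, mul_one]

end red

end

end Fermat.Agent.ExtVan
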