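import Fermat.Agent.ExtVan.UnitMax
import Fermat.Agent.ExtVan.UnitAlg
import Fermat.Agent.ExtVan.LocalLog3

set_option autoImplicit false
set_option linter.all false

open Polynomial NumberField NumberField.Units
open scoped Pointwise

namespace Fermat.Agent.ExtVan

variable {K : Type} [Field K] [NumberField K] {p : ℕ} [Fact p.Prime]
  [IsCyclotomicExtension {p} ℚ K]

theorem orderOf_gen {σ₀ : Gal(K/ℚ)} (hσ₀ : ∀ σ : Gal(K/ℚ), σ ∈ Subgroup.zpowers σ₀) :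
    orderOf σ₀ = p - 1 := by
  rw [orderOf_eq_card_of_forall_mem_zpowers hσ₀, card_gal (K := K) p]

theorem cy_half (hp : 3 ≤ p) {z : 𝓞 K} (hz : IsPrimitiveRoot z p) {σ₀ : Gal(K/ℚ)}
    (hσ₀ : ∀ σ : Gal(K/ℚ), σ ∈ Subgroup.zpowers σ₀) :
    (cy hz (σ₀ ^ ((p - 1) / 2)) : ZMod p) = -1 := by
  have hpP : p.Prime := Fact.out
  have hodd : Odd p := hpP.odd_of_ne_two (by omega)
  have hord := orderOf_gen (p := p) hσ₀
  have h2 : (p - 1) / 2 * 2 = p - 1 := by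
    obtain ⟨k, hk⟩ := hodd
    omega
  have h1 : (cy hz (σ₀ ^ ((p - 1) / 2)) : ZMod p) ^ 2 = 1 := by
    rw [← cy_pow, ← pow_mul, h2, ← hord, pow_orderOf_eq_one, cy_one]
  rw [pow_two] at h1
  rcases mul_self_eq_one_iff.mp h1 with h | h
  · exfalso
    have h3 : σ₀ ^ ((p - 1) / 2) = 1 := cy_inj hz (by rw [h, cy_one])
    have h4 := orderOf_dvd_of_pow_eq_one h3
    rw [hord] at h4
    have := Nat.le_of_dvd (by omega) h4
    omega
  · exact h

theorem ringHom_ext {R : Type*} [Field R] [CharZero R] {z : 𝓞 K} (hz : IsPrimitiveRoot z p)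
    (f g : K →+* R) (h : f (z : K) = g (z : K)) : f = g := by
  have hpP : p.Prime := Fact.out
  haveI : NeZero p := ⟨hpP.ne_zero⟩
  have hz' : IsPrimitiveRoot (z : K) p := hz.map_of_injective (FaithfulSMul.algebraMap_injective _ _)
  letI : Algebra ℚ R := DivisionRing.toRatAlgebra
  have h1 : f.toRatAlgHom = g.toRatAlgHom := by
    apply (hz'.powerBasis ℚ).algHom_ext
    rw [IsPrimitiveRoot.powerBasis_gen]
    exact h
  ext x
  exact DFunLike.congr_fun h1 x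

theorem conj_eq (hp : 3 ≤ p) {z : 𝓞 K} (hz : IsPrimitiveRoot z p) {σ₀ : Gal(K/ℚ)}
    (hσ₀ : ∀ σ : Gal(K/ℚ), σ ∈ Subgroup.zpowers σ₀) (φ : K →+* ℂ) :
    ComplexEmbedding.conjugate φ = φ.comp (σ₀ ^ ((p - 1) / 2) : Gal(K/ℚ)).toRingEquiv.toRingHom := by
  have hpP : p.Prime := Fact.out
  haveI : NeZero p := ⟨hpP.ne_zero⟩
  apply ringHom_ext hz
  have hz' : IsPrimitiveRoot (z : K) p := hz.map_of_injective (FaithfulSMul.algebraMap_injective _ _)
  have h1 : (σ₀ ^ ((p - 1) / 2) : Gal(K/ℚ)) (z : K) = (z : K) ^ (cy hz (σ₀ ^ ((p - 1) / 2))) :=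
    congrArg (algebraMap (𝓞 K) K) (cy_spec hz (σ₀ ^ ((p - 1) / 2)))
  have h2 : (z : K) ^ (cy hz (σ₀ ^ ((p - 1) / 2))) * (z : K) = 1 := by
    rw [← pow_succ, hz'.pow_eq_one_iff_dvd, ← ZMod.natCast_eq_zero_iff]
    push_cast
    rw [cy_half hp hz hσ₀]; ring
  have h3 : (φ (z : K)) ^ p = 1 := by rw [← map_pow, hz'.pow_eq_one, map_one]
  have h4 : ‖φ (z : K)‖ = 1 := Complex.norm_eq_one_of_pow_eq_one h3 hpP.ne_zero
  rw [RingHom.comp_apply]
  show starRingEnd ℂ (φ (z : K)) = φ ((σ₀ ^ ((p - 1) / 2) : Gal(K/ℚ)) (z : K))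
  rw [h1]
  have h5 : φ ((z : K) ^ (cy hz (σ₀ ^ ((p - 1) / 2)))) * φ (z : K) = 1 := by
    rw [← map_mul, h2, map_one]
  have h6 : starRingEnd ℂ (φ (z : K)) * φ (z : K) = 1 := by
    rw [mul_comm, Complex.mul_conj, Complex.normSq_eq_norm_sq, h4]; norm_num
  have h7 : φ (z : K) ≠ 0 := by
    intro h0; rw [h0, norm_zero] at h4; exact one_ne_zero h4.symm
  exact mul_right_cancel₀ h7 (h6.trans h5.symm)

end Fermat.Agent.ExtVan
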