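import Fermat.Agent.ExtVan.UnitCyc

set_option autoImplicit false
set_option linter.all false

open Polynomial NumberField NumberField.Units
open scoped Pointwise

namespace Fermat.Agent.ExtVan

variable {K : Type} [Field K] [NumberField K] 

/-- The Galois action on units. -/
noncomputable def uact (σ : Gal(K/ℚ)) : (𝓞 K)ˣ →* (𝓞 K)ˣ :=
  Units.map (MulSemiringAction.toRingHom (Gal(K/ℚ)) (𝓞 K) σ : 𝓞 K →* 𝓞 K)

theorem uact_coe (σ : Gal(K/ℚ)) (u : (𝓞 K)ˣ) : ((uact σ u : (𝓞 K)ˣ) : 𝓞 K) = σ • (u : 𝓞 K) := rfl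

theorem uact_coe_coe (σ : Gal(K/ℚ)) (u : (𝓞 K)ˣ) :
    (((uact σ u : (𝓞 K)ˣ) : 𝓞 K) : K) = σ ((u : 𝓞 K) : K) := rfl

theorem uact_mul (σ τ : Gal(K/ℚ)) (u : (𝓞 K)ˣ) : uact (σ * τ) u = uact σ (uact τ u) :=
  Units.ext (mul_smul σ τ (u : 𝓞 K))

theorem uact_one (u : (𝓞 K)ˣ) : uact 1 u = u := Units.ext (by rw [uact_coe, one_smul])

/-- the logs -/
noncomputable def Lg (φ : K →+* ℂ) (σ₀ : Gal(K/ℚ)) (k : ℕ) (u : (𝓞 K)ˣ) : ℝ :=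
  Real.log ‖φ (((uact (σ₀ ^ k) u : (𝓞 K)ˣ) : 𝓞 K) : K)‖

theorem unit_emb_ne (φ : K →+* ℂ) (u : (𝓞 K)ˣ) : ‖φ ((u : 𝓞 K) : K)‖ ≠ 0 := by
  rw [norm_ne_zero_iff, _root_.map_ne_zero]
  exact NumberField.Units.coe_ne_zero u

theorem Lg_mul (φ : K →+* ℂ) (σ₀ : Gal(K/ℚ)) (k : ℕ) (u v : (𝓞 K)ˣ) :
    Lg φ σ₀ k (u * v) = Lg φ σ₀ k u + Lg φ σ₀ k v := by
  rw [Lg, Lg, Lg, ← Real.log_mul (unit_emb_ne _ _) (unit_emb_ne _ _), ← norm_mul, ← map_mul,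
    map_mul (uact (σ₀ ^ k))]
  rfl

theorem Lg_uact (φ : K →+* ℂ) (σ₀ : Gal(K/ℚ)) (k : ℕ) (u : (𝓞 K)ˣ) :
    Lg φ σ₀ k (uact σ₀ u) = Lg φ σ₀ (k + 1) u := by
  rw [Lg, Lg, pow_succ, uact_mul]

theorem Lg_place (φ : K →+* ℂ) (σ₀ : Gal(K/ℚ)) (k : ℕ) (u : (𝓞 K)ˣ) :
    Lg φ σ₀ k u = Real.log (InfinitePlace.mk (φ.comp (σ₀ ^ k : Gal(K/ℚ)).toRingEquiv.toRingHom) u) := rfl

variable {p : ℕ} [Fact p.Prime] [IsCyclotomicExtension {p} ℚ K]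

theorem Lg_per (hp : 3 ≤ p) {z : 𝓞 K} (hz : IsPrimitiveRoot z p) {σ₀ : Gal(K/ℚ)}
    (hσ₀ : ∀ σ : Gal(K/ℚ), σ ∈ Subgroup.zpowers σ₀) (φ : K →+* ℂ) (k : ℕ) (u : (𝓞 K)ˣ) :
    Lg φ σ₀ (k + (p - 1) / 2) u = Lg φ σ₀ k u := by
  rw [Lg, Lg, add_comm k, pow_add, uact_mul, uact_coe_coe]
  have h1 := DFunLike.congr_fun (conj_eq hp hz hσ₀ φ) (((uact (σ₀ ^ k) u : (𝓞 K)ˣ) : 𝓞 K) : K)
  have h2 : φ ((σ₀ ^ ((p - 1) / 2) : Gal(K/ℚ)) (((uact (σ₀ ^ k) u : (𝓞 K)ˣ) : 𝓞 K) : K)) =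
    starRingEnd ℂ (φ (((uact (σ₀ ^ k) u : (𝓞 K)ˣ) : 𝓞 K) : K)) := h1.symm
  rw [h2, RCLike.norm_conj]

theorem place_ne (hp : 3 ≤ p) {z : 𝓞 K} (hz : IsPrimitiveRoot z p) {σ₀ : Gal(K/ℚ)}
    (hσ₀ : ∀ σ : Gal(K/ℚ), σ ∈ Subgroup.zpowers σ₀) (φ : K →+* ℂ) (k : ℕ)
    (hk : ¬ (p - 1) / 2 ∣ k) :
    InfinitePlace.mk (φ.comp (σ₀ ^ k : Gal(K/ℚ)).toRingEquiv.toRingHom) ≠ InfinitePlace.mk φ := by
  have hpP : p.Prime := Fact.out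
  have hodd : Odd p := hpP.odd_of_ne_two (by omega)
  have hord := orderOf_gen (p := p) hσ₀
  have h2 : (p - 1) / 2 * 2 = p - 1 := by
    obtain ⟨k, hk⟩ := hodd
    omega
  intro h
  rw [InfinitePlace.mk_eq_iff] at h
  apply hk
  have key : ∀ m : ℕ, (∀ x : K, φ ((σ₀ ^ k : Gal(K/ℚ)) x) = φ ((σ₀ ^ m : Gal(K/ℚ)) x)) →
      (p - 1) / 2 ∣ m → (p - 1) / 2 ∣ k := by
    intro m hm hdm
    have h3 : σ₀ ^ k = σ₀ ^ m := by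
      ext x
      exact φ.injective (hm x)
    have h4 : k ≡ m [MOD p - 1] := by rw [← hord]; exact pow_eq_pow_iff_modEq.mp h3
    have h5 : k ≡ m [MOD (p - 1) / 2] := h4.of_dvd ⟨2, h2.symm⟩
    exact (h5.dvd_iff (dvd_refl _)).mpr hdm
  rcases h with h | h
  · apply key 0 _ (dvd_zero _)
    intro x
    exact DFunLike.congr_fun h x
  · apply key ((p - 1) / 2) _ (dvd_refl _)
    intro x
    have h6 := DFunLike.congr_fun h x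
    have h7 := DFunLike.congr_fun (conj_eq hp hz hσ₀ φ) x
    have h8 : starRingEnd ℂ (φ ((σ₀ ^ k : Gal(K/ℚ)) x)) = φ x := h6
    have h9 : starRingEnd ℂ (φ x) = φ ((σ₀ ^ ((p - 1) / 2) : Gal(K/ℚ)) x) := h7
    rw [← h9, ← h8, Complex.conj_conj]

theorem Lg_neg (hp : 3 ≤ p) {z : 𝓞 K} (hz : IsPrimitiveRoot z p) {σ₀ : Gal(K/ℚ)}
    (hσ₀ : ∀ σ : Gal(K/ℚ), σ ∈ Subgroup.zpowers σ₀) (φ : K →+* ℂ) :
    ∃ ε : (𝓞 K)ˣ, ∀ k, ¬ (p - 1) / 2 ∣ k → Lg φ σ₀ k ε < 0 := by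
  obtain ⟨ε, hε⟩ := dirichletUnitTheorem.exists_unit K (InfinitePlace.mk φ)
  refine ⟨ε, fun k hk => ?_⟩
  rw [Lg_place]
  exact hε _ (place_ne hp hz hσ₀ φ k hk)

theorem Lg_sum_all (hp : 3 ≤ p) {σ₀ : Gal(K/ℚ)}
    (hσ₀ : ∀ σ : Gal(K/ℚ), σ ∈ Subgroup.zpowers σ₀) (φ : K →+* ℂ) (u : (𝓞 K)ˣ) :
    ∑ k ∈ Finset.range (p - 1), Lg φ σ₀ k u = 0 := by
  classical
  have hpP : p.Prime := Fact.out
  haveI : IsGalois ℚ K := IsCyclotomicExtension.isGalois {p} ℚ K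
  have hord := orderOf_gen (p := p) hσ₀
  have h1 : ∑ k ∈ Finset.range (p - 1), Lg φ σ₀ k u =
      ∑ σ : Gal(K/ℚ), Real.log ‖φ (((uact σ u : (𝓞 K)ˣ) : 𝓞 K) : K)‖ := by
    have h2 : (Finset.univ : Finset (Gal(K/ℚ))) =
        Finset.image (fun i => σ₀ ^ i) (Finset.range (p - 1)) := by
      rw [← IsCyclic.image_range_orderOf hσ₀, hord]
    rw [h2, Finset.sum_image]
    · rfl
    · intro a ha b hb hab
      have ha' := Finset.mem_range.mp ha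
      have hb' := Finset.mem_range.mp hb
      rw [← hord] at ha' hb'
      exact pow_injOn_Iio_orderOf ha' hb' hab
  rw [h1, ← Real.log_prod (fun σ _ => unit_emb_ne φ _), ← norm_prod, ← map_prod]
  have h3 : ∏ σ : Gal(K/ℚ), (((uact σ u : (𝓞 K)ˣ) : 𝓞 K) : K) =
      algebraMap ℚ K (Algebra.norm ℚ ((u : 𝓞 K) : K)) := by
    rw [Algebra.norm_eq_prod_automorphisms]
    rfl
  rw [h3]
  have h4 := (NumberField.isUnit_iff_norm (x := (u : 𝓞 K))).mp u.isUnit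
  have h5 : |Algebra.norm ℚ ((u : 𝓞 K) : K)| = 1 := h4
  rcases eq_or_eq_neg_of_abs_eq h5 with h | h
  · rw [h, map_one, map_one, norm_one, Real.log_one]
  · rw [h, map_neg, map_one, map_neg, map_one, norm_neg, norm_one, Real.log_one]

theorem Lg_sum (hp : 3 ≤ p) {z : 𝓞 K} (hz : IsPrimitiveRoot z p) {σ₀ : Gal(K/ℚ)}
    (hσ₀ : ∀ σ : Gal(K/ℚ), σ ∈ Subgroup.zpowers σ₀) (φ : K →+* ℂ) (u : (𝓞 K)ˣ) :
    ∑ k ∈ Finset.range ((p - 1) / 2), Lg φ σ₀ k u = 0 := by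
  have hpP : p.Prime := Fact.out
  have hodd : Odd p := hpP.odd_of_ne_two (by omega)
  have h2 : p - 1 = (p - 1) / 2 + (p - 1) / 2 := by
    obtain ⟨k, hk⟩ := hodd
    omega
  have h1 := Lg_sum_all hp hσ₀ φ u
  rw [h2, Finset.sum_range_add] at h1
  have h3 : ∑ x ∈ Finset.range ((p - 1) / 2), Lg φ σ₀ ((p - 1) / 2 + x) u =
      ∑ x ∈ Finset.range ((p - 1) / 2), Lg φ σ₀ x u := by
    apply Finset.sum_congr rfl
    intro x _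
    rw [add_comm]
    exact Lg_per hp hz hσ₀ φ x u
  rw [h3] at h1
  linarith

theorem Lg_torsion [IsGalois ℚ K] {σ₀ : Gal(K/ℚ)}
    (hσ₀ : ∀ σ : Gal(K/ℚ), σ ∈ Subgroup.zpowers σ₀) (φ : K →+* ℂ) (u : (𝓞 K)ˣ) :
    u ∈ torsion K ↔ ∀ k, Lg φ σ₀ k u = 0 := by
  rw [mem_torsion]
  constructor
  · intro h k
    rw [Lg_place, h, Real.log_one]
  · intro h w
    obtain ⟨σ, hσ⟩ := NumberField.ComplexEmbedding.exists_comp_symm_eq_of_comp_eq (k := ℚ) φ w.embedding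
      (Subsingleton.elim _ _)
    obtain ⟨k, hk⟩ := (mem_powers_iff_mem_zpowers.mpr (hσ₀ σ.symm))
    simp only at hk
    have h1 := h k
    have h2 : w = InfinitePlace.mk (φ.comp (σ₀ ^ k : Gal(K/ℚ)).toRingEquiv.toRingHom) := by
      rw [hk, ← InfinitePlace.mk_embedding w, ← hσ]
      rfl
    rw [Lg_place, ← h2] at h1
    have h3 : 0 < w ((u : 𝓞 K) : K) := InfinitePlace.pos_iff.mpr (NumberField.Units.coe_ne_zero u)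
    rcases Real.log_eq_zero.mp h1 with h4 | h4 | h4
    · exact absurd h4 h3.ne'
    · exact h4
    · exfalso; rw [h4] at h3; linarith

end Fermat.Agent.ExtVan
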