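import Fermat.Agent.ExtVan.UnitRank

set_option autoImplicit false
set_option linter.all false
set_option maxSynthPendingDepth 3

open Polynomial NumberField NumberField.Units
open scoped Pointwise

namespace Fermat.Agent.ExtVan

variable {K : Type} [Field K] [NumberField K] 
variable {p : ℕ} [Fact p.Prime] [IsCyclotomicExtension {p} ℚ K]

theorem torsion_form (hp : 3 ≤ p) {z : 𝓞 K} (hz : IsPrimitiveRoot z p) (t : (𝓞 K)ˣ)
    (ht : t ∈ torsion K) : ∃ r : ℕ, (t : 𝓞 K) = z ^ r ∨ (t : 𝓞 K) = -z ^ r := by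
  have hpP : p.Prime := Fact.out
  haveI : NeZero p := ⟨hpP.ne_zero⟩
  have hodd : Odd p := hpP.odd_of_ne_two (by omega)
  have hz' : IsPrimitiveRoot (z : K) p := hz.map_of_injective (FaithfulSMul.algebraMap_injective _ _)
  have hfin : IsOfFinOrder ((t : 𝓞 K) : K) := by
    have h1 : IsOfFinOrder t := ht
    have h2 := MonoidHom.isOfFinOrder (Units.coeHom (𝓞 K)) h1
    exact MonoidHom.isOfFinOrder (algebraMap (𝓞 K) K : 𝓞 K →* K) h2
  obtain ⟨r, -, hr⟩ := hz'.exists_pow_or_neg_mul_pow_of_isOfFinOrder hodd hfin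
  refine ⟨r, ?_⟩
  rcases hr with h | h
  · left; exact RingOfIntegers.ext h
  · right; exact RingOfIntegers.ext h

theorem torsion_sq (hp : 3 ≤ p) {z : 𝓞 K} (hz : IsPrimitiveRoot z p) (t : (𝓞 K)ˣ)
    (ht : t ∈ torsion K) : ∃ r : ℕ, ((t : 𝓞 K) = z ^ r ∨ (t : 𝓞 K) = -z ^ r) ∧
      (t : 𝓞 K) ^ 2 = z ^ (2 * r) := by
  obtain ⟨r, hr⟩ := torsion_form hp hz t ht
  refine ⟨r, hr, ?_⟩
  rcases hr with h | h
  · rw [h, ← pow_mul, mul_comm]
  · rw [h, neg_sq, ← pow_mul, mul_comm]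

theorem cy_gen_ne (hp : 3 ≤ p) {z : 𝓞 K} (hz : IsPrimitiveRoot z p) {σ₀ : Gal(K/ℚ)}
    (hσ₀ : ∀ σ : Gal(K/ℚ), σ ∈ Subgroup.zpowers σ₀) :
    (cy hz σ₀ : ZMod p) - (cy hz σ₀ : ZMod p) ^ 2 ≠ 0 := by
  have hpP : p.Prime := Fact.out
  have hord := orderOf_gen (p := p) hσ₀
  intro h
  have h1 : (cy hz σ₀ : ZMod p) * (1 - cy hz σ₀) = 0 := by linear_combination h
  rcases mul_eq_zero.mp h1 with h2 | h2
  · have h3 := cy_inv_mul hz σ₀
    rw [h2, mul_zero] at h3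
    exact zero_ne_one h3
  · have h3 : σ₀ = 1 := cy_inj hz (by rw [cy_one]; exact (sub_eq_zero.mp h2).symm)
    rw [h3, orderOf_one] at hord
    omega

/-- torsion part -/
theorem torsion_pth (hp : 3 ≤ p) {z : 𝓞 K} (hz : IsPrimitiveRoot z p) {σ₀ : Gal(K/ℚ)}
    (hσ₀ : ∀ σ : Gal(K/ℚ), σ ∈ Subgroup.zpowers σ₀) (t w : (𝓞 K)ˣ) (ht : t ∈ torsion K)
    (h : uact σ₀ t = t ^ (cc hz σ₀) * w ^ p) : ∃ s : (𝓞 K)ˣ, t = s ^ p := by
  have hpP : p.Prime := Fact.out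
  have hodd : Odd p := hpP.odd_of_ne_two (by omega)
  -- w is torsion
  have hw : w ∈ torsion K := by
    have h1 : w ^ p ∈ torsion K := by
      have h2 : w ^ p = (t ^ (cc hz σ₀))⁻¹ * uact σ₀ t := by rw [h]; group
      rw [h2]
      exact mul_mem (inv_mem (pow_mem ht _)) (torsion_stable σ₀ ht)
    exact (IsOfFinOrder.of_pow (h := h1) hpP.ne_zero)
  obtain ⟨r, hr, hr2⟩ := torsion_sq hp hz t ht
  obtain ⟨j, hj, hj2⟩ := torsion_sq hp hz w hw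
  have h3 : z ^ (cy hz σ₀ * (2 * r)) = z ^ ((2 * r) * cc hz σ₀) := by
    have h4 : (σ₀ • (t : 𝓞 K)) ^ 2 = ((t : 𝓞 K) ^ 2) ^ (cc hz σ₀) * ((w : 𝓞 K) ^ 2) ^ p := by
      have h5 : σ₀ • (t : 𝓞 K) = (t : 𝓞 K) ^ (cc hz σ₀) * (w : 𝓞 K) ^ p := by
        rw [← uact_coe, h]; simp
      rw [h5, mul_pow, ← pow_mul, ← pow_mul, ← pow_mul, ← pow_mul, mul_comm 2, mul_comm 2]
    rw [← smul_pow', hr2, hj2, smul_pow', cy_spec hz σ₀, ← pow_mul, ← pow_mul, ← pow_mul,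
      mul_comm (2 * j) p, pow_mul z p, hz.pow_eq_one, one_pow, mul_one] at h4
    exact h4
  have h4 := cast_eq_of_pow_eq h3 hz
  rw [cc] at h4
  push_cast at h4
  have h5 : ((r : ℕ) : ZMod p) = 0 := by
    have h6 : (2 : ZMod p) * r * ((cy hz σ₀ : ZMod p) - (cy hz σ₀ : ZMod p) ^ 2) = 0 := by
      linear_combination h4
    rcases mul_eq_zero.mp h6 with h7 | h7
    · rcases mul_eq_zero.mp h7 with h8 | h8
      · exact absurd h8 (two_ne_zero_zmod p hp)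
      · exact h8
    · exact absurd h7 (cy_gen_ne hp hz hσ₀)
  rw [ZMod.natCast_eq_zero_iff] at h5
  have h6 : z ^ r = 1 := (hz.pow_eq_one_iff_dvd r).mpr h5
  rw [h6] at hr
  rcases hr with h | h
  · exact ⟨1, by rw [one_pow]; exact Units.ext h⟩
  · refine ⟨-1, Units.ext ?_⟩
    rw [h, hodd.neg_one_pow]; rfl

end Fermat.Agent.ExtVan
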