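import Mathlib

set_option autoImplicit false
set_option linter.all false

open Finset

namespace Fermat.Agent.ExtVan

theorem sum_shift (n : ℕ) (L : ℕ → ℝ) (hper : ∀ k, L (k + n) = L k) (j : ℕ) :
    ∑ i ∈ range n, L (i + j) = ∑ i ∈ range n, L i := by
  induction j with
  | zero => simp
  | succ j ih =>
    rw [← ih]
    have h1 : ∑ i ∈ range n, L (i + (j + 1)) + L (0 + j) = ∑ i ∈ range (n + 1), L (i + j) := by
      rw [sum_range_succ']
      congr 1
      apply sum_congr rfl
      intro i _
      congr 1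
      ring
    rw [sum_range_succ] at h1
    have h2 : L (n + j) = L (0 + j) := by
      rw [zero_add, add_comm]; exact hper j
    rw [h2] at h1
    exact add_right_cancel h1

theorem max_principle (n : ℕ) (hn : 0 < n) (L : ℕ → ℝ) (hper : ∀ k, L (k + n) = L k)
    (hneg : ∀ k, ¬ n ∣ k → L k < 0) (hsum : ∑ i ∈ range n, L i = 0) (c : ℕ → ℤ)
    (hc : ∀ j, ∑ i ∈ range (n - 1), (c i : ℝ) * L (i + j) = 0) : ∀ i < n - 1, c i = 0 := by
  set c' : ℕ → ℝ := fun i => if i < n - 1 then (c i : ℝ) else 0 with hc'
  have h1 : ∀ j, ∑ i ∈ range n, c' i * L (i + j) = 0 := by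
    intro j
    have h2 : n = (n - 1) + 1 := by omega
    rw [h2, sum_range_succ]
    have h3 : c' (n - 1) = 0 := by simp [hc']
    rw [h3, zero_mul, add_zero, ← hc j]
    apply sum_congr rfl
    intro i hi
    have := mem_range.mp hi
    simp only [hc', if_pos this]
  obtain ⟨i₀, hi₀, hmax⟩ := exists_max_image (range n) c' ⟨0, mem_range.mpr hn⟩
  have hi₀' := mem_range.mp hi₀
  have h4 : ∑ i ∈ range n, (c' i - c' i₀) * L (i + (n - i₀)) = 0 := by
    have : ∑ i ∈ range n, (c' i - c' i₀) * L (i + (n - i₀)) =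
        ∑ i ∈ range n, c' i * L (i + (n - i₀)) - c' i₀ * ∑ i ∈ range n, L (i + (n - i₀)) := by
      rw [mul_sum, ← sum_sub_distrib]
      apply sum_congr rfl
      intro i _
      ring
    rw [this, h1, sum_shift n L hper, hsum, mul_zero, sub_zero]
  have h5 : ∀ i ∈ range n, i ≠ i₀ → L (i + (n - i₀)) < 0 := by
    intro i hi hne
    apply hneg
    intro hd
    have hi' := mem_range.mp hi
    rcases lt_or_gt_of_ne hne with h | h
    · have := Nat.le_of_dvd (by omega) hd
      omega
    · have h6 : n ∣ (i - i₀) := by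
        have h7 : i + (n - i₀) = (i - i₀) + n := by omega
        rw [h7] at hd
        exact (Nat.dvd_add_left (dvd_refl n)).mp hd
      have := Nat.le_of_dvd (by omega) h6
      omega
  have h6 : ∀ i ∈ range n, 0 ≤ (c' i - c' i₀) * L (i + (n - i₀)) := by
    intro i hi
    by_cases hne : i = i₀
    · rw [hne, sub_self, zero_mul]
    · exact mul_nonneg_of_nonpos_of_nonpos (sub_nonpos.mpr (hmax i hi)) (h5 i hi hne).le
  have h7 := (sum_eq_zero_iff_of_nonneg h6).mp h4
  have h8 : ∀ i ∈ range n, c' i = c' i₀ := by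
    intro i hi
    by_cases hne : i = i₀
    · rw [hne]
    · have := h7 i hi
      rcases mul_eq_zero.mp this with h | h
      · linarith
      · exact absurd h (h5 i hi hne).ne
  have h9 : c' i₀ = 0 := by
    rw [← h8 (n - 1) (mem_range.mpr (by omega))]
    simp [hc']
  intro i hi
  have h10 := h8 i (mem_range.mpr (by omega))
  rw [h9] at h10
  simp only [hc', if_pos hi] at h10
  exact_mod_cast h10

end Fermat.Agent.ExtVan
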