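import Fermat.Agent.ExtVan.UnitLog

set_option autoImplicit false
set_option linter.all false
set_option maxSynthPendingDepth 3

open Polynomial NumberField NumberField.Units
open scoped Pointwise

namespace Fermat.Agent.ExtVan

variable {K : Type} [Field K] [NumberField K] 

theorem torsion_stable (σ : Gal(K/ℚ)) : torsion K ≤ (torsion K).comap (uact σ) := by
  intro u hu
  rw [Subgroup.mem_comap]
  exact MonoidHom.isOfFinOrder (uact σ) hu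

/-- units modulo torsion -/
abbrev MM (K : Type) [Field K] [NumberField K] : Type := Additive ((𝓞 K)ˣ ⧸ torsion K)

/-- class of a unit -/
noncomputable def cl (u : (𝓞 K)ˣ) : MM K := Additive.ofMul (QuotientGroup.mk u)

theorem cl_mul (u v : (𝓞 K)ˣ) : cl (u * v) = cl u + cl v := rfl

theorem cl_surj (x : MM K) : ∃ u, cl u = x := by
  obtain ⟨u, hu⟩ := QuotientGroup.mk_surjective (Additive.toMul x)
  exact ⟨u, by rw [cl, hu]; rfl⟩

theorem cl_eq_zero (u : (𝓞 K)ˣ) : cl u = 0 ↔ u ∈ torsion K := by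
  rw [← QuotientGroup.eq_one_iff]
  rfl

/-- the action on units modulo torsion -/
noncomputable def TT (σ : Gal(K/ℚ)) : MM K →ₗ[ℤ] MM K :=
  (MonoidHom.toAdditive (QuotientGroup.map (torsion K) (torsion K) (uact σ)
    (torsion_stable σ))).toIntLinearMap

theorem TT_cl (σ : Gal(K/ℚ)) (u : (𝓞 K)ˣ) : TT σ (cl u) = cl (uact σ u) := rfl

/-- `cl` as a hom -/
noncomputable def clHom : Additive (𝓞 K)ˣ →+ MM K := MonoidHom.toAdditive (QuotientGroup.mk' (torsion K))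

theorem clHom_apply (u : (𝓞 K)ˣ) : clHom (Additive.ofMul u) = cl u := rfl

variable {p : ℕ} [Fact p.Prime] [IsCyclotomicExtension {p} ℚ K]

/-- logs on the quotient -/
noncomputable def Lam [IsGalois ℚ K] {σ₀ : Gal(K/ℚ)}
    (hσ₀ : ∀ σ : Gal(K/ℚ), σ ∈ Subgroup.zpowers σ₀) (φ : K →+* ℂ) (k : ℕ) : MM K →+ ℝ :=
  MonoidHom.toAdditiveLeft (QuotientGroup.lift (torsion K)
    ({ toFun := fun u => Multiplicative.ofAdd (Lg φ σ₀ k u)
       map_one' := by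
        have h : Lg φ σ₀ k (1 : (𝓞 K)ˣ) = 0 :=
          (Lg_torsion hσ₀ φ 1).mp (one_mem _) k
        rw [h]; rfl
       map_mul' := fun u v => by rw [Lg_mul]; rfl } : (𝓞 K)ˣ →* Multiplicative ℝ)
    (fun u hu => by
      have h : Lg φ σ₀ k u = 0 := (Lg_torsion hσ₀ φ u).mp hu k
      show Multiplicative.ofAdd (Lg φ σ₀ k u) = 1
      rw [h]; rfl))

theorem Lam_cl [IsGalois ℚ K] {σ₀ : Gal(K/ℚ)}
    (hσ₀ : ∀ σ : Gal(K/ℚ), σ ∈ Subgroup.zpowers σ₀) (φ : K →+* ℂ) (k : ℕ) (u : (𝓞 K)ˣ) :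
    Lam hσ₀ φ k (cl u) = Lg φ σ₀ k u := rfl

theorem Lam_TT [IsGalois ℚ K] {σ₀ : Gal(K/ℚ)}
    (hσ₀ : ∀ σ : Gal(K/ℚ), σ ∈ Subgroup.zpowers σ₀) (φ : K →+* ℂ) (k : ℕ) (x : MM K) :
    Lam hσ₀ φ k (TT σ₀ x) = Lam hσ₀ φ (k + 1) x := by
  obtain ⟨u, rfl⟩ := cl_surj x
  rw [TT_cl, Lam_cl, Lam_cl, Lg_uact]

theorem Lam_TT_pow [IsGalois ℚ K] {σ₀ : Gal(K/ℚ)}
    (hσ₀ : ∀ σ : Gal(K/ℚ), σ ∈ Subgroup.zpowers σ₀) (φ : K →+* ℂ) (i k : ℕ) (x : MM K) :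
    Lam hσ₀ φ k ((TT σ₀ ^ i) x) = Lam hσ₀ φ (i + k) x := by
  induction i generalizing k with
  | zero => simp
  | succ i ih =>
    rw [pow_succ', Module.End.mul_apply, Lam_TT, ih]
    congr 2
    ring

theorem Lam_zero [IsGalois ℚ K] {σ₀ : Gal(K/ℚ)}
    (hσ₀ : ∀ σ : Gal(K/ℚ), σ ∈ Subgroup.zpowers σ₀) (φ : K →+* ℂ) (x : MM K)
    (h : ∀ k, Lam hσ₀ φ k x = 0) : x = 0 := by
  obtain ⟨u, rfl⟩ := cl_surj x
  rw [cl_eq_zero]
  exact (Lg_torsion hσ₀ φ u).mpr h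

theorem rank_eq (hp : 3 ≤ p) : Module.finrank ℤ (MM K) = (p - 1) / 2 - 1 := by
  have hpP : p.Prime := Fact.out
  haveI : NeZero p := ⟨hpP.ne_zero⟩
  rw [finrank_modTorsion, NumberField.Units.rank, InfinitePlace.card_eq_nrRealPlaces_add_nrComplexPlaces,
    IsCyclotomicExtension.Rat.nrRealPlaces_eq_zero K (n := p) (by omega), zero_add,
    IsCyclotomicExtension.Rat.nrComplexPlaces_eq_totient_div_two p K, Nat.totient_prime hpP]

theorem TT_charpoly (hp : 3 ≤ p) {z : 𝓞 K} (hz : IsPrimitiveRoot z p) {σ₀ : Gal(K/ℚ)}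
    (hσ₀ : ∀ σ : Gal(K/ℚ), σ ∈ Subgroup.zpowers σ₀) :
    (TT σ₀ : MM K →ₗ[ℤ] MM K).charpoly = ∑ i ∈ Finset.range ((p - 1) / 2), (X : ℤ[X]) ^ i := by
  have hpP : p.Prime := Fact.out
  haveI : IsGalois ℚ K := IsCyclotomicExtension.isGalois {p} ℚ K
  have hodd : Odd p := hpP.odd_of_ne_two (by omega)
  have hn : 0 < (p - 1) / 2 := by omega
  obtain ⟨φ⟩ : Nonempty (K →+* ℂ) := inferInstance
  obtain ⟨ε, hε⟩ := Lg_neg hp hz hσ₀ φ
  have hmon : (∑ i ∈ Finset.range ((p - 1) / 2), (X : ℤ[X]) ^ i).Monic := monic_geom_sum_X hn.ne'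
  have hdeg : (∑ i ∈ Finset.range ((p - 1) / 2), (X : ℤ[X]) ^ i).natDegree = (p - 1) / 2 - 1 := by
    have h1 := geom_sum_mul (X : ℤ[X]) ((p - 1) / 2)
    rw [← C_1] at h1
    have h2 := congrArg natDegree h1
    rw [hmon.natDegree_mul' (X_sub_C_ne_zero (1 : ℤ)), natDegree_X_sub_C, natDegree_X_pow_sub_C] at h2
    omega
  apply charpoly_eq_of_cyclic (TT σ₀) (cl ε)
  · exact hmon
  · rw [rank_eq hp]; exact hdeg
  · apply Lam_zero hσ₀ φ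
    intro k
    rw [map_sum, LinearMap.sum_apply, map_sum]
    have h1 : ∀ i ∈ Finset.range ((p - 1) / 2), Lam hσ₀ φ k ((aeval (TT σ₀) ((X : ℤ[X]) ^ i)) (cl ε)) =
        Lg φ σ₀ (i + k) ε := by
      intro i _
      rw [map_pow, aeval_X, Lam_TT_pow, Lam_cl]
    rw [Finset.sum_congr rfl h1, sum_shift _ (fun k => Lg φ σ₀ k ε) (fun k => Lg_per hp hz hσ₀ φ k ε)]
    exact Lg_sum hp hz hσ₀ φ ε
  · rw [rank_eq hp]
    intro c hc
    apply max_principle ((p - 1) / 2) hn (fun k => Lg φ σ₀ k ε) (fun k => Lg_per hp hz hσ₀ φ k ε)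
      hε (Lg_sum hp hz hσ₀ φ ε)
    intro j
    have h2 := congrArg (Lam hσ₀ φ j) hc
    rw [map_zero, map_sum] at h2
    rw [← h2]
    apply Finset.sum_congr rfl
    intro i _
    rw [map_zsmul, Lam_TT_pow, Lam_cl, zsmul_eq_mul]

end Fermat.Agent.ExtVan
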